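import Fermat.Agent.Forms3.Golay

/-!
# The biplane of order three

Eleven `6`-subsets of eleven points, two meeting in three, are in one way up to permutations of the
points: after three of them are fixed by a permutation, the kernel searches the `2 × 32` candidates
for the eight others.
-/

set_option autoImplicit false

noncomputable section

namespace FA.LeechUnique

open FA.Golay (popB card_testBit)

/-- The standard blocks, bit `q` standing for point `q`. -/
def stdBlocks : List ℕ := [63, 455, 729, 874, 948, 1260, 1393, 1434, 1622, 1699, 1805]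

/-- The third block, by the number of points on all the three. -/
def thirdBlock : List ℕ := [504, 729, 1611]

/-- The mask of a set of points. -/
def maskOf (s : Fin 11 → Bool) : ℕ := Nat.ofBits s

/-- A mask after a map of the points. -/
def mapMask (s : Fin 11 → Fin 11) (m : ℕ) : ℕ := maskOf fun q => m.testBit (s q)

/-- Two blocks meet in three points. -/
def meetThree (x y : ℕ) : Bool := popB 11 (x &&& y) == 3

/-- The candidates for the remaining blocks. -/
def candidates (B : ℕ) : List ℕ :=
  (List.range 2048).filter fun m =>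
    popB 11 m == 6 && meetThree 63 m && meetThree 455 m && meetThree B m

/-- One more member in front of compatible lists. -/
def extendWith (k : ℕ) (prev : List ℕ → List (List ℕ)) : List ℕ → List (List ℕ)
  | [] => []
  | a :: l =>
    if l.length < k then [] else
      (prev (l.filter (meetThree a))).map (a :: ·) ++ extendWith k prev l

/-- All the sublists of length `k` of pairwise compatible members. -/
def compatLists : ℕ → List ℕ → List (List ℕ)
  | 0 => fun _ => [[]]
  | k + 1 => extendWith k (compatLists k)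

theorem mem_compatLists {T : List ℕ} (hp : T.Pairwise fun x y => meetThree x y) :
    ∀ {l : List ℕ}, T.Sublist l → T ∈ compatLists T.length l := by
  induction T with
  | nil => simp [compatLists]
  | cons b T ih =>
    obtain ⟨hb, hT⟩ := List.pairwise_cons.1 hp
    intro l
    induction l with
    | nil => simp
    | cons a l ihl =>
      intro h
      have hlen : ¬ l.length < T.length := by
        have := h.length_le
        simp only [List.length_cons] at this
        omega
      rw [List.length_cons, compatLists, extendWith, if_neg hlen, List.mem_append]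
      cases h with
      | cons _ h => exact Or.inr (ihl h)
      | cons_cons _ h =>
        refine Or.inl (List.mem_map.2 ⟨T, ih hT ?_, rfl⟩)
        have := h.filter (meetThree b)
        rwa [List.filter_eq_self.2 hb] at this

/-- Maps of the points onto the standard blocks. -/
def blockMaps : List (Fin 11 → Fin 11) :=
  [![0, 1, 2, 3, 4, 5, 6, 7, 8, 9, 10],
  ![0, 1, 2, 5, 3, 4, 7, 8, 6, 10, 9],
  ![0, 1, 2, 5, 4, 3, 6, 8, 7, 10, 9],
  ![0, 1, 2, 4, 3, 5, 7, 6, 8, 9, 10],
  ![0, 1, 2, 5, 4, 3, 7, 8, 6, 10, 9],
  ![0, 1, 2, 4, 3, 5, 6, 7, 8, 9, 10],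
  ![0, 1, 2, 3, 4, 5, 7, 6, 8, 9, 10],
  ![0, 1, 2, 5, 3, 4, 6, 8, 7, 10, 9],
  ![0, 1, 2, 5, 4, 3, 8, 6, 7, 9, 10],
  ![0, 1, 2, 4, 5, 3, 7, 6, 8, 10, 9],
  ![0, 1, 2, 4, 5, 3, 8, 6, 7, 9, 10],
  ![0, 1, 2, 5, 4, 3, 7, 6, 8, 10, 9],
  ![0, 1, 2, 5, 4, 3, 7, 6, 8, 9, 10],
  ![0, 1, 2, 4, 5, 3, 7, 6, 8, 9, 10],
  ![0, 1, 2, 4, 5, 3, 8, 6, 7, 10, 9],
  ![0, 1, 2, 5, 4, 3, 8, 6, 7, 10, 9]]

theorem blockMaps_nodup :
    blockMaps.all (fun s => decide ((List.finRange 11).map fun q => (s q).val).Nodup) = true := by
  decide +kernel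

theorem blockMaps_injective {s : Fin 11 → Fin 11} (hs : s ∈ blockMaps) : Function.Injective s :=
  fun a b h => List.inj_on_of_nodup_map
    (of_decide_eq_true (List.all_eq_true.1 blockMaps_nodup s hs))
    (List.mem_finRange a) (List.mem_finRange b) (congrArg Fin.val h)

/-- The atoms of the first three blocks, `a` points on all of them. -/
def atomSize (a : ℕ) : Bool × Bool × Bool → ℕ
  | (true, true, true) | (true, false, false) | (false, true, false) | (false, false, true) => a
  | (false, false, false) => 2 - a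
  | _ => 3 - a

theorem thirdBlock_facts : ∀ a : Fin 3, thirdBlock.getD a 0 < 2048 ∧
    thirdBlock.getD a 0 ∈ thirdBlock ∧ ∀ c, (Finset.univ.filter fun q : Fin 11 =>
      ((63 : ℕ).testBit q, (455 : ℕ).testBit q, (thirdBlock.getD a 0).testBit q) = c).card =
        atomSize a c := by
  decide +kernel

theorem stdBlocks_facts : stdBlocks.Nodup ∧ stdBlocks.length = 11 := by decide +kernel

set_option maxRecDepth 100000 in
theorem search_blocks : thirdBlock.all (fun B => (compatLists 8 (candidates B)).all fun T =>
    blockMaps.any fun s =>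
      ([63, 455, B] ++ T).all fun m => stdBlocks.contains (mapMask s m)) = true := by
  decide +kernel

/-- **Uniqueness of the biplane.** -/
theorem biplane_unique (b : Fin 11 → Fin 11 → Bool)
    (hsix : ∀ i, (Finset.univ.filter fun p => b i p = true).card = 6)
    (hmeet : ∀ i j, i ≠ j → (Finset.univ.filter fun p => (b i p && b j p) = true).card = 3) :
    ∃ τ π : Equiv.Perm (Fin 11), ∀ i q, b i (τ q) = (stdBlocks.getD (π i) 0).testBit q := by
  classical
  -- the atoms of three blocks
  let g : Fin 11 → Bool × Bool × Bool := fun p => (b 0 p, b 1 p, b 2 p)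
  let N : Bool × Bool × Bool → ℕ := fun c => (Finset.univ.filter fun p => g p = c).card
  have hN : ∀ P : Bool × Bool × Bool → Bool,
      (Finset.univ.filter fun p => P (g p) = true).card = ∑ c, if P c = true then N c else 0 :=
    fun P => by
    rw [Finset.card_eq_sum_card_fiberwise (f := g) (t := Finset.univ) fun _ _ => Finset.mem_univ _]
    refine Finset.sum_congr rfl fun c _ => ?_
    rw [Finset.filter_filter]
    split_ifs with h
    · exact congrArg Finset.card (Finset.filter_congr fun p _ =>
        ⟨fun e => e.2, fun e => ⟨by rw [e]; exact h, e⟩⟩)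
    · exact Finset.card_eq_zero.2 (Finset.filter_eq_empty_iff.2 fun p _ e => h (e.2 ▸ e.1))
  have e0 := (hN fun c => c.1).symm.trans (hsix 0)
  have e1 := (hN fun c => c.2.1).symm.trans (hsix 1)
  have e2 := (hN fun c => c.2.2).symm.trans (hsix 2)
  have e01 := (hN fun c => c.1 && c.2.1).symm.trans (hmeet 0 1 (by decide))
  have e02 := (hN fun c => c.1 && c.2.2).symm.trans (hmeet 0 2 (by decide))
  have e12 := (hN fun c => c.2.1 && c.2.2).symm.trans (hmeet 1 2 (by decide))
  have eall := (hN fun _ => true).symm
  simp only [Fintype.sum_prod_type, Fintype.sum_bool, Bool.and_eq_true, Bool.false_eq_true,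
    false_and, and_false, if_false, if_true, and_self, add_zero, Finset.filter_true,
    Finset.card_univ, Fintype.card_fin] at e0 e1 e2 e01 e02 e12 eall
  obtain ⟨a, ha, haB⟩ : ∃ a, a ≤ 2 ∧ a = N (true, true, true) := ⟨_, by omega, rfl⟩
  -- a permutation to the standard position
  let B := thirdBlock.getD a 0
  let g' : Fin 11 → Bool × Bool × Bool := fun q =>
    ((63 : ℕ).testBit q, (455 : ℕ).testBit q, B.testBit q)
  have hcount : ∀ c, (Finset.univ.filter fun q => g' q = c).card = N c := by
    intro c
    refine ((thirdBlock_facts ⟨a, by omega⟩).2.2 c).trans ?_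
    rcases c with ⟨x, y, z⟩
    cases x <;> cases y <;> cases z <;> simp only [atomSize] <;> omega
  let e : Fin 11 ≃ Fin 11 := Equiv.ofFiberEquiv (f := g') (g := g) fun c =>
    Fintype.equivOfCardEq (by rw [Fintype.card_subtype, Fintype.card_subtype]; exact hcount c)
  have he : ∀ q, g (e q) = g' q := fun q => Equiv.ofFiberEquiv_map _ q
  -- the blocks after it
  let M : Fin 11 → ℕ := fun i => maskOf fun q => b i (e q)
  have hMbit : ∀ (i : Fin 11) (q : Fin 11), (M i).testBit q = b i (e q) := fun i q =>
    Nat.testBit_ofBits_lt _ _ q.isLt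
  have hlt : ∀ i, M i < 2048 := fun i => Nat.ofBits_lt_two_pow _
  have hpop : ∀ i, popB 11 (M i) = 6 := fun i => by
    rw [← card_testBit, ← hsix i]
    exact Finset.card_equiv e fun q => by simp [hMbit]
  have hand : ∀ i j, i ≠ j → meetThree (M i) (M j) = true := fun i j hij => by
    rw [meetThree, beq_iff_eq, ← card_testBit, ← hmeet i j hij]
    exact Finset.card_equiv e fun q => by simp [hMbit]
  have hfix : M 0 = 63 ∧ M 1 = 455 ∧ M 2 = B := by
    have hB : B < 2 ^ 11 := (thirdBlock_facts ⟨a, by omega⟩).1
    have h : ∀ q, b 0 (e q) = (63 : ℕ).testBit q ∧ b 1 (e q) = (455 : ℕ).testBit q ∧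
        b 2 (e q) = B.testBit q := fun q => by simpa [g, g', Prod.ext_iff] using he q
    refine ⟨?_, ?_, ?_⟩ <;> refine Nat.eq_of_testBit_eq fun k => ?_ <;>
      rcases lt_or_ge k 11 with hk | hk
    all_goals first
      | (rw [hMbit _ ⟨k, hk⟩]
         first | exact (h ⟨k, hk⟩).1 | exact (h ⟨k, hk⟩).2.1 | exact (h ⟨k, hk⟩).2.2)
      | (rw [Nat.testBit_lt_two_pow ((hlt _).trans_le (Nat.pow_le_pow_right two_pos hk)),
          Nat.testBit_lt_two_pow (lt_of_lt_of_le (by first | exact hB | norm_num)
            (Nat.pow_le_pow_right two_pos hk))])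
  have hinj : Function.Injective M := fun i j h => by
    by_contra hij
    have := hand i j hij
    rw [h, meetThree, Nat.and_self, hpop j] at this
    exact absurd this (by decide)
  let T := (candidates B).filter fun m => decide (∃ i : Fin 11, 3 ≤ i.val ∧ M i = m)
  have hnd : (candidates B).Nodup := List.nodup_range.filter _
  have hTmem : ∀ m, m ∈ T ↔ ∃ i : Fin 11, 3 ≤ i.val ∧ M i = m := fun m => by
    refine ⟨fun h => of_decide_eq_true (List.mem_filter.1 h).2, fun h => List.mem_filter.2
      ⟨?_, decide_eq_true h⟩⟩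
    obtain ⟨i, hi, rfl⟩ := h
    obtain ⟨h0, h1, h2⟩ := hfix
    refine List.mem_filter.2 ⟨List.mem_range.2 (hlt i), ?_⟩
    simp only [Bool.and_eq_true, beq_iff_eq]
    exact ⟨⟨⟨hpop i, h0 ▸ hand 0 i (by omega)⟩, h1 ▸ hand 1 i (by omega)⟩,
      h2 ▸ hand 2 i (by omega)⟩
  have hTlen : T.length = 8 := by
    rw [← List.toFinset_card_of_nodup (hnd.filter _),
      show T.toFinset = (Finset.univ.filter fun i : Fin 11 => 3 ≤ i.val).image M from
        Finset.ext fun m => by simp [hTmem], Finset.card_image_of_injective _ hinj]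
    decide
  have hTp : T.Pairwise (fun x y => meetThree x y) := by
    refine ((hnd.filter _).imp_of_mem fun {x y} hx hy hxy => ?_)
    obtain ⟨i, -, rfl⟩ := (hTmem x).1 hx
    obtain ⟨j, -, rfl⟩ := (hTmem y).1 hy
    exact hand i j fun h => hxy (congrArg M h)
  have hBmem : B ∈ thirdBlock := (thirdBlock_facts ⟨a, by omega⟩).2.1
  have hs := List.all_eq_true.1 (List.all_eq_true.1 search_blocks B hBmem) T
    (hTlen ▸ mem_compatLists hTp List.filter_sublist)
  obtain ⟨s, hsmem, hs⟩ := List.any_eq_true.1 hs
  have hstd : ∀ i, mapMask s (M i) ∈ stdBlocks := fun i => by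
    obtain ⟨h0, h1, h2⟩ := hfix
    refine List.contains_iff_mem.1 (List.all_eq_true.1 hs _ ?_)
    rcases (show i = 0 ∨ i = 1 ∨ i = 2 ∨ 3 ≤ i.val by omega) with rfl | rfl | rfl | hi
    · simp [h0]
    · simp [h1]
    · simp [h2]
    · exact List.mem_append_right _ ((hTmem _).2 ⟨i, hi, rfl⟩)
  let τ : Equiv.Perm (Fin 11) := (Equiv.ofBijective s
    (Finite.injective_iff_bijective.1 (blockMaps_injective hsmem))).trans e
  have hτ : ∀ i q, (mapMask s (M i)).testBit q.val = b i (τ q) := fun i q => by
    rw [mapMask, maskOf, Nat.testBit_ofBits_lt _ _ q.isLt]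
    exact hMbit i (s q)
  let k : Fin 11 → Fin 11 := fun i => ⟨stdBlocks.idxOf (mapMask s (M i)), by
    have := List.idxOf_lt_length_iff.2 (hstd i)
    rwa [stdBlocks_facts.2] at this⟩
  have hk : ∀ i, stdBlocks.getD (k i) 0 = mapMask s (M i) := fun i => by
    rw [List.getD_eq_getElem _ _ (List.idxOf_lt_length_iff.2 (hstd i))]
    exact List.getElem_idxOf _
  have hkinj : Function.Injective k := fun i j h => by
    have h' : ∀ q, b i (τ q) = b j (τ q) := fun q => by rw [← hτ, ← hτ, ← hk, ← hk, h]
    refine hinj (congrArg maskOf (funext fun q => ?_))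
    simpa using h' (τ.symm (e q))
  exact ⟨τ, Equiv.ofBijective k (Finite.injective_iff_bijective.1 hkinj),
    fun i q => by rw [Equiv.ofBijective_apply, hk, hτ]⟩

end FA.LeechUnique

end
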