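import Mathlib.SetTheory.Cardinal.Finite
import Mathlib.Data.Fintype.EquivFin
import Mathlib.Data.List.FinRange

/-!
# Counting by a transitive family, and orbits of given permutations
-/

set_option autoImplicit false

namespace FA.LeechUnique

/-- A family of bijections moving the fibre over `x₀` to every other one. -/
theorem card_eq_of_translate {G X : Type*} (f : G → X) (x₀ : X) (T : X → G ≃ G)
    (hT : ∀ x g, f (T x g) = x ↔ f g = x₀) :
    Nat.card G = Nat.card X * Nat.card {g // f g = x₀} := by
  rw [← Nat.card_prod]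
  refine Nat.card_congr ⟨fun g => (f g, ⟨(T (f g)).symm g, (hT (f g) _).1 (by simp)⟩),
    fun x => T x.1 x.2, fun g => by simp, fun x => ?_⟩
  obtain ⟨x, g, hg⟩ := x
  have h := (hT x g).2 hg
  refine Prod.ext h (Subtype.ext ?_)
  simp [h]

/-- The points reached from `a` in at most `k` steps. -/
def orbitList {n : ℕ} (gens : List (Fin n → Fin n)) (a : Fin n) : ℕ → List (Fin n)
  | 0 => [a]
  | k + 1 => (orbitList gens a k).flatMap fun x => x :: gens.map fun s => s x

theorem orbitList_spec {n : ℕ} {gens : List (Fin n → Fin n)} {a : Fin n}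
    {P : (Fin n → Fin n) → Prop} (hid : P fun q => q)
    (hcomp : ∀ s t, P s → P t → P fun q => s (t q))
    (hgen : ∀ s ∈ gens, Function.Injective s ∧ P s) :
    ∀ k, ∀ x ∈ orbitList gens a k, ∃ s : Equiv.Perm (Fin n), P s ∧ s a = x
  | 0, x, hx => ⟨1, hid, by simp_all [orbitList]⟩
  | k + 1, x, hx => by
    rw [orbitList, List.mem_flatMap] at hx
    obtain ⟨y, hy, hx⟩ := hx
    obtain ⟨s, hs, hsa⟩ := orbitList_spec hid hcomp hgen k y hy
    rcases List.mem_cons.1 hx with rfl | hx
    · exact ⟨s, hs, hsa⟩
    obtain ⟨t, ht, rfl⟩ := List.mem_map.1 hx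
    exact ⟨s.trans (Equiv.ofBijective t (Finite.injective_iff_bijective.1 (hgen t ht).1)),
      hcomp t s (hgen t ht).2 hs, by simp [Equiv.ofBijective_apply, hsa]⟩

theorem injective_of_nodup {n : ℕ} {s : Fin n → Fin n}
    (h : ((List.finRange n).map fun q => (s q).val).Nodup) : Function.Injective s := fun a b e =>
  List.inj_on_of_nodup_map h (List.mem_finRange a) (List.mem_finRange b) (congrArg Fin.val e)

end FA.LeechUnique
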