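import Fermat.Agent.LeechUnique.Biplane
import Fermat.Agent.LeechUnique.Translate

/-!
# The automorphisms of the biplane of order three

There are `660`: two of them move a pair of points to every other one, and a search of the kernel
leaves six fixing two points.
-/

set_option autoImplicit false

noncomputable section

namespace FA.LeechUnique

/-- A map of the points sends blocks to blocks. -/
def PreservesBlocks (s : Fin 11 → Fin 11) : Prop := ∀ m ∈ stdBlocks, mapMask s m ∈ stdBlocks

theorem mapMask_testBit (s : Fin 11 → Fin 11) (m : ℕ) (q : Fin 11) :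
    (mapMask s m).testBit q = m.testBit (s q) := by
  rw [mapMask, maskOf, Nat.testBit_ofBits_lt _ _ q.isLt]

theorem mapMask_comp (s t : Fin 11 → Fin 11) (m : ℕ) :
    mapMask (fun q => s (t q)) m = mapMask t (mapMask s m) :=
  congrArg maskOf (funext fun q => (mapMask_testBit s m (t q)).symm)

theorem mapMask_id : ∀ m ∈ stdBlocks, mapMask (fun q => q) m = m := by decide +kernel

theorem PreservesBlocks.comp {s t : Fin 11 → Fin 11} (hs : PreservesBlocks s)
    (ht : PreservesBlocks t) : PreservesBlocks fun q => s (t q) := fun m hm => by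
  rw [mapMask_comp]; exact ht _ (hs m hm)

theorem preservesBlocks_id : PreservesBlocks fun q => q := fun m hm => by
  rw [mapMask_id m hm]; exact hm

theorem PreservesBlocks.surjOn {s : Equiv.Perm (Fin 11)} (hs : PreservesBlocks s) {m : ℕ}
    (hm : m ∈ stdBlocks) : ∃ k ∈ stdBlocks, mapMask s k = m := by
  have hinj : Set.InjOn (mapMask s) (stdBlocks.toFinset : Set ℕ) := fun a ha b hb h => by
    have ha' := List.mem_toFinset.1 (Finset.mem_coe.1 ha)
    have hb' := List.mem_toFinset.1 (Finset.mem_coe.1 hb)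
    have h' := congrArg (mapMask (fun q => s.symm q)) h
    simp only [← mapMask_comp, Equiv.apply_symm_apply] at h'
    rwa [mapMask_id a ha', mapMask_id b hb'] at h'
  obtain ⟨k, hk, he⟩ := Finset.surjOn_of_injOn_of_card_le (mapMask s) (fun k hk =>
    Finset.mem_coe.2 (List.mem_toFinset.2 (hs k (List.mem_toFinset.1 (Finset.mem_coe.1 hk))))) hinj
    le_rfl (Finset.mem_coe.2 (List.mem_toFinset.2 hm))
  exact ⟨k, List.mem_toFinset.1 (Finset.mem_coe.1 hk), he⟩

theorem PreservesBlocks.symm {s : Equiv.Perm (Fin 11)} (hs : PreservesBlocks s) :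
    PreservesBlocks s.symm := fun m hm => by
  obtain ⟨k, hk, rfl⟩ := hs.surjOn hm
  rw [← mapMask_comp]
  simpa [mapMask_id k hk] using hk

/-- Two automorphisms. -/
def blockMoves : List (Fin 11 → Fin 11) :=
  [![8, 6, 1, 7, 2, 0, 9, 5, 3, 4, 10], ![6, 5, 10, 4, 0, 8, 7, 3, 2, 9, 1]]

/-- Two automorphisms fixing the first point. -/
def blockMovesZero : List (Fin 11 → Fin 11) :=
  [![0, 10, 8, 6, 4, 5, 3, 9, 2, 7, 1], ![0, 6, 7, 9, 3, 4, 2, 8, 1, 10, 5]]

theorem blockMoves_check : ((blockMoves ++ blockMovesZero).all fun s =>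
      decide (((List.finRange 11).map fun q => (s q).val).Nodup) &&
        stdBlocks.all fun m => stdBlocks.contains (mapMask s m)) = true ∧
    blockMovesZero.all (fun s => s 0 == 0) = true := by
  decide +kernel

theorem blockMoves_spec {s : Fin 11 → Fin 11} (hs : s ∈ blockMoves ++ blockMovesZero) :
    ((List.finRange 11).map fun q => (s q).val).Nodup ∧ PreservesBlocks s := by
  have h := Bool.and_eq_true_iff.1 (List.all_eq_true.1 blockMoves_check.1 s hs)
  exact ⟨of_decide_eq_true h.1, fun m hm =>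
    List.contains_iff_mem.1 (List.all_eq_true.1 h.2 m hm)⟩

theorem blockMovesZero_fix {s : Fin 11 → Fin 11} (hs : s ∈ blockMovesZero) : s 0 = 0 :=
  beq_iff_eq.1 (List.all_eq_true.1 blockMoves_check.2 s hs)

theorem blockOrbits : (∀ x : Fin 11, x ∈ orbitList blockMoves 0 3) ∧
    ∀ y : Fin 11, y ≠ 0 → y ∈ orbitList blockMovesZero 1 3 := by
  decide +kernel

/-- Two points go to any two. -/
theorem exists_blockMove {x y : Fin 11} (hxy : x ≠ y) :
    ∃ s : Equiv.Perm (Fin 11), PreservesBlocks s ∧ s 0 = x ∧ s 1 = y := by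
  obtain ⟨s, hs, hsx⟩ := orbitList_spec (P := PreservesBlocks) preservesBlocks_id
    (fun _ _ hs ht => hs.comp ht) (fun t ht => ⟨injective_of_nodup
      (blockMoves_spec (List.mem_append_left _ ht)).1,
      (blockMoves_spec (List.mem_append_left _ ht)).2⟩) 3 x (blockOrbits.1 x)
  obtain ⟨u, ⟨hu, hu0⟩, huy⟩ := orbitList_spec (P := fun t => PreservesBlocks t ∧ t 0 = 0)
    ⟨preservesBlocks_id, rfl⟩ (fun _ _ hs ht => ⟨hs.1.comp ht.1, (congrArg _ ht.2).trans hs.2⟩)
    (fun t ht => ⟨injective_of_nodup (blockMoves_spec (List.mem_append_right _ ht)).1,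
      (blockMoves_spec (List.mem_append_right _ ht)).2, blockMovesZero_fix ht⟩) 3 (s.symm y)
    (blockOrbits.2 _ fun e => hxy (by rw [← hsx, ← e, Equiv.apply_symm_apply]))
  exact ⟨u.trans s, hs.comp hu, by simp [hu0, hsx], by simp [huy]⟩

/-- A prefix of an automorphism. -/
def prefixOk (s : List (Fin 11)) : Bool :=
  stdBlocks.all fun m => stdBlocks.any fun k =>
    (List.range s.length).all fun j => k.testBit j == m.testBit (s.getD j 0)

/-- The prefixes, starting `0, 1`, of the given length less two. -/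
def autPrefixes : ℕ → List (List (Fin 11))
  | 0 => [[0, 1]]
  | k + 1 => (autPrefixes k).flatMap fun s =>
      ((List.finRange 11).filter fun x => !s.contains x && prefixOk (s ++ [x])).map (s ++ [·])

theorem autPrefixes_nine : (autPrefixes 9).Nodup ∧ (autPrefixes 9).length = 6 ∧
    ∀ s ∈ autPrefixes 9, s.length = 11 ∧ s.Nodup ∧ s.getD 0 0 = 0 ∧ s.getD 1 0 = 1 ∧
      ∀ m ∈ stdBlocks, mapMask (fun q => s.getD q 0) m ∈ stdBlocks := by
  decide +kernel

theorem prefix_mem {s : Equiv.Perm (Fin 11)} (hs : PreservesBlocks s) (h0 : s 0 = 0)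
    (h1 : s 1 = 1) : ∀ k ≤ 9, (List.ofFn s).take (k + 2) ∈ autPrefixes k
  | 0, _ => by simp [autPrefixes, List.ofFn_succ, h0, h1]
  | k + 1, hk => by
    have ih := prefix_mem hs h0 h1 k (by omega)
    have hlen : k + 2 < (List.ofFn s).length := by rw [List.length_ofFn]; omega
    rw [autPrefixes, List.mem_flatMap]
    refine ⟨_, ih, List.mem_map.2 ⟨(List.ofFn s)[k + 2],
      List.mem_filter.2 ⟨List.mem_finRange _, ?_⟩,
      (List.take_succ_eq_append_getElem hlen).symm⟩⟩
    rw [← List.take_succ_eq_append_getElem hlen, Bool.and_eq_true]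
    refine ⟨?_, List.all_eq_true.2 fun m hm => List.any_eq_true.2 ⟨_, hs m hm, ?_⟩⟩
    · rw [Bool.not_eq_true', ← Bool.not_eq_true, List.contains_iff_mem]
      intro hmem
      obtain ⟨i, hi, he⟩ := List.mem_take_iff_getElem.1 hmem
      rw [(List.nodup_ofFn.2 s.injective).getElem_inj_iff] at he
      omega
    · refine List.all_eq_true.2 fun j hj => ?_
      rw [List.mem_range, List.length_take, List.length_ofFn] at hj
      rw [beq_iff_eq,
        List.getD_eq_getElem _ _ (by rw [List.length_take, List.length_ofFn]; exact hj),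
        List.getElem_take, List.getElem_ofFn]
      exact mapMask_testBit s m ⟨j, by omega⟩

theorem card_fixing :
    Nat.card {s : Equiv.Perm (Fin 11) // PreservesBlocks s ∧ s 0 = 0 ∧ s 1 = 1} = 6 := by
  obtain ⟨hnd, hlen, hall⟩ := autPrefixes_nine
  rw [← hlen, ← List.toFinset_card_of_nodup hnd, ← Nat.card_eq_finsetCard]
  refine Nat.card_congr (Equiv.ofBijective (fun s => ⟨List.ofFn s.1, List.mem_toFinset.2 ?_⟩)
    ⟨fun a b h => ?_, fun l => ?_⟩)
  · have h := prefix_mem s.2.1 s.2.2.1 s.2.2.2 9 le_rfl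
    rwa [List.take_of_length_le (by rw [List.length_ofFn])] at h
  · exact Subtype.ext (Equiv.ext fun q => congrFun
      (List.ofFn_injective (congrArg Subtype.val h)) q)
  · obtain ⟨hl, hn, e0, e1, hb⟩ := hall l.1 (List.mem_toFinset.1 l.2)
    have hinj : Function.Injective fun q : Fin 11 => l.1.getD q 0 := fun a b h => by
      simp only [List.getD_eq_getElem _ _ (show a.val < l.1.length by omega),
        List.getD_eq_getElem _ _ (show b.val < l.1.length by omega)] at h
      exact Fin.ext (hn.getElem_inj_iff.1 h)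
    refine ⟨⟨Equiv.ofBijective _ (Finite.injective_iff_bijective.1 hinj), hb, e0, e1⟩,
      Subtype.ext (List.ext_getElem (by simp [hl]) fun i h1 h2 => ?_)⟩
    simp only [List.getElem_ofFn, Equiv.ofBijective_apply]
    exact List.getD_eq_getElem _ _ h2

theorem card_orderedPairs : Nat.card {p : Fin 11 × Fin 11 // p.1 ≠ p.2} = 110 := by
  rw [Nat.card_eq_fintype_card, Fintype.card_subtype]
  decide +kernel

/-- **There are `660` automorphisms.** -/
theorem card_biplaneAut :
    Nat.card {s : Equiv.Perm (Fin 11) // PreservesBlocks s} = 660 := by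
  choose t ht ht0 ht1 using fun x : {p : Fin 11 × Fin 11 // p.1 ≠ p.2} => exists_blockMove x.2
  let f : {s : Equiv.Perm (Fin 11) // PreservesBlocks s} → {p : Fin 11 × Fin 11 // p.1 ≠ p.2} :=
    fun s => ⟨(s.1 0, s.1 1), fun h => absurd (s.1.injective h) (by decide)⟩
  let T : {p : Fin 11 × Fin 11 // p.1 ≠ p.2} →
      Equiv.Perm {s : Equiv.Perm (Fin 11) // PreservesBlocks s} :=
    fun x => ⟨fun s => ⟨s.1.trans (t x), (ht x).comp s.2⟩,
      fun s => ⟨s.1.trans (t x).symm, (ht x).symm.comp s.2⟩,
      fun s => Subtype.ext (Equiv.ext fun q => (t x).symm_apply_apply _),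
      fun s => Subtype.ext (Equiv.ext fun q => (t x).apply_symm_apply _)⟩
  rw [card_eq_of_translate f ⟨(0, 1), Fin.zero_ne_one⟩ T fun x s => ?_, card_orderedPairs]
  · rw [Nat.card_congr ((Equiv.subtypeEquivRight (q := fun s => s.1 0 = 0 ∧ s.1 1 = 1) fun s =>
      by simp [f, Prod.ext_iff]).trans (Equiv.subtypeSubtypeEquivSubtypeInter _
        fun s : Equiv.Perm (Fin 11) => s 0 = 0 ∧ s 1 = 1)), card_fixing]
  · simp only [f, T, Subtype.ext_iff, Prod.ext_iff, Equiv.coe_fn_mk, Equiv.trans_apply]
    rw [← ht0 x, ← ht1 x, (t x).injective.eq_iff, (t x).injective.eq_iff]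

end FA.LeechUnique

end
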