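import Fermat.Agent.LeechUnique.GolayUnique
import Fermat.Agent.Forms3.LeechLattice

/-!
# A lattice with a frame is the Leech lattice

A lattice in `ℤ²⁴`, of one parity in each vector, self-dual for `(x·y)/8`, even and of minimum four,
has as halves of its even vectors, modulo two, a Golay code; once the coordinates are permuted and
the signs make an odd vector `1` modulo four, it is Conway's lattice.
-/

set_option autoImplicit false

noncomputable section

open Matrix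

namespace FA.LeechUnique

open FA.Leech FA.Gleason

/-- A lattice in the coordinates of a frame. -/
structure IsFrameLattice (Λ : AddSubgroup (Fin 24 → ℤ)) : Prop where
  parity : ∀ x ∈ Λ, ∀ i j, x i % 2 = x j % 2
  inner : ∀ x ∈ Λ, ∀ y ∈ Λ, (8 : ℤ) ∣ x ⬝ᵥ y
  norm : ∀ x ∈ Λ, (16 : ℤ) ∣ x ⬝ᵥ x
  min : ∀ x ∈ Λ, x ≠ 0 → 32 ≤ x ⬝ᵥ x
  dual : ∀ y, (∀ x ∈ Λ, (8 : ℤ) ∣ x ⬝ᵥ y) → y ∈ Λ

/-- The same without self-duality, but with the even multiples of four. -/
structure IsPreFrame (Λ : AddSubgroup (Fin 24 → ℤ)) : Prop where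
  parity : ∀ x ∈ Λ, ∀ i j, x i % 2 = x j % 2
  inner : ∀ x ∈ Λ, ∀ y ∈ Λ, (8 : ℤ) ∣ x ⬝ᵥ y
  norm : ∀ x ∈ Λ, (16 : ℤ) ∣ x ⬝ᵥ x
  min : ∀ x ∈ Λ, x ≠ 0 → 32 ≤ x ⬝ᵥ x
  four : ∀ z : Fin 24 → ℤ, (2 : ℤ) ∣ ∑ i, z i → (4 : ℤ) • z ∈ Λ

variable {Λ : AddSubgroup (Fin 24 → ℤ)}

theorem cast_eq_one (a : ℤ) : (a : ZMod 2) = 1 ↔ a % 2 = 1 := by
  rw [← Int.cast_one, ZMod.intCast_eq_intCast_iff']
  norm_num

theorem IsFrameLattice.four_mul_mem (h : IsFrameLattice Λ) {z : Fin 24 → ℤ}
    (hz : (2 : ℤ) ∣ ∑ i, z i) : (4 : ℤ) • z ∈ Λ := by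
  refine h.dual _ fun x hx => ?_
  rw [dotProduct_smul, smul_eq_mul, show (8 : ℤ) = 4 * 2 by norm_num]
  refine mul_dvd_mul_left 4 ?_
  have h1 : (2 : ℤ) ∣ ∑ i, (x i - x 0) * z i := Finset.dvd_sum fun i _ =>
    dvd_mul_of_dvd_left (Int.dvd_of_emod_eq_zero (by have := h.parity x hx i 0; omega)) _
  have h2 : x ⬝ᵥ z = ∑ i, (x i - x 0) * z i + x 0 * ∑ i, z i := by
    simp only [dotProduct, sub_mul, Finset.sum_sub_distrib, ← Finset.mul_sum]; ring
  rw [h2]
  exact dvd_add h1 (dvd_mul_of_dvd_right hz _)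

theorem IsFrameLattice.pre (h : IsFrameLattice Λ) : IsPreFrame Λ :=
  ⟨h.parity, h.inner, h.norm, h.min, fun _ hz => h.four_mul_mem hz⟩

theorem IsFrameLattice.exists_odd (h : IsFrameLattice Λ) : ∃ x ∈ Λ, ∀ i, x i % 2 = 1 := by
  by_contra hno
  have hev : ∀ x ∈ Λ, x 0 % 2 = 0 := fun x hx => by
    by_contra h0
    exact hno ⟨x, hx, fun i => by rw [h.parity x hx i 0]; omega⟩
  have hmem : Pi.single 0 4 ∈ Λ := h.dual _ fun x hx => by
    rw [dotProduct_single]
    have := hev x hx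
    omega
  have h32 := h.min _ hmem fun e => by simpa using congrFun e 0
  norm_num [dotProduct_single] at h32

/-- The halves of the even vectors modulo two. -/
def frameCode (Λ : AddSubgroup (Fin 24 → ℤ)) : Submodule (ZMod 2) (Fin 24 → ZMod 2) where
  carrier := {c | ∃ y : Fin 24 → ℤ, (2 : ℤ) • y ∈ Λ ∧ ∀ i, c i = (y i : ZMod 2)}
  zero_mem' := ⟨0, by rw [smul_zero]; exact Λ.zero_mem, fun i => by simp⟩
  add_mem' := by
    rintro a b ⟨y, hy, ha⟩ ⟨z, hz, hb⟩
    exact ⟨y + z, by rw [smul_add]; exact Λ.add_mem hy hz, fun i => by simp [ha, hb]⟩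
  smul_mem' := by
    intro a v hv
    rcases eq_zero_or_one a with rfl | rfl
    · exact ⟨0, by rw [smul_zero]; exact Λ.zero_mem, fun i => by simp⟩
    · rwa [one_smul]

/-- A word of `0` and `1` in `ℤ`. -/
def lift2 (c : Fin 24 → ZMod 2) : Fin 24 → ℤ := fun i => ((c i).val : ℤ)

theorem lift2_cast (c : Fin 24 → ZMod 2) (i : Fin 24) : (lift2 c i : ZMod 2) = c i := by
  simp [lift2]

theorem lift2_mem (c : Fin 24 → ZMod 2) (i : Fin 24) :
    lift2 c i = 0 ∨ lift2 c i = 1 := by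
  rcases eq_zero_or_one (c i) with e | e <;> simp [lift2, e, ZMod.val_one]

theorem IsPreFrame.short_rep (h : IsPreFrame Λ) {c : Fin 24 → ZMod 2}
    (hc : c ∈ frameCode Λ) :
    ∃ y : Fin 24 → ℤ, (2 : ℤ) • y ∈ Λ ∧ y ⬝ᵥ y = (hammingNorm c : ℤ) ∧
      (c ≠ 0 → y ≠ 0) := by
  have hnorm : ∀ y : Fin 24 → ℤ, (∀ i, y i ^ 2 = lift2 c i) → y ⬝ᵥ y = (hammingNorm c : ℤ) ∧
      (c ≠ 0 → y ≠ 0) := fun y hy => by
    refine ⟨?_, fun hc0 hy0 => hc0 (funext fun i => ?_)⟩
    · rw [weight_eq, Finset.card_filter]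
      push_cast
      refine Finset.sum_congr rfl fun i _ => ?_
      rw [← sq, hy]
      rcases eq_zero_or_one (c i) with e | e <;> simp [lift2, e, ZMod.val_one]
    · rw [← lift2_cast c i, ← hy, hy0]
      simp
  obtain ⟨y, hy, hyc⟩ := hc
  have hdiff : ∀ i, ∃ z, y i = lift2 c i + 2 * z := fun i => by
    have : ((y i - lift2 c i : ℤ) : ZMod 2) = 0 := by push_cast; rw [lift2_cast, ← hyc, sub_self]
    obtain ⟨z, hz⟩ := (ZMod.intCast_zmod_eq_zero_iff_dvd _ 2).1 this
    exact ⟨z, by push_cast at hz; linarith⟩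
  choose z hz using hdiff
  rcases eq_or_ne c 0 with rfl | hc0
  · exact ⟨0, by rw [smul_zero]; exact Λ.zero_mem, hnorm 0 fun i => by simp [lift2]⟩
  obtain ⟨i₀, hi₀⟩ := Function.ne_iff.1 hc0
  have hi1 : lift2 c i₀ = 1 := by simp [lift2, (zmod2_ne_zero _).1 hi₀, ZMod.val_one]
  rcases Int.emod_two_eq_zero_or_one (∑ i, z i) with hs | hs
  · refine ⟨lift2 c, ?_, hnorm _ fun i => by rcases lift2_mem c i with e | e <;> simp [e]⟩
    have := Λ.sub_mem hy (h.four _ (Int.dvd_of_emod_eq_zero hs))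
    convert this using 1
    funext i
    simp only [Pi.sub_apply, Pi.smul_apply, smul_eq_mul, hz i]
    ring
  · refine ⟨lift2 c - Pi.single i₀ 2, ?_, hnorm _ fun i => ?_⟩
    · have := Λ.sub_mem hy (h.four (z + Pi.single i₀ 1) (by
        simp only [Pi.add_apply, Finset.sum_add_distrib, Finset.sum_pi_single', Finset.mem_univ,
          if_true]
        omega))
      convert this using 1
      funext i
      simp only [Pi.sub_apply, Pi.add_apply, Pi.smul_apply, smul_eq_mul, hz i]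
      rcases eq_or_ne i i₀ with rfl | hne
      · simp; ring
      · simp [hne]; ring
    · rcases eq_or_ne i i₀ with rfl | hne
      · simp [hi1]
      · rcases lift2_mem c i with e | e <;> simp [hne, e]

theorem two_dvd_of_cast {a : ℤ} (ha : (a : ZMod 2) = 0) : (2 : ℤ) ∣ a :=
  (ZMod.intCast_zmod_eq_zero_iff_dvd a 2).1 ha

theorem IsPreFrame.weights (h : IsPreFrame Λ) {c : Fin 24 → ZMod 2} (hc : c ∈ frameCode Λ) :
    4 ∣ hammingNorm c ∧ (c ≠ 0 → 8 ≤ hammingNorm c) := by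
  obtain ⟨y, hy, hyn, hy0⟩ := h.short_rep hc
  have e : ((2 : ℤ) • y) ⬝ᵥ ((2 : ℤ) • y) = 4 * (hammingNorm c : ℤ) := by
    rw [smul_dotProduct, dotProduct_smul, hyn, smul_eq_mul, smul_eq_mul]; ring
  have h16 := h.norm _ hy
  rw [e] at h16
  refine ⟨by omega, fun hc0 => ?_⟩
  have h32 := h.min _ hy (smul_ne_zero two_ne_zero (hy0 hc0))
  rw [e] at h32
  omega

theorem IsPreFrame.orth (h : IsPreFrame Λ) {v c : Fin 24 → ZMod 2} (hv : v ∈ frameCode Λ)
    (hc : c ∈ frameCode Λ) : ∑ i, v i * c i = 0 := by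
  obtain ⟨a, ha, hva⟩ := hv
  obtain ⟨b, hb, hcb⟩ := hc
  have h8 := h.inner _ ha _ hb
  rw [smul_dotProduct, dotProduct_smul, smul_eq_mul, smul_eq_mul] at h8
  have h2 : ((a ⬝ᵥ b : ℤ) : ZMod 2) = 0 :=
    (ZMod.intCast_zmod_eq_zero_iff_dvd _ 2).2 (by push_cast; omega)
  simp only [dotProduct, Int.cast_sum, Int.cast_mul, ← hva, ← hcb] at h2
  exact h2

theorem IsFrameLattice.isGolayLike (h : IsFrameLattice Λ) : IsGolayLike (frameCode Λ) := by
  obtain ⟨x₀, hx₀, hodd⟩ := h.exists_odd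
  have hones : (fun _ => 1) ∈ frameCode Λ := ⟨x₀, by rw [two_smul]; exact Λ.add_mem hx₀ hx₀,
    fun i => by
      exact ((cast_eq_one _).2 (hodd i)).symm⟩
  refine ⟨⟨fun v => ⟨fun hv c hc => h.pre.orth hv hc, fun hv => ?_⟩,
    fun c hc => (h.pre.weights hc).1⟩, fun c hc => (h.pre.weights hc).2⟩
  -- a vector over `v`
  have hzero : ∀ x ∈ Λ, x 0 % 2 = 0 → (4 : ℤ) ∣ x ⬝ᵥ lift2 v ∧
      ∀ i, (4 : ℤ) ∣ x ⬝ᵥ Pi.single i 2 := fun x hx hx0 => by
    have he : ∀ i, x i = 2 * (x i / 2) := fun i => by have := h.parity x hx i 0; omega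
    have hcmem : (fun i => ((x i / 2 : ℤ) : ZMod 2)) ∈ frameCode Λ :=
      ⟨fun i => x i / 2, by convert hx using 1; funext i; exact (he i).symm, fun _ => rfl⟩
    refine ⟨?_, fun i => by rw [dotProduct_single]; have := he i; omega⟩
    obtain ⟨k, hk⟩ : (2 : ℤ) ∣ ∑ i, x i / 2 * lift2 v i := by
      refine two_dvd_of_cast ?_
      push_cast
      simp only [lift2_cast]
      exact (Finset.sum_congr rfl fun i _ => mul_comm _ _).trans (hv _ hcmem)
    refine ⟨k, ?_⟩
    rw [dotProduct, Finset.sum_congr rfl fun i _ => show x i * lift2 v i =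
      2 * (x i / 2 * lift2 v i) by rw [← mul_assoc, ← he i], ← Finset.mul_sum, hk]
    ring
  have h2b : (2 : ℤ) ∣ x₀ ⬝ᵥ lift2 v := by
    refine two_dvd_of_cast ?_
    simp only [dotProduct, Int.cast_sum, Int.cast_mul, lift2_cast]
    refine Eq.trans (Finset.sum_congr rfl fun i _ => ?_) (hv _ hones)
    rw [(cast_eq_one _).2 (hodd i)]
    ring
  obtain ⟨y, hyv, hy0, hyx⟩ : ∃ y : Fin 24 → ℤ, (∀ i, v i = (y i : ZMod 2)) ∧
      (∀ x ∈ Λ, x 0 % 2 = 0 → (4 : ℤ) ∣ x ⬝ᵥ y) ∧ (4 : ℤ) ∣ x₀ ⬝ᵥ y := by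
    by_cases h4 : (4 : ℤ) ∣ x₀ ⬝ᵥ lift2 v
    · exact ⟨lift2 v, fun i => (lift2_cast v i).symm, fun x hx hx0 => (hzero x hx hx0).1, h4⟩
    obtain ⟨i, hi⟩ : ∃ i, v i ≠ 0 := by
      by_contra hall
      push Not at hall
      exact h4 (by simp [dotProduct, lift2, hall])
    refine ⟨lift2 v - Pi.single i 2, fun j => ?_, fun x hx hx0 => ?_, ?_⟩
    · have e2 : ((2 : ℤ) : ZMod 2) = 0 := rfl
      rcases eq_or_ne j i with rfl | hne <;> simp [*, lift2_cast, CharTwo.two_eq_zero]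
    · rw [dotProduct_sub]
      exact dvd_sub (hzero x hx hx0).1 ((hzero x hx hx0).2 i)
    · rw [dotProduct_sub, dotProduct_single]
      have := hodd i
      omega
  refine ⟨y, h.dual _ fun x hx => ?_, hyv⟩
  rw [dotProduct_smul, smul_eq_mul, show (8 : ℤ) = 2 * 4 by norm_num]
  refine mul_dvd_mul_left 2 ?_
  rcases Int.emod_two_eq_zero_or_one (x 0) with h0 | h0
  · exact hy0 x hx h0
  · have := hy0 (x - x₀) (Λ.sub_mem hx hx₀) (by
      have := hodd 0
      simp only [Pi.sub_apply]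
      omega)
    rw [sub_dotProduct] at this
    exact (dvd_sub_left hyx).1 this

/-- A permutation of the coordinates with signs. -/
def monomial (σ : Equiv.Perm (Fin 24)) (s : Fin 24 → ℤ) :
    (Fin 24 → ℤ) →+ (Fin 24 → ℤ) where
  toFun x i := s i * x (σ i)
  map_zero' := funext fun _ => mul_zero _
  map_add' _ _ := funext fun _ => mul_add _ _ _

variable {σ : Equiv.Perm (Fin 24)} {s : Fin 24 → ℤ}

theorem monomial_apply (x : Fin 24 → ℤ) (i : Fin 24) : monomial σ s x i = s i * x (σ i) := rfl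

theorem monomial_surjective (hs : ∀ i, s i = 1 ∨ s i = -1) :
    Function.Surjective (monomial σ s) := fun y =>
  ⟨fun j => s (σ.symm j) * y (σ.symm j), funext fun i => by
    rw [monomial_apply, Equiv.symm_apply_apply]
    rcases hs i with e | e <;> rw [e] <;> ring⟩

theorem monomial_dot (hs : ∀ i, s i = 1 ∨ s i = -1) (x y : Fin 24 → ℤ) :
    monomial σ s x ⬝ᵥ monomial σ s y = x ⬝ᵥ y := by
  refine (Finset.sum_congr rfl fun i _ => ?_).trans (Equiv.sum_comp σ fun j => x j * y j)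
  rw [monomial_apply, monomial_apply]
  rcases hs i with e | e <;> rw [e] <;> ring

theorem monomial_injective (hs : ∀ i, s i = 1 ∨ s i = -1) :
    Function.Injective (monomial σ s) := fun x y e => by
  funext j
  have := congrFun e (σ.symm j)
  rw [monomial_apply, monomial_apply, Equiv.apply_symm_apply] at this
  rcases hs (σ.symm j) with e' | e' <;> rw [e'] at this <;> linarith

theorem IsPreFrame.map (h : IsPreFrame Λ) (hs : ∀ i, s i = 1 ∨ s i = -1) :
    IsPreFrame (Λ.map (monomial σ s)) where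
  parity := by
    rintro _ ⟨x, hx, rfl⟩ i j
    have := h.parity x hx (σ i) (σ j)
    rw [monomial_apply, monomial_apply]
    rcases hs i with e | e <;> rcases hs j with e' | e' <;> rw [e, e'] <;> omega
  inner := by
    rintro _ ⟨x, hx, rfl⟩ _ ⟨y, hy, rfl⟩
    rw [monomial_dot hs]; exact h.inner x hx y hy
  norm := by
    rintro _ ⟨x, hx, rfl⟩
    rw [monomial_dot hs]; exact h.norm x hx
  min := by
    rintro _ ⟨x, hx, rfl⟩ hne
    rw [monomial_dot hs]
    exact h.min x hx fun e => hne (by rw [e, map_zero])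
  four := fun z hz => by
    refine ⟨(4 : ℤ) • fun j => s (σ.symm j) * z (σ.symm j), h.four _ ?_, ?_⟩
    · rw [Equiv.sum_comp σ.symm fun i => s i * z i]
      have e : ∑ i, s i * z i = ∑ i, z i + ∑ i, (s i - 1) * z i := by
        simp only [sub_mul, one_mul, Finset.sum_sub_distrib]; ring
      rw [e]
      refine dvd_add hz (Finset.dvd_sum fun i _ => dvd_mul_of_dvd_left ?_ _)
      rcases hs i with e' | e' <;> rw [e'] <;> norm_num
    · funext i
      rw [monomial_apply, Pi.smul_apply, Pi.smul_apply, Equiv.symm_apply_apply, smul_eq_mul,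
        smul_eq_mul]
      rcases hs i with e' | e' <;> rw [e'] <;> ring

theorem IsFrameLattice.map (h : IsFrameLattice Λ) (hs : ∀ i, s i = 1 ∨ s i = -1) :
    IsFrameLattice (Λ.map (monomial σ s)) where
  parity := by
    rintro _ ⟨x, hx, rfl⟩ i j
    have := h.parity x hx (σ i) (σ j)
    rw [monomial_apply, monomial_apply]
    rcases hs i with e | e <;> rcases hs j with e' | e' <;> rw [e, e'] <;> omega
  inner := by
    rintro _ ⟨x, hx, rfl⟩ _ ⟨y, hy, rfl⟩
    rw [monomial_dot hs]; exact h.inner x hx y hy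
  norm := by
    rintro _ ⟨x, hx, rfl⟩
    rw [monomial_dot hs]; exact h.norm x hx
  min := by
    rintro _ ⟨x, hx, rfl⟩ hne
    rw [monomial_dot hs]
    exact h.min x hx fun e => hne (by rw [e, map_zero])
  dual := fun y hy => by
    obtain ⟨y, rfl⟩ := monomial_surjective (σ := σ) hs y
    exact ⟨y, h.dual y fun x hx => by
      have := hy _ ⟨x, hx, rfl⟩
      rwa [monomial_dot hs] at this, rfl⟩

/-- With an odd vector and a Golay code, all vectors are in Conway's lattice up to a monomial. -/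
theorem IsPreFrame.monomial_inL (h : IsPreFrame Λ) (hG : IsGolayLike (frameCode Λ))
    {x₁ : Fin 24 → ℤ} (hx₁ : x₁ ∈ Λ) (hodd : ∀ i, x₁ i % 2 = 1) :
    ∃ (σ : Equiv.Perm (Fin 24)) (s : Fin 24 → ℤ), (∀ i, s i = 1 ∨ s i = -1) ∧
      ∀ x ∈ Λ, InL (monomial σ s x) := by
  obtain ⟨σ, hσ⟩ := hG.equiv_golay
  set s : Fin 24 → ℤ := fun i => if x₁ (σ i) % 4 = 1 then 1 else -1 with hsdef
  have hs : ∀ i, s i = 1 ∨ s i = -1 := fun i => by simp only [hsdef]; split_ifs <;> simp
  have h2 := h.map (σ := σ) hs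
  set Λ₂ := Λ.map (monomial σ s)
  set x₀ := monomial σ s x₁
  have hx₀ : x₀ ∈ Λ₂ := ⟨x₁, hx₁, rfl⟩
  have hx₀4 : ∀ i, x₀ i % 4 = 1 := fun i => by
    have := hodd (σ i)
    simp only [x₀, monomial_apply, hsdef]
    split_ifs <;> omega
  -- the even vectors
  have heven : ∀ x ∈ Λ₂, x 0 % 2 = 0 → InL x := fun x hx hx0 => by
    have he : ∀ i, x i = 2 * (x i / 2) := fun i => by have := h2.parity x hx i 0; omega
    obtain ⟨u, hu, hux⟩ := hx
    have hue : ∀ i, u i = 2 * (u i / 2) := fun i => by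
      have := he (σ.symm i)
      rw [← hux, monomial_apply, Equiv.apply_symm_apply] at this
      rcases hs (σ.symm i) with e | e <;> rw [e] at this <;> omega
    have hcode := (hσ _).1 (show (fun i => ((u i / 2 : ℤ) : ZMod 2)) ∈ frameCode Λ from
      ⟨fun i => u i / 2, by
        rw [show ((2 : ℤ) • fun i => u i / 2) = u from funext fun i => (hue i).symm]
        exact hu, fun _ => rfl⟩)
    refine ⟨fun i => h2.parity x ⟨u, hu, hux⟩ i 0, ?_, ?_⟩
    · convert mem_golayCode.1 hcode using 1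
      funext i
      have hui := hue (σ i)
      show decide (x i / 2 % 2 = 1) = decide (((u (σ i) / 2 : ℤ) : ZMod 2) = 1)
      rw [decide_eq_decide, ← hux, monomial_apply, cast_eq_one]
      rcases hs i with e | e <;> rw [e] <;> omega
    · have h8 := h2.inner x₀ hx₀ x ⟨u, hu, hux⟩
      have e : x₀ ⬝ᵥ x = ∑ i, x i + 8 * ∑ i, (x₀ i / 4) * (x i / 2) := by
        rw [dotProduct, Finset.mul_sum, ← Finset.sum_add_distrib]
        refine Finset.sum_congr rfl fun i _ => ?_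
        conv_lhs => rw [show x₀ i = 4 * (x₀ i / 4) + 1 by have := hx₀4 i; omega]
        conv_rhs => arg 1; rw [he i]
        conv_lhs => rw [he i]
        ring
      rw [hx0]
      omega
  have hin0 : InL x₀ := by
    refine ⟨fun i => by have := hx₀4 i; have := hx₀4 0; omega, ?_, ?_⟩
    · convert FA.Golay.zero_mem using 1
      funext i
      have := hx₀4 i
      simp only [pat, decide_eq_false_iff_not]
      omega
    · obtain ⟨w, hw⟩ := h2.norm x₀ hx₀
      have hq : ∀ i, x₀ i = 4 * (x₀ i / 4) + 1 := fun i => by have := hx₀4 i; omega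
      rw [dotProduct, Finset.sum_congr rfl fun i _ => show x₀ i * x₀ i =
        16 * (x₀ i / 4) ^ 2 + 8 * (x₀ i / 4) + 1 by conv_lhs => rw [hq i]
                                                    ring,
        Finset.sum_add_distrib, Finset.sum_add_distrib, ← Finset.mul_sum, ← Finset.mul_sum,
        Finset.sum_const, Finset.card_univ, Fintype.card_fin, nsmul_one] at hw
      rw [Finset.sum_congr rfl fun i _ => hq i, Finset.sum_add_distrib, ← Finset.mul_sum,
        Finset.sum_const, Finset.card_univ, Fintype.card_fin, nsmul_one,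
        show x₀ 0 % 2 = 1 by have := hx₀4 0; omega]
      push_cast at hw ⊢
      omega
  have hall : ∀ x ∈ Λ₂, InL x := fun x hx => by
    rcases Int.emod_two_eq_zero_or_one (x 0) with h0 | h0
    · exact heven x hx h0
    · have := heven (x - x₀) (Λ₂.sub_mem hx hx₀) (by
        have := hx₀4 0
        simp only [Pi.sub_apply]
        omega)
      simpa using inL_add this hin0
  exact ⟨σ, s, hs, fun x hx => hall _ ⟨x, hx, rfl⟩⟩

/-- **A lattice with a frame is Conway's lattice.** -/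
theorem IsFrameLattice.equiv_leech (h : IsFrameLattice Λ) :
    ∃ (σ : Equiv.Perm (Fin 24)) (s : Fin 24 → ℤ), (∀ i, s i = 1 ∨ s i = -1) ∧
      ∀ x, x ∈ Λ ↔ InL (monomial σ s x) := by
  obtain ⟨x₁, hx₁, hodd⟩ := h.exists_odd
  obtain ⟨σ, s, hs, hall⟩ := h.pre.monomial_inL h.isGolayLike hx₁ hodd
  refine ⟨σ, s, hs, fun x => ⟨hall x, fun hx => ?_⟩⟩
  obtain ⟨u, hu, hux⟩ := (h.map (σ := σ) hs).dual _ fun y hy => by
    obtain ⟨w, hw, rfl⟩ := hy
    exact eight_dvd_inner (hall w hw) hx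
  rwa [← monomial_injective hs hux]

end FA.LeechUnique

end
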