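import Fermat.Agent.LeechUnique.Mathieu
import Fermat.Agent.LeechUnique.FrameLattice

/-!
# The monomial automorphisms of the Leech lattice

A permutation with signs preserves Conway's lattice exactly when the permutation preserves the Golay
code and the negated coordinates form a word.
-/

set_option autoImplicit false

noncomputable section

open scoped Classical

namespace FA.LeechUnique

open FA.Golay (code wt common bxor_mem ones_mem four_dvd_wt two_dvd_common)
open FA.Leech

/-- The signs of a word. -/
def signs (b : Fin 24 → Bool) (i : Fin 24) : ℤ := if b i = true then -1 else 1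

theorem signs_eq (b : Fin 24 → Bool) (i : Fin 24) : signs b i = 1 ∨ signs b i = -1 := by
  unfold signs; split_ifs <;> simp

theorem signs_injective : Function.Injective signs := fun a b h => funext fun i => by
  have := congrFun h i
  unfold signs at this
  cases ha : a i <;> cases hb : b i <;> simp [ha, hb] at this ⊢

theorem inL_comp {σ : Equiv.Perm (Fin 24)} (hσ : PreservesCode σ) {x : Fin 24 → ℤ} (hx : InL x) :
    InL fun i => x (σ i) := by
  obtain ⟨hp, hc, hs⟩ := hx
  refine ⟨fun i => (hp _).trans (hp _).symm, (hσ _).2 hc, ?_⟩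
  show (8 : ℤ) ∣ ∑ i, x (σ i) - 4 * (x (σ 0) % 2)
  rw [Equiv.sum_comp σ x, hp]
  exact hs

theorem inL_signs {b : Fin 24 → Bool} (hb : b ∈ code) {x : Fin 24 → ℤ} (hx : InL x) :
    InL fun i => signs b i * x i := by
  have hd : InL fun i => -(2 * (bitZ b i * x i)) := by
    obtain ⟨hp, hc, -⟩ := hx
    have hev : ∀ i, -(2 * (bitZ b i * x i)) % 2 = 0 := fun i => by omega
    refine ⟨fun i => (hev i).trans (hev 0).symm, ?_, ?_⟩
    · rcases Int.emod_two_eq_zero_or_one (x 0) with h0 | h0
      · convert FA.Golay.zero_mem using 1
        funext i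
        have := hp i
        simp only [pat, bitZ, decide_eq_false_iff_not]
        split_ifs <;> omega
      · convert hb using 1
        funext i
        have := hp i
        simp only [pat, bitZ]
        by_cases hbi : b i = true
        · simp [hbi]; omega
        · simp [hbi]
    · show (8 : ℤ) ∣ ∑ i, -(2 * (bitZ b i * x i)) - 4 * (-(2 * (bitZ b 0 * x 0)) % 2)
      rw [hev 0, Finset.sum_congr rfl fun i _ => show -(2 * (bitZ b i * x i)) =
          -(2 * (x 0 % 2)) * bitZ b i - 4 * (bitZ b i * bitZ (pat x) i) -
            8 * (bitZ b i * (x i / 4)) by conv_lhs => rw [coords hp i]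
                                          ring,
        Finset.sum_sub_distrib, Finset.sum_sub_distrib, ← Finset.mul_sum, ← Finset.mul_sum,
        ← Finset.mul_sum, sum_bitZ, sum_bitZ_mul]
      obtain ⟨u, hu⟩ := four_dvd_wt hb
      obtain ⟨v, hv⟩ := two_dvd_common hb hc
      rw [hu, hv]
      refine ⟨-((x 0 % 2) * u) - v - ∑ i, bitZ b i * (x i / 4), ?_⟩
      push_cast
      ring
  convert inL_add hd hx using 1
  funext i
  simp only [Pi.add_apply, signs, bitZ]
  split_ifs <;> ring

theorem monomial_signs (σ : Equiv.Perm (Fin 24)) (b : Fin 24 → Bool) (x : Fin 24 → ℤ) :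
    monomial σ (signs b) x = fun i => signs b i * x (σ i) := rfl

/-- The condition is sufficient, in both directions. -/
theorem inL_monomial_iff {σ : Equiv.Perm (Fin 24)} (hσ : PreservesCode σ) {b : Fin 24 → Bool}
    (hb : b ∈ code) (x : Fin 24 → ℤ) : InL (monomial σ (signs b) x) ↔ InL x := by
  refine ⟨fun h => ?_, fun h => inL_signs hb (inL_comp hσ h)⟩
  have h2 := inL_comp hσ.symm (inL_signs hb h)
  convert h2 using 1
  funext i
  simp only [monomial_signs, Equiv.apply_symm_apply, ← mul_assoc]
  rcases signs_eq b (σ.symm i) with e | e <;> rw [e] <;> ring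

/-- The condition is necessary. -/
theorem of_inL_monomial {σ : Equiv.Perm (Fin 24)} {b : Fin 24 → Bool}
    (h : ∀ x, InL x → InL (monomial σ (signs b) x)) : PreservesCode σ ∧ b ∈ code := by
  refine ⟨preservesCode_of_forward σ.injective fun c hc => ?_, ?_⟩
  · convert (h _ (inL_double hc)).2.1 using 1
    funext i
    simp only [pat, monomial_apply, signs, bitZ]
    by_cases hbi : b i = true <;> by_cases hci : c (σ i) = true <;> simp [hbi, hci]
  · convert (h _ inL_glue).2.1 using 1
    funext i
    simp only [pat, monomial_apply, signs]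
    by_cases hbi : b i = true <;> by_cases h0 : σ i = 0 <;> simp [hbi, h0]

end FA.LeechUnique

end
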