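import Fermat.Agent.LeechUnique.FrameCount
import Fermat.Agent.LeechUnique.Monomial

/-!
# The order of Conway's group `Co₀`

The automorphisms of the Leech lattice move a frame to each of the `8292375` others, and those
keeping one are the permutations with signs that preserve it.
-/

set_option autoImplicit false

noncomputable section

open Matrix
open scoped Classical

namespace FA.LeechUnique

open FA.UnimodularTheta

/-- Conway's lattice, as points. -/
abbrev LeechPt := FA.Summary.leechLattice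

/-- The automorphisms: additive bijections preserving the inner product. -/
def LeechAut : Type := {f : LeechPt ≃+ LeechPt //
  ∀ x y : LeechPt, (f x : Fin 24 → ℤ) ⬝ᵥ (f y : Fin 24 → ℤ) = (x : Fin 24 → ℤ) ⬝ᵥ (y : Fin 24 → ℤ)}

/-- An axis. -/
def axis (k : Fin 24) : LeechPt :=
  ⟨Pi.single k 8, Summary.mem_leechLattice.2 (by
    convert Leech.inL_pair k k 1 (Or.inl rfl) using 1
    rw [mul_one, ← Pi.single_add]
    rfl)⟩

theorem axis_val (k : Fin 24) : (axis k : Fin 24 → ℤ) = Pi.single k 8 := rfl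

/-- One class modulo twice the lattice. -/
def Congr (x y : LeechPt) : Prop := ∃ w : LeechPt, x - y = (2 : ℤ) • w

theorem congr_axis (k : Fin 24) : Congr (axis k) (axis 0) :=
  ⟨⟨Pi.single k 4 + Pi.single 0 (4 * (-1)),
      Summary.mem_leechLattice.2 (Leech.inL_pair k 0 (-1) (Or.inr rfl))⟩, Subtype.ext (by
    show (Pi.single k 8 - Pi.single 0 8 : Fin 24 → ℤ) =
      (2 : ℤ) • (Pi.single k 4 + Pi.single 0 (4 * (-1)))
    rw [smul_add, ← Pi.single_smul', ← Pi.single_smul', sub_eq_add_neg, ← Pi.single_neg]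
    rfl)⟩

theorem Congr.trans {x y z : LeechPt} (h : Congr x y) (h' : Congr y z) : Congr x z := by
  obtain ⟨a, ha⟩ := h
  obtain ⟨b, hb⟩ := h'
  exact ⟨a + b, by rw [smul_add, ← ha, ← hb, sub_add_sub_cancel]⟩

theorem Congr.map {x y : LeechPt} (h : Congr x y) (f : LeechPt ≃+ LeechPt) :
    Congr (f x) (f y) := by
  obtain ⟨a, ha⟩ := h
  exact ⟨f a, by rw [← map_sub, ha, map_zsmul]⟩

theorem classTwo_eq_iff {v w : Fin 24 → ℤ} :
    classTwo v = classTwo w ↔ ∃ a, v - w = (2 : ℤ) • a := by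
  refine ⟨exists_half, fun ⟨a, ha⟩ => funext fun i => ?_⟩
  have h := congrArg (fun z : ℤ => (z : ZMod 2)) (congrFun ha i)
  simp only [Pi.sub_apply, Pi.smul_apply, smul_eq_mul, Int.cast_sub, Int.cast_mul] at h
  rw [show ((2 : ℤ) : ZMod 2) = 0 from rfl, zero_mul, sub_eq_zero] at h
  exact h

/-- A class of norm eight is the class of the axes in some coordinates. -/
theorem exists_frameMap {Q : Matrix (Fin 24) (Fin 24) ℤ} (hQ : IsEvenUnimodular Q)
    (hmin : ∀ z, z ≠ 0 → 4 ≤ normQ Q z) {c : Fin 24 → ZMod 2} (hc : c ∈ frameClasses hQ) :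
    ∃ ψ : (Fin 24 → ℤ) ≃+ LeechPt,
      (∀ v w, (ψ v : Fin 24 → ℤ) ⬝ᵥ (ψ w : Fin 24 → ℤ) = 8 * (v ⬝ᵥ Q *ᵥ w)) ∧
      ∀ x, classTwo (ψ.symm x) = c ↔ Congr x (axis 0) := by
  obtain ⟨e, hec, he⟩ := (frame_of_class hQ hmin c).2 ((class_census hQ hmin).2.1 c hc).ge
  obtain ⟨φ, hinj, hrange, hdot, j, hj⟩ :=
    leech_of_frame hQ hmin (fun i j => (hec i).trans (hec j).symm) he
  let ψ : (Fin 24 → ℤ) ≃+ LeechPt := AddEquiv.ofBijective
    (φ.codRestrict LeechPt fun v => Summary.mem_leechLattice.2 ((hrange _).2 ⟨v, rfl⟩))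
    ⟨fun v w h => hinj (congrArg Subtype.val h), fun x => by
      obtain ⟨v, hv⟩ := (hrange x.1).1 (Summary.mem_leechLattice.1 x.2)
      exact ⟨v, Subtype.ext hv⟩⟩
  refine ⟨ψ, hdot, fun x => ?_⟩
  rw [← hec j, classTwo_eq_iff]
  have hax : ψ (e j) = axis 0 ∨ ψ (e j) = -axis 0 :=
    hj.imp (fun h => Subtype.ext h) fun h => Subtype.ext h
  constructor
  · rintro ⟨a, ha⟩
    have h := congrArg ψ ha
    rw [map_sub, AddEquiv.apply_symm_apply, map_zsmul] at h
    rcases hax with e0 | e0 <;> rw [e0] at h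
    · exact ⟨ψ a, h⟩
    · exact ⟨ψ a - axis 0, by rw [smul_sub, ← h, two_zsmul]; abel⟩
  · rintro ⟨w, hw⟩
    rcases hax with e0 | e0
    · exact ⟨ψ.symm w, ψ.injective (by
        rw [map_sub, AddEquiv.apply_symm_apply, map_zsmul, AddEquiv.apply_symm_apply, e0, hw])⟩
    · exact ⟨ψ.symm (w + axis 0), ψ.injective (by
        rw [map_sub, AddEquiv.apply_symm_apply, map_zsmul, AddEquiv.apply_symm_apply, e0, smul_add,
          ← hw, two_zsmul]
        abel)⟩

theorem classTwo_symm_congr {Q : Matrix (Fin 24) (Fin 24) ℤ} {c : Fin 24 → ZMod 2}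
    {ψ : (Fin 24 → ℤ) ≃+ LeechPt}
    (hψ : ∀ x, classTwo (ψ.symm x) = c ↔ Congr x (axis 0))
    (hd : ∀ v w, (ψ v : Fin 24 → ℤ) ⬝ᵥ (ψ w : Fin 24 → ℤ) = 8 * (v ⬝ᵥ Q *ᵥ w))
    (hQ : IsEvenUnimodular Q) (hmin : ∀ z, z ≠ 0 → 4 ≤ normQ Q z) {x : LeechPt}
    (hx : (x : Fin 24 → ℤ) ⬝ᵥ (x : Fin 24 → ℤ) = 64) (hc : Congr x (axis 0)) :
    ∃ (k : Fin 24) (t : ℤ), (t = 1 ∨ t = -1) ∧ (x : Fin 24 → ℤ) = Pi.single k (t * 8) := by
  by_contra hno
  have hzero : ∀ k, (x : Fin 24 → ℤ) k = 0 := fun k => by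
    have h8 : ∀ y : LeechPt, (y : Fin 24 → ℤ) ⬝ᵥ (y : Fin 24 → ℤ) = 64 →
        normQ Q (ψ.symm y) = 8 := fun y hy => by
      have := hd (ψ.symm y) (ψ.symm y)
      rw [AddEquiv.apply_symm_apply, hy] at this
      show ψ.symm y ⬝ᵥ Q *ᵥ ψ.symm y = 8
      omega
    have hk : (axis k : Fin 24 → ℤ) ⬝ᵥ (axis k : Fin 24 → ℤ) = 64 := by simp [axis_val]
    rcases same_class hQ hmin (((hψ x).2 hc).trans ((hψ (axis k)).2 (congr_axis k)).symm)
      (h8 x hx).le (h8 _ hk).le with h | h | ⟨-, -, h⟩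
    · exact absurd ⟨k, 1, Or.inl rfl, by rw [ψ.symm.injective h, axis_val, one_mul]⟩ hno
    · rw [← map_neg] at h
      exact absurd ⟨k, -1, Or.inr rfl, by
        rw [ψ.symm.injective h, neg_one_mul, Pi.single_neg]; rfl⟩ hno
    · have := hd (ψ.symm x) (ψ.symm (axis k))
      rw [AddEquiv.apply_symm_apply, AddEquiv.apply_symm_apply, h, axis_val, dotProduct_single]
        at this
      omega
  rw [show (x : Fin 24 → ℤ) = 0 from funext hzero, zero_dotProduct] at hx
  norm_num at hx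

/-- The permutation with signs, as an automorphism. -/
def monomialAut (p : {σ : Equiv.Perm (Fin 24) // PreservesCode σ} × FA.Golay.code) : LeechAut :=
  ⟨AddEquiv.ofBijective
    (((monomial p.1.1 (signs p.2.1)).comp LeechPt.subtype).codRestrict LeechPt fun x =>
      Summary.mem_leechLattice.2
        ((inL_monomial_iff p.1.2 p.2.2 _).2 (Summary.mem_leechLattice.1 x.2)))
    ⟨fun x y h => Subtype.ext (monomial_injective (signs_eq _) (congrArg Subtype.val h)),
      fun y => by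
        obtain ⟨x, hx⟩ := monomial_surjective (σ := p.1.1) (signs_eq p.2.1) y.1
        exact ⟨⟨x, Summary.mem_leechLattice.2 ((inL_monomial_iff p.1.2 p.2.2 x).1
          (hx ▸ Summary.mem_leechLattice.1 y.2))⟩, Subtype.ext hx⟩⟩,
    fun x y => monomial_dot (signs_eq _) _ _⟩

theorem monomialAut_axis (p : {σ : Equiv.Perm (Fin 24) // PreservesCode σ} × FA.Golay.code)
    (k : Fin 24) : ((monomialAut p).1 (axis k) : Fin 24 → ℤ) =
      Pi.single (p.1.1.symm k) (signs p.2.1 (p.1.1.symm k) * 8) := funext fun i => by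
  show monomial p.1.1 (signs p.2.1) (Pi.single k 8) i = _
  rw [monomial_apply]
  rcases eq_or_ne i (p.1.1.symm k) with rfl | hi
  · simp
  · rw [Pi.single_eq_of_ne hi, Pi.single_eq_of_ne fun e => hi (by rw [← e, Equiv.symm_apply_apply]),
      mul_zero]

/-- An automorphism keeping the class of the axes is a permutation with signs. -/
theorem exists_monomialAut {Q : Matrix (Fin 24) (Fin 24) ℤ} (hQ : IsEvenUnimodular Q)
    (hmin : ∀ z, z ≠ 0 → 4 ≤ normQ Q z) {c : Fin 24 → ZMod 2} {ψ : (Fin 24 → ℤ) ≃+ LeechPt}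
    (hd : ∀ v w, (ψ v : Fin 24 → ℤ) ⬝ᵥ (ψ w : Fin 24 → ℤ) = 8 * (v ⬝ᵥ Q *ᵥ w))
    (hψ : ∀ x, classTwo (ψ.symm x) = c ↔ Congr x (axis 0)) (g : LeechAut)
    (hg : Congr (g.1 (axis 0)) (axis 0)) : ∃ p, monomialAut p = g := by
  have hshort : ∀ k, ∃ (i : Fin 24) (t : ℤ), (t = 1 ∨ t = -1) ∧
      (g.1 (axis k) : Fin 24 → ℤ) = Pi.single i (t * 8) := fun k =>
    classTwo_symm_congr hψ hd hQ hmin ((g.2 _ _).trans (by simp [axis_val]))
      (((congr_axis k).map g.1).trans hg)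
  choose i t ht hi using hshort
  have hinj : Function.Injective i := fun a b e => by
    by_contra hne
    have h := g.2 (axis a) (axis b)
    rw [hi, hi, e, axis_val, axis_val, single_dotProduct, Pi.single_eq_same, single_dotProduct,
      Pi.single_eq_of_ne hne, mul_zero] at h
    rcases ht a with e1 | e1 <;> rcases ht b with e2 | e2 <;> rw [e1, e2] at h <;> norm_num at h
  set σ := (Equiv.ofBijective i (Finite.injective_iff_bijective.1 hinj)).symm with hσdef
  set b : Fin 24 → Bool := fun l => decide (t (σ l) = -1) with hbdef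
  have hgx : ∀ x : LeechPt, (g.1 x : Fin 24 → ℤ) = monomial σ (signs b) x := fun x =>
    funext fun l => by
    have h := g.2 x (axis (σ l))
    have hl : i (σ l) = l := Equiv.ofBijective_apply_symm_apply i _ l
    rw [hi, hl, axis_val, dotProduct_single, dotProduct_single] at h
    rw [monomial_apply]
    rcases ht (σ l) with e | e <;> rw [e] at h <;> simp [signs, hbdef, e] <;> linarith
  obtain ⟨hσ, hb⟩ := of_inL_monomial (σ := σ) (b := b) fun x hx => by
    have := (g.1 ⟨x, Summary.mem_leechLattice.2 hx⟩).2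
    rw [Summary.mem_leechLattice, hgx] at this
    exact this
  exact ⟨(⟨σ, hσ⟩, ⟨b, hb⟩), Subtype.ext (AddEquiv.ext fun x => Subtype.ext (hgx x).symm)⟩

/-- The automorphisms keeping the class of the axes. -/
theorem card_axes_stabiliser {Q : Matrix (Fin 24) (Fin 24) ℤ} (hQ : IsEvenUnimodular Q)
    (hmin : ∀ z, z ≠ 0 → 4 ≤ normQ Q z) {c : Fin 24 → ZMod 2} {ψ : (Fin 24 → ℤ) ≃+ LeechPt}
    (hd : ∀ v w, (ψ v : Fin 24 → ℤ) ⬝ᵥ (ψ w : Fin 24 → ℤ) = 8 * (v ⬝ᵥ Q *ᵥ w))
    (hψ : ∀ x, classTwo (ψ.symm x) = c ↔ Congr x (axis 0)) :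
    Nat.card {g : LeechAut // Congr (g.1 (axis 0)) (axis 0)} = 244823040 * 4096 := by
  rw [← card_preservesCode, ← FA.Golay.card_code, ← Nat.card_eq_finsetCard, ← Nat.card_prod]
  symm
  refine Nat.card_congr (Equiv.ofBijective (fun p => ⟨monomialAut p, ?_⟩) ⟨fun p q h => ?_, ?_⟩)
  · have h := monomialAut_axis p 0
    set k := p.1.1.symm 0
    rcases signs_eq p.2.1 k with e | e <;> rw [e] at h
    · rw [show (monomialAut p).1 (axis 0) = axis k from Subtype.ext (h.trans (by simp [axis_val]))]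
      exact congr_axis k
    · rw [show (monomialAut p).1 (axis 0) = -axis k from Subtype.ext (h.trans (by
        rw [neg_one_mul, Pi.single_neg]; rfl))]
      obtain ⟨w, hw⟩ := congr_axis k
      exact ⟨w - axis k, by rw [smul_sub, ← hw, two_zsmul]; abel⟩
  · have hk : ∀ k, p.1.1.symm k = q.1.1.symm k ∧
        signs p.2.1 (p.1.1.symm k) = signs q.2.1 (q.1.1.symm k) := fun k => by
      have h' := congrArg (fun g => ((g.1.1 (axis k) : LeechPt) : Fin 24 → ℤ)) h
      simp only [monomialAut_axis] at h'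
      have e := congrFun h' (p.1.1.symm k)
      rw [Pi.single_eq_same] at e
      by_cases hkk : p.1.1.symm k = q.1.1.symm k
      · rw [hkk, Pi.single_eq_same] at e
        exact ⟨hkk, by rw [hkk]; linarith⟩
      · rw [Pi.single_eq_of_ne hkk] at e
        rcases signs_eq p.2.1 (p.1.1.symm k) with e' | e' <;> rw [e'] at e <;> norm_num at e
    have hσ : p.1.1 = q.1.1 := Equiv.symm_bijective.injective (Equiv.ext fun k => (hk k).1)
    refine Prod.ext (Subtype.ext hσ) (Subtype.ext (signs_injective (funext fun i => ?_)))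
    simpa [hσ] using (hk (p.1.1 i)).2
  · rintro ⟨g, hg⟩
    obtain ⟨p, rfl⟩ := exists_monomialAut hQ hmin hd hψ g hg
    exact ⟨p, rfl⟩

/-- **The order of `Co₀`.** -/
theorem card_leechAut : Nat.card LeechAut = 8315553613086720000 := by
  obtain ⟨hQ, hmin⟩ := leechGram_spec
  have hcard := (class_census hQ hmin).1
  choose ψ hd hψ using fun x : frameClasses hQ => exists_frameMap hQ hmin x.2
  obtain ⟨c₀, hc₀⟩ := Finset.card_pos.1 (by omega : 0 < (frameClasses hQ).card)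
  set x₀ : frameClasses hQ := ⟨c₀, hc₀⟩
  have hmem : ∀ g : LeechAut, classTwo ((ψ x₀).symm (g.1 (axis 0))) ∈ frameClasses hQ := fun g => by
    refine Finset.mem_image_of_mem _ ((Venkov.mem_shell hQ).2 ?_)
    have := hd x₀ ((ψ x₀).symm (g.1 (axis 0))) ((ψ x₀).symm (g.1 (axis 0)))
    rw [AddEquiv.apply_symm_apply, g.2, axis_val, single_dotProduct, Pi.single_eq_same] at this
    show (ψ x₀).symm (g.1 (axis 0)) ⬝ᵥ leechGram *ᵥ (ψ x₀).symm (g.1 (axis 0)) = _
    push_cast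
    omega
  let F : LeechAut → frameClasses hQ := fun g =>
    ⟨classTwo ((ψ x₀).symm (g.1 (axis 0))), hmem g⟩
  have hmove : ∀ x a b, ((ψ x₀) ((ψ x).symm a) : Fin 24 → ℤ) ⬝ᵥ
      (ψ x₀ ((ψ x).symm b) : Fin 24 → ℤ) = (a : Fin 24 → ℤ) ⬝ᵥ (b : Fin 24 → ℤ) := fun x a b => by
    rw [hd x₀, ← hd x, AddEquiv.apply_symm_apply, AddEquiv.apply_symm_apply]
  let T : frameClasses hQ → LeechAut ≃ LeechAut := fun x =>
    ⟨fun g => ⟨g.1.trans ((ψ x).symm.trans (ψ x₀)), fun a b => (hmove x _ _).trans (g.2 a b)⟩,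
      fun g => ⟨g.1.trans ((ψ x₀).symm.trans (ψ x)), fun a b => by
        show (ψ x ((ψ x₀).symm (g.1 a)) : Fin 24 → ℤ) ⬝ᵥ
          (ψ x ((ψ x₀).symm (g.1 b)) : Fin 24 → ℤ) = _
        rw [hd x, ← hd x₀, AddEquiv.apply_symm_apply, AddEquiv.apply_symm_apply, g.2]⟩,
      fun g => Subtype.ext (AddEquiv.ext fun a => by simp),
      fun g => Subtype.ext (AddEquiv.ext fun a => by simp)⟩
  have hF : ∀ g, F g = x₀ ↔ Congr (g.1 (axis 0)) (axis 0) := fun g =>
    Subtype.ext_iff.trans (hψ x₀ _)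
  rw [card_eq_of_translate F x₀ T fun x g => ?_, Nat.card_eq_finsetCard, hcard,
    Nat.card_congr (Equiv.subtypeEquivRight hF), card_axes_stabiliser hQ hmin (hd x₀) (hψ x₀)]
  rw [hF, ← hψ x]
  simp [F, T, Subtype.ext_iff]

end FA.LeechUnique

end
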