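import Fermat.Agent.LeechUnique.FiveTransitive

/-!
# The groups `M₂₄` and `M₂₃`

The permutations preserving the Golay code, the stabiliser of a point, and elements of order `23`.
-/

set_option autoImplicit false

noncomputable section

open scoped Classical

namespace FA.LeechUnique

/-- The Mathieu group `M₂₄`. -/
def mathieu : Subgroup (Equiv.Perm (Fin 24)) where
  carrier := {σ | PreservesCode σ}
  mul_mem' {σ ρ} hσ hρ := PreservesCode.comp (σ := σ) (ρ := ρ) hσ hρ
  one_mem' := preservesCode_id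
  inv_mem' hσ := PreservesCode.symm hσ

theorem mem_mathieu {σ : Equiv.Perm (Fin 24)} : σ ∈ mathieu ↔ PreservesCode σ := Iff.rfl

theorem card_mathieu : Nat.card mathieu = 244823040 := card_preservesCode

theorem mathieu_smul (g : mathieu) (a : Fin 24) : g • a = (g : Equiv.Perm (Fin 24)) a := rfl

/-- `M₂₄` moves three points to any three. -/
theorem exists_mathieu_three {a b c a' b' c' : Fin 24} (h : [a, b, c].Nodup)
    (h' : [a', b', c'].Nodup) : ∃ g : mathieu, g • a = a' ∧ g • b = b' ∧ g • c = c' := by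
  have key : ∀ u v w : Fin 24, [u, v, w].Nodup → ∃ f : Fin 5 → Fin 24,
      Function.Injective f ∧ f 0 = u ∧ f 1 = v ∧ f 2 = w := fun u v w hd => by
    obtain ⟨π, hπ⟩ := Equiv.Perm.exists_extending_pair (fun i : Fin 3 => Fin.castLE (by norm_num) i)
      (fun i : Fin 3 => [u, v, w].get i) (Fin.castLE_injective (by norm_num : 3 ≤ 24))
      (List.nodup_iff_injective_get.1 hd)
    exact ⟨fun i => π (Fin.castLE (by norm_num) i),
      π.injective.comp (Fin.castLE_injective (by norm_num : 5 ≤ 24)), hπ 0, hπ 1, hπ 2⟩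
  obtain ⟨f, hf, f0, f1, f2⟩ := key a b c h
  obtain ⟨f', hf', f0', f1', f2'⟩ := key a' b' c' h'
  obtain ⟨σ, hσ, hσf⟩ := exists_preservesCode_map f f' hf hf'
  exact ⟨⟨σ, hσ⟩, by rw [mathieu_smul, ← f0, ← f0']; exact hσf 0,
    by rw [mathieu_smul, ← f1, ← f1']; exact hσf 1, by rw [mathieu_smul, ← f2, ← f2']; exact hσf 2⟩

theorem exists_third (a b : Fin 24) : ∃ c, c ≠ a ∧ c ≠ b := by
  revert a b
  decide

theorem exists_mathieu_two {a b a' b' : Fin 24} (h : a ≠ b) (h' : a' ≠ b') :
    ∃ g : mathieu, g • a = a' ∧ g • b = b' := by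
  obtain ⟨c, hca, hcb⟩ := exists_third a b
  obtain ⟨c', hca', hcb'⟩ := exists_third a' b'
  obtain ⟨g, h1, h2, -⟩ := exists_mathieu_three (a := a) (b := b) (c := c)
    (a' := a') (b' := b') (c' := c') (by simp [h, hca.symm, hcb.symm])
    (by simp [h', hca'.symm, hcb'.symm])
  exact ⟨g, h1, h2⟩

theorem exists_mathieu_one (a a' : Fin 24) : ∃ g : mathieu, g • a = a' := by
  obtain ⟨b, hb, -⟩ := exists_third a a
  obtain ⟨b', hb', -⟩ := exists_third a' a'
  obtain ⟨g, h, -⟩ := exists_mathieu_two hb.symm hb'.symm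
  exact ⟨g, h⟩

/-- A nontrivial element moves a point. -/
theorem exists_moved {g : mathieu} (hg : g ≠ 1) : ∃ a : Fin 24, g • a ≠ a := by
  by_contra! h
  exact hg (Subtype.ext (Equiv.ext h))

/-- The point stabiliser `M₂₃`. -/
theorem card_stabilizer (a : Fin 24) :
    Nat.card (MulAction.stabilizer mathieu a) = 10200960 := by
  have : MulAction.IsPretransitive mathieu (Fin 24) := ⟨exists_mathieu_one⟩
  have h := (MulAction.stabilizer mathieu a).card_mul_index
  rw [MulAction.index_stabilizer_of_transitive, Nat.card_fin, card_mathieu] at h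
  omega

/-- An element of order `23` fixes one point and is a cycle on the others. -/
theorem orderOf_twentyThree {x : Equiv.Perm (Fin 24)} (hx : orderOf x = 23) :
    ∃ a, x a = a ∧ ∀ b c, b ≠ a → c ≠ a → ∃ k : ℕ, (x ^ k) b = c := by
  have hcard : x.support.card ≤ 24 := (Finset.card_le_univ _).trans_eq (Fintype.card_fin 24)
  have hcyc : x.IsCycle :=
    Equiv.Perm.isCycle_of_prime_order (by rw [hx]; norm_num) (by rw [hx]; omega)
  have hsupp : x.support.card = 23 := hcyc.orderOf.symm.trans hx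
  have hone : x.supportᶜ.card = 1 := by rw [Finset.card_compl, hsupp, Fintype.card_fin]
  obtain ⟨a, ha⟩ := Finset.card_eq_one.1 hone
  have hmove : ∀ b, b ≠ a → x b ≠ b := fun b hb hfix => hb (Finset.mem_singleton.1
    (ha ▸ Finset.mem_compl.2 (fun h => Equiv.Perm.mem_support.1 h hfix)))
  refine ⟨a, ?_, fun b c hb hc => hcyc.exists_pow_eq (hmove b hb) (hmove c hc)⟩
  by_contra h
  have : a ∈ x.supportᶜ := ha ▸ Finset.mem_singleton_self a
  exact Finset.mem_compl.1 this (Equiv.Perm.mem_support.2 h)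

end FA.LeechUnique

end
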