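import Fermat.Agent.LeechUnique.Conway
import Fermat.Agent.LeechUnique.MathieuGroups

/-!
# The group `Co₀` and its monomial subgroup

The automorphisms of the Leech lattice as a group, the subgroup keeping the class of the axes and
its map onto `M₂₄`.
-/

set_option autoImplicit false

noncomputable section

open Matrix
open scoped Classical

namespace FA.LeechUnique

open FA.UnimodularTheta

/-- The group `Co₀`. -/
def conway : Subgroup (LeechPt ≃ₗ[ℤ] LeechPt) where
  carrier := {f | ∀ x y : LeechPt,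
    (f x : Fin 24 → ℤ) ⬝ᵥ (f y : Fin 24 → ℤ) = (x : Fin 24 → ℤ) ⬝ᵥ (y : Fin 24 → ℤ)}
  mul_mem' hf hg x y := (hf _ _).trans (hg x y)
  one_mem' _ _ := rfl
  inv_mem' {f} hf x y := by
    have h := hf (f.symm x) (f.symm y)
    rw [LinearEquiv.apply_symm_apply, LinearEquiv.apply_symm_apply] at h
    exact h.symm

/-- An automorphism as an element of the group. -/
def toConway : LeechAut ≃ conway where
  toFun g := ⟨g.1.toIntLinearEquiv, g.2⟩
  invFun g := ⟨g.1.toAddEquiv, g.2⟩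
  left_inv _ := Subtype.ext (AddEquiv.ext fun _ => rfl)
  right_inv _ := Subtype.ext (LinearEquiv.ext fun _ => rfl)

theorem card_conway : Nat.card conway = 8315553613086720000 :=
  (Nat.card_congr toConway).symm.trans card_leechAut

instance : Finite conway := Nat.finite_of_card_ne_zero (by rw [card_conway]; norm_num)

theorem conway_mul_apply (f g : conway) (x : LeechPt) : (f * g).1 x = f.1 (g.1 x) := rfl

theorem conway_inv_apply (f : conway) (x : LeechPt) : f.1 (f⁻¹.1 x) = x :=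
  f.1.apply_symm_apply x

theorem conway_ext {f g : conway} (h : ∀ x, f.1 x = g.1 x) : f = g :=
  Subtype.ext (LinearEquiv.ext h)

theorem Congr.rfl' (x : LeechPt) : Congr x x := ⟨0, by rw [sub_self, smul_zero]⟩

theorem Congr.symm {x y : LeechPt} (h : Congr x y) : Congr y x := by
  obtain ⟨a, ha⟩ := h
  exact ⟨-a, by rw [smul_neg, ← ha, neg_sub]⟩

theorem Congr.map' {x y : LeechPt} (h : Congr x y) (f : conway) : Congr (f.1 x) (f.1 y) :=
  h.map f.1.toAddEquiv

/-- The monomial subgroup: those keeping the class of the axes. -/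
def monomialGroup : Subgroup conway where
  carrier := {g | Congr (g.1 (axis 0)) (axis 0)}
  mul_mem' {f g} hf hg := (hg.map' f).trans hf
  one_mem' := Congr.rfl' _
  inv_mem' {f} hf := by
    have h := hf.map' f⁻¹
    rw [show f⁻¹.1 (f.1 (axis 0)) = axis 0 from f.1.symm_apply_apply _] at h
    exact h.symm

theorem mem_monomialGroup {g : conway} :
    g ∈ monomialGroup ↔ Congr (g.1 (axis 0)) (axis 0) := Iff.rfl

/-- Coordinates for the frames: a fixed choice. -/
theorem exists_axesFrame : ∃ (c : Fin 24 → ZMod 2) (ψ : (Fin 24 → ℤ) ≃+ LeechPt),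
    c ∈ frameClasses leechGram_spec.1 ∧
    (∀ v w, (ψ v : Fin 24 → ℤ) ⬝ᵥ (ψ w : Fin 24 → ℤ) = 8 * (v ⬝ᵥ leechGram *ᵥ w)) ∧
    ∀ x, classTwo (ψ.symm x) = c ↔ Congr x (axis 0) := by
  obtain ⟨hQ, hmin⟩ := leechGram_spec
  obtain ⟨c, hc⟩ := Finset.card_pos.1 (by rw [(class_census hQ hmin).1]; norm_num :
    0 < (frameClasses hQ).card)
  obtain ⟨ψ, hd, hψ⟩ := exists_frameMap hQ hmin hc
  exact ⟨c, ψ, hc, hd, hψ⟩

/-- The permutation with signs, in the group. -/
def monoElt (p : {σ : Equiv.Perm (Fin 24) // PreservesCode σ} × FA.Golay.code) : conway :=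
  toConway (monomialAut p)

theorem monoElt_val (p : {σ : Equiv.Perm (Fin 24) // PreservesCode σ} × FA.Golay.code)
    (x : LeechPt) (i : Fin 24) : ((monoElt p).1 x : Fin 24 → ℤ) i =
      signs p.2.1 i * (x : Fin 24 → ℤ) (p.1.1 i) := rfl

theorem monoElt_axis (p : {σ : Equiv.Perm (Fin 24) // PreservesCode σ} × FA.Golay.code)
    (k : Fin 24) : ((monoElt p).1 (axis k) : Fin 24 → ℤ) =
      Pi.single (p.1.1.symm k) (signs p.2.1 (p.1.1.symm k) * 8) := monomialAut_axis p k

theorem exists_monoElt {g : conway} (hg : g ∈ monomialGroup) : ∃ p, monoElt p = g := by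
  obtain ⟨c, ψ, -, hd, hψ⟩ := exists_axesFrame
  obtain ⟨p, hp⟩ := exists_monomialAut leechGram_spec.1 leechGram_spec.2 hd hψ (toConway.symm g) hg
  exact ⟨p, by rw [monoElt, hp, Equiv.apply_symm_apply]⟩

theorem monoElt_mem (p : {σ : Equiv.Perm (Fin 24) // PreservesCode σ} × FA.Golay.code) :
    monoElt p ∈ monomialGroup := by
  have h := monoElt_axis p 0
  set k := p.1.1.symm 0
  rw [mem_monomialGroup]
  rcases signs_eq p.2.1 k with e | e <;> rw [e] at h
  · rw [show (monoElt p).1 (axis 0) = axis k from Subtype.ext (h.trans (by simp [axis_val]))]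
    exact congr_axis k
  · rw [show (monoElt p).1 (axis 0) = -axis k from Subtype.ext (h.trans (by
      rw [neg_one_mul, Pi.single_neg]; rfl))]
    obtain ⟨w, hw⟩ := congr_axis k
    exact ⟨w - axis k, by rw [smul_sub, ← hw, two_zsmul]; abel⟩

theorem exists_perm (g : monomialGroup) : ∃ σ : mathieu, ∀ k : Fin 24, ∃ t : ℤ, (t = 1 ∨ t = -1) ∧
    (g.1.1 (axis k) : Fin 24 → ℤ) = Pi.single (σ • k) (t * 8) := by
  obtain ⟨p, hp⟩ := exists_monoElt g.2
  exact ⟨⟨p.1.1.symm, p.1.2.symm⟩, fun k =>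
    ⟨_, signs_eq p.2.1 _, hp ▸ monoElt_axis p k⟩⟩

/-- The permutation of the axes. -/
def axesPerm (g : monomialGroup) : mathieu := (exists_perm g).choose

theorem axesPerm_spec (g : monomialGroup) (k : Fin 24) : ∃ t : ℤ, (t = 1 ∨ t = -1) ∧
    (g.1.1 (axis k) : Fin 24 → ℤ) = Pi.single (axesPerm g • k) (t * 8) :=
  (exists_perm g).choose_spec k

theorem axesPerm_unique {g : monomialGroup} {k j : Fin 24} {t : ℤ}
    (h : (g.1.1 (axis k) : Fin 24 → ℤ) = Pi.single j (t * 8)) (ht : t ≠ 0) :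
    axesPerm g • k = j := by
  obtain ⟨s, -, hs'⟩ := axesPerm_spec g k
  by_contra hne
  have h1 := congrFun (hs'.symm.trans h) j
  rw [Pi.single_eq_same, Pi.single_eq_of_ne (Ne.symm hne)] at h1
  omega

/-- The map onto `M₂₄`. -/
def toMathieu : monomialGroup →* mathieu :=
  MonoidHom.mk' axesPerm fun f g => Subtype.ext (Equiv.ext fun k => by
    obtain ⟨t, ht, hg⟩ := axesPerm_spec g k
    obtain ⟨s, hs, hf⟩ := axesPerm_spec f (axesPerm g • k)
    refine axesPerm_unique (t := s * t) ?_ (by rcases hs with rfl | rfl <;> omega)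
    have hx : g.1.1 (axis k) = t • axis (axesPerm g • k) := Subtype.ext (hg.trans (by
      rw [AddSubgroup.coe_zsmul, axis_val, ← Pi.single_smul', smul_eq_mul]))
    show ((f.1.1 (g.1.1 (axis k)) : LeechPt) : Fin 24 → ℤ) = _
    rw [hx, map_zsmul, AddSubgroup.coe_zsmul, hf, ← Pi.single_smul', smul_eq_mul]
    congr 1
    ring)

theorem toMathieu_monoElt (p : {σ : Equiv.Perm (Fin 24) // PreservesCode σ} × FA.Golay.code) :
    (toMathieu ⟨monoElt p, monoElt_mem p⟩ : Equiv.Perm (Fin 24)) = p.1.1.symm :=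
  Equiv.ext fun k => axesPerm_unique (monoElt_axis p k) (by
    rcases signs_eq p.2.1 (p.1.1.symm k) with e | e <;> rw [e] <;> norm_num)

theorem toMathieu_surjective : Function.Surjective toMathieu := fun σ =>
  ⟨⟨monoElt (⟨σ.1.symm, PreservesCode.symm σ.2⟩, ⟨_, FA.Golay.zero_mem⟩), monoElt_mem _⟩,
    Subtype.ext ((toMathieu_monoElt _).trans (Equiv.symm_symm _))⟩

/-- The kernel consists of signs. -/
theorem exists_signs {g : monomialGroup} (h : toMathieu g = 1) :
    ∃ b : FA.Golay.code, monoElt (⟨1, preservesCode_id⟩, b) = g.1 := by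
  obtain ⟨p, hp⟩ := exists_monoElt g.2
  have h2 := toMathieu_monoElt p
  rw [show (⟨monoElt p, monoElt_mem p⟩ : monomialGroup) = g from Subtype.ext hp, h] at h2
  refine ⟨p.2, ?_⟩
  rw [← hp]
  congr 1
  refine Prod.ext (Subtype.ext ?_) rfl
  show (1 : Equiv.Perm (Fin 24)) = p.1.1
  rw [← Equiv.symm_symm p.1.1, ← h2]
  rfl

theorem monoElt_one_sq (b : FA.Golay.code) :
    monoElt (⟨1, preservesCode_id⟩, b) * monoElt (⟨1, preservesCode_id⟩, b) = 1 :=
  conway_ext fun x => Subtype.ext (funext fun i => by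
    show signs b.1 i * (signs b.1 i * (x : Fin 24 → ℤ) i) = (x : Fin 24 → ℤ) i
    rcases signs_eq b.1 i with e | e <;> rw [e] <;> ring)

/-- Every class of norm eight is the image of that of the axes. -/
theorem exists_frame_move (x : LeechPt) (hx : (x : Fin 24 → ℤ) ⬝ᵥ (x : Fin 24 → ℤ) = 64) :
    ∃ g : conway, Congr x (g.1 (axis 0)) := by
  obtain ⟨hQ, hmin⟩ := leechGram_spec
  obtain ⟨c, ψ, -, hd, hψ⟩ := exists_axesFrame
  have hc : classTwo (ψ.symm x) ∈ frameClasses hQ := by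
    refine Finset.mem_image_of_mem _ ((Venkov.mem_shell hQ).2 ?_)
    have h := hd (ψ.symm x) (ψ.symm x)
    rw [AddEquiv.apply_symm_apply, hx] at h
    show ψ.symm x ⬝ᵥ leechGram *ᵥ ψ.symm x = _
    push_cast
    omega
  obtain ⟨χ, hχd, hχ⟩ := exists_frameMap hQ hmin hc
  refine ⟨toConway ⟨χ.symm.trans ψ, fun a b => ?_⟩, ?_⟩
  · show (ψ (χ.symm a) : Fin 24 → ℤ) ⬝ᵥ (ψ (χ.symm b) : Fin 24 → ℤ) = _
    rw [hd, ← hχd, AddEquiv.apply_symm_apply, AddEquiv.apply_symm_apply]
  · show Congr x (ψ (χ.symm (axis 0)))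
    have h := (hχ (axis 0)).2 (Congr.rfl' _)
    obtain ⟨a, ha⟩ := classTwo_eq_iff.1 h.symm
    exact ⟨ψ a, by rw [← map_zsmul, ← ha, map_sub, AddEquiv.apply_symm_apply]⟩

/-- A vector of norm eight has no shorter one in its class. -/
theorem congr_norm {x z : LeechPt} (h : Congr x z)
    (hx : (x : Fin 24 → ℤ) ⬝ᵥ (x : Fin 24 → ℤ) = 64)
    (hz : (z : Fin 24 → ℤ) ⬝ᵥ (z : Fin 24 → ℤ) ≤ 64) :
    (z : Fin 24 → ℤ) ⬝ᵥ (z : Fin 24 → ℤ) = 64 := by
  obtain ⟨hQ, hmin⟩ := leechGram_spec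
  obtain ⟨c, ψ, -, hd, hψ⟩ := exists_axesFrame
  obtain ⟨w, hw⟩ := h
  have hn : ∀ y : LeechPt, 8 * normQ leechGram (ψ.symm y) =
      (y : Fin 24 → ℤ) ⬝ᵥ (y : Fin 24 → ℤ) := fun y => by
    rw [show normQ leechGram (ψ.symm y) = ψ.symm y ⬝ᵥ leechGram *ᵥ ψ.symm y from rfl, ← hd,
      AddEquiv.apply_symm_apply]
  have hcl : classTwo (ψ.symm x) = classTwo (ψ.symm z) :=
    classTwo_eq_iff.2 ⟨ψ.symm w, by rw [← map_sub, hw, map_zsmul]⟩
  have := hn x
  have := hn z
  rcases same_class hQ hmin hcl (by omega) (by omega) with e | e | ⟨-, e, -⟩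
  · rw [ψ.symm.injective e] at hx; exact hx
  · rw [← map_neg] at e
    rw [ψ.symm.injective e, AddSubgroup.coe_neg, neg_dotProduct, dotProduct_neg, neg_neg] at hx
    exact hx
  · omega

end FA.LeechUnique

end
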