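import Mathlib.GroupTheory.Sylow
import Mathlib.GroupTheory.Perm.Cycle.Type

/-!
# Tools for normal subgroups

A prime dividing the order once, normalised Sylow subgroups and counting fixed points.
-/

set_option autoImplicit false

open Subgroup
open scoped Pointwise

namespace FA.LeechUnique

variable {G : Type*} [Group G]

/-- A doubly transitive group: a normal subgroup with a nontrivial element is transitive. -/
theorem exists_normal_move {X : Type*} [MulAction G X] {N : Subgroup G} [N.Normal] {n : G}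
    (hn : n ∈ N) {a b a' b' : X} (hab : n • a = b) (g : G) (ha : g • a = a') (hb : g • b = b') :
    ∃ m ∈ N, m • a' = b' :=
  ⟨g * n * g⁻¹, ‹N.Normal›.conj_mem n hn g, by
    rw [mul_smul, mul_smul, ← ha, inv_smul_smul, hab, hb]⟩

variable [Finite G] {p : ℕ} [Fact p.Prime]

/-- The Sylow subgroup spanned by an element. -/
theorem card_zpowers_sylow (h2 : ¬p ^ 2 ∣ Nat.card G) {x : G} (hx : orderOf x = p) :
    Nat.card (zpowers x) = p ^ (Nat.card G).factorization p := by
  have hp : p.Prime := Fact.out
  have h1 : p ^ 1 ∣ Nat.card G := by rw [pow_one, ← hx]; exact orderOf_dvd_natCard x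
  rw [Nat.card_zpowers, hx, hp.pow_dvd_iff_le_factorization Nat.card_pos.ne'] at *
  rw [show (Nat.card G).factorization p = 1 by omega, pow_one]

/-- An element of prime order lies in each normal subgroup of order divisible by the prime. -/
theorem mem_normal_of_dvd (h2 : ¬p ^ 2 ∣ Nat.card G) {N : Subgroup G} [N.Normal]
    (hN : p ∣ Nat.card N) {x : G} (hx : orderOf x = p) : x ∈ N := by
  obtain ⟨y, hy⟩ := exists_prime_orderOf_dvd_card' p hN
  obtain ⟨g, hg⟩ := MulAction.exists_smul_eq G
    (Sylow.ofCard (zpowers (y : G)) (card_zpowers_sylow h2 ((Subgroup.orderOf_coe y).trans hy)))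
    (Sylow.ofCard (zpowers x) (card_zpowers_sylow h2 hx))
  have hg' : MulAut.conj g • zpowers (y : G) = zpowers x := congrArg Sylow.toSubgroup hg
  obtain ⟨z, hz, hzx⟩ := (hg'.symm ▸ mem_zpowers x : x ∈ MulAut.conj g • zpowers (y : G))
  rw [← hzx]
  exact ‹N.Normal›.conj_mem z (zpowers_le.2 y.2 hz) g

/-- An element of prime order fixing nothing in a subgroup it normalises. -/
theorem card_modEq_one (R : Subgroup G) {x : G} (hx : x ^ p = 1)
    (hR : ∀ y ∈ R, x * y * x⁻¹ ∈ R) (hfix : ∀ y ∈ R, x * y = y * x → y = 1) :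
    Nat.card R ≡ 1 [MOD p] := by
  classical
  have := Fintype.ofFinite R
  let ρ : Equiv.Perm R := Equiv.ofBijective (fun y => ⟨x * y * x⁻¹, hR y y.2⟩)
    (Finite.injective_iff_bijective.1 fun a b h =>
      Subtype.ext (mul_left_cancel (mul_right_cancel (congrArg Subtype.val h))))
  have hρ : ∀ (k : ℕ) (y : R), ((ρ ^ k) y : G) = x ^ k * y * (x ^ k)⁻¹ := by
    intro k
    induction k with
    | zero => simp
    | succ k ih =>
      intro y
      rw [pow_succ', Equiv.Perm.mul_apply]
      show x * ((ρ ^ k) y : G) * x⁻¹ = _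
      rw [ih, pow_succ', mul_inv_rev]
      group
  have hρp : ρ ^ p ^ 1 = 1 := Equiv.ext fun y => Subtype.ext (by rw [pow_one, hρ, hx]; simp)
  have h := Equiv.Perm.card_compl_support_modEq hρp
  rw [show ρ.supportᶜ = {1} from Finset.ext fun y => by
    rw [Finset.mem_compl, Equiv.Perm.mem_support, not_not, Finset.mem_singleton, Subtype.ext_iff,
      Subtype.ext_iff]
    refine ⟨fun e => hfix y y.2 ?_, fun e => by simp [ρ, e]⟩
    have e' : x * y * x⁻¹ = y := e
    exact mul_inv_eq_iff_eq_mul.1 e', Finset.card_singleton,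
    ← Nat.card_eq_fintype_card] at h
  exact h.symm

/-- Sylow subgroups normalised by an element of prime order. -/
theorem exists_normalised_sylow {N : Subgroup G} [N.Normal] {r : ℕ} [Fact r.Prime] {x : G}
    (hx : x ^ p = 1) (hp : ¬p ∣ Nat.card N) :
    ∃ R : Subgroup G, R ≤ N ∧ Nat.card R = r ^ (Nat.card N).factorization r ∧
      ∀ y ∈ R, x * y * x⁻¹ ∈ R := by
  classical
  have := Fintype.ofFinite (Sylow r N)
  let φ : MulAut N := MulAut.conjNormal x
  have hφ : φ ^ p = 1 := by rw [← map_pow, hx, map_one]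
  obtain ⟨R, hR⟩ := Equiv.Perm.exists_fixed_point_of_prime (p := p) (n := 1) (α := Sylow r N)
    (σ := MulAction.toPermHom (MulAut N) (Sylow r N) φ) (fun h => hp (by
      rw [← Nat.card_eq_fintype_card] at h
      obtain ⟨R₀⟩ : Nonempty (Sylow r N) := inferInstance
      exact (h.trans R₀.card_dvd_index).trans (Subgroup.index_dvd_card _)))
    (by rw [pow_one, ← map_pow, hφ, map_one])
  refine ⟨R.toSubgroup.map N.subtype, map_subtype_le _, ?_, ?_⟩
  · rw [← R.card_eq_multiplicity]
    exact (Nat.card_congr (R.toSubgroup.equivMapOfInjective _ N.subtype_injective).toEquiv).symm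
  · rintro _ ⟨y, hy, rfl⟩
    refine ⟨φ y, ?_, MulAut.conjNormal_apply x y⟩
    have h : φ • R.toSubgroup = R.toSubgroup := congrArg Sylow.toSubgroup hR
    rw [← h]
    exact smul_mem_pointwise_smul y φ _ hy

end FA.LeechUnique
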