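import Fermat.Agent.LeechUnique.MathieuGroups
import Fermat.Agent.LeechUnique.NormalTools

/-!
# `M₂₃` and `M₂₄` are simple

A normal subgroup of `M₂₃` is transitive on the `23` other points, so holds the Sylow `23`, and by
Frattini and Burnside's transfer it is all of it; one of `M₂₄` meets a stabiliser in `1` or in all
of it, and no regular one exists.
-/

set_option autoImplicit false

noncomputable section

open Subgroup
open scoped Classical

namespace FA.LeechUnique

open MulAction (stabilizer)

local instance : Fact (Nat.Prime 23) := ⟨by norm_num⟩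

variable {a : Fin 24}

theorem stab_smul (g : stabilizer mathieu a) (b : Fin 24) : g • b = (g : mathieu) • b := rfl

theorem not_sq_dvd_stab : ¬23 ^ 2 ∣ Nat.card (stabilizer mathieu a) := by
  rw [card_stabilizer]; norm_num

theorem dvd_card_normal_stab {N : Subgroup (stabilizer mathieu a)} [N.Normal] (hN : N ≠ ⊥) :
    23 ∣ Nat.card N := by
  obtain ⟨⟨n, hn⟩, hn1⟩ := Subgroup.bot_or_exists_ne_one N |>.resolve_left hN |> fun ⟨x, hx, h⟩ =>
    (⟨⟨x, hx⟩, h⟩ : ∃ x : N, (x : stabilizer mathieu a) ≠ 1)
  obtain ⟨b, hb⟩ := exists_moved (fun e : (n : mathieu) = 1 => hn1 (Subtype.ext e))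
  have hba : b ≠ a := fun e => hb (by rw [e]; exact MulAction.mem_stabilizer_iff.1 n.2)
  have hca : (n : mathieu) • b ≠ a := fun e => hba (MulAction.injective (n : mathieu)
    (e.trans (MulAction.mem_stabilizer_iff.1 n.2).symm))
  have horb : MulAction.orbit N b = {c | c ≠ a} := by
    ext c
    simp only [Set.mem_ofPred_eq]
    refine ⟨?_, fun hc => ?_⟩
    · rintro ⟨m, rfl⟩ e
      have hm : ((m : stabilizer mathieu a) : mathieu) • a = a :=
        MulAction.mem_stabilizer_iff.1 m.1.2
      exact hba (MulAction.injective ((m : stabilizer mathieu a) : mathieu) (e.trans hm.symm))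
    · rcases eq_or_ne c b with rfl | hcb
      · exact MulAction.mem_orbit_self c
      obtain ⟨g, hga, hgb, hgc⟩ := exists_mathieu_three (a := a) (b := b) (c := (n : mathieu) • b)
        (a' := a) (b' := b) (c' := c) (by simp [hba.symm, hca.symm, (Ne.symm hb)])
        (by simp [hba.symm, hc.symm, hcb.symm])
      obtain ⟨m, hm, hmb⟩ := exists_normal_move hn (a := b) (b := (n : mathieu) • b) rfl
        (⟨g, MulAction.mem_stabilizer_iff.2 hga⟩ : stabilizer mathieu a) hgb hgc
      exact ⟨⟨m, hm⟩, hmb⟩
  have h := Subgroup.index_dvd_card (stabilizer N b)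
  rw [MulAction.index_stabilizer, horb] at h
  convert h
  rw [Set.ncard_eq_toFinset_card', show ({c | c ≠ a} : Set (Fin 24)).toFinset = {a}ᶜ from
    Finset.ext fun c => by simp, Finset.card_compl, Finset.card_singleton, Fintype.card_fin]

/-- The normaliser of a Sylow `23` in `M₂₃` has order `253`. -/
theorem relIndex_normalizer (P : Sylow 23 (stabilizer mathieu a)) :
    (P : Subgroup (stabilizer mathieu a)).relIndex
        (normalizer (P : Set (stabilizer mathieu a))) = 11 ∧
      centralizer (P : Set (stabilizer mathieu a)) ≤ P ∧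
      Nat.card (P : Subgroup (stabilizer mathieu a)) = 23 := by
  have hP : Nat.card (P : Subgroup (stabilizer mathieu a)) = 23 := by
    rw [P.card_eq_multiplicity, card_stabilizer,
      show (10200960 : ℕ) = 23 ^ 1 * 443520 by norm_num,
      Nat.factorization_mul (by norm_num) (by norm_num), Nat.Prime.factorization_pow (by norm_num),
      Finsupp.add_apply, Finsupp.single_eq_same,
      Nat.factorization_eq_zero_of_not_dvd (by norm_num), add_zero, pow_one]
  have hcyc : IsCyclic (P : Subgroup (stabilizer mathieu a)) := isCyclic_of_prime_card hP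
  obtain ⟨x, hx⟩ := hcyc.exists_generator
  have hox : orderOf (x : (stabilizer mathieu a)) = 23 := by
    rw [Subgroup.orderOf_coe, orderOf_eq_card_of_forall_mem_zpowers hx, hP]
  obtain ⟨c, hc, htr⟩ := orderOf_twentyThree (x := ((x : (stabilizer mathieu a)) : mathieu).1)
    (by rw [Subgroup.orderOf_coe, Subgroup.orderOf_coe]; exact hox)
  have hxa : ((x : (stabilizer mathieu a)) : mathieu).1 a = a :=
    MulAction.mem_stabilizer_iff.1 (x : (stabilizer mathieu a)).2
  have hca : a = c := by
    by_contra hne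
    obtain ⟨b, hb, hba⟩ := exists_third c a
    obtain ⟨k, hk⟩ := htr a b hne hb
    rw [Equiv.Perm.pow_apply_eq_self_of_apply_eq_self hxa] at hk
    exact hba hk.symm
  subst hca
  have hcent : centralizer (P : Set (stabilizer mathieu a)) ≤ P := fun g hg => by
    have hgx : (x : (stabilizer mathieu a)) * g = g * (x : (stabilizer mathieu a)) :=
      mem_centralizer_iff.1 hg x x.2
    obtain ⟨b, hb, -⟩ := exists_third a a
    have hgb : (g : mathieu) • b ≠ a := fun e => hb (MulAction.injective (g : mathieu)
      (e.trans (MulAction.mem_stabilizer_iff.1 g.2).symm))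
    obtain ⟨k, hk⟩ := htr b ((g : mathieu) • b) hb hgb
    suffices g = (x : (stabilizer mathieu a)) ^ k from this ▸ pow_mem x.2 k
    refine Subtype.ext (Subtype.ext (Equiv.ext fun d => ?_))
    simp only [SubmonoidClass.coe_pow]
    rcases eq_or_ne d a with rfl | hd
    · rw [Equiv.Perm.pow_apply_eq_self_of_apply_eq_self hxa]
      exact MulAction.mem_stabilizer_iff.1 g.2
    obtain ⟨l, rfl⟩ := htr b d hb hd
    have hcomm : Commute (((x : (stabilizer mathieu a)) : mathieu).1 ^ l) ((g : mathieu).1) :=
      Commute.pow_left (congrArg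
        (fun z : stabilizer mathieu a => ((z : mathieu) : Equiv.Perm (Fin 24))) hgx) l
    have h2 : Commute (((x : (stabilizer mathieu a)) : mathieu).1 ^ l)
        (((x : (stabilizer mathieu a)) : mathieu).1 ^ k) :=
      Commute.pow_pow_self _ _ _
    rw [← Equiv.Perm.mul_apply, ← Equiv.Perm.mul_apply, ← hcomm.eq, ← h2.eq, Equiv.Perm.mul_apply,
      Equiv.Perm.mul_apply, hk, mathieu_smul]
  refine ⟨?_, hcent, hP⟩
  have key := card_dvd_of_injective _
    (QuotientGroup.kerLift_injective (P : Subgroup (stabilizer mathieu a)).normalizerMonoidHom)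
  rw [normalizerMonoidHom_ker, ← index, ← relIndex, hcyc.card_mulAut, hP,
    show Nat.totient 23 = 22 from Nat.totient_prime (by norm_num)] at key
  have e : centralizer ((P : Subgroup (stabilizer mathieu a)) : Set (stabilizer mathieu a)) = P :=
    le_antisymm hcent fun y hy => mem_centralizer_iff.2 fun z hz => congrArg Subtype.val
      (hcyc.commGroup.mul_comm (⟨z, hz⟩ : (P : Subgroup (stabilizer mathieu a))) ⟨y, hy⟩)
  have hd : (P : Subgroup (stabilizer mathieu a)).relIndex
      (normalizer (P : Set (stabilizer mathieu a))) ∣ 22 := by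
    rw [e] at key
    exact key
  have hprod := relIndex_mul_index (le_normalizer (H := (P : Subgroup (stabilizer mathieu a))))
  have hmod := card_sylow_modEq_one 23 (stabilizer mathieu a)
  rw [P.card_eq_index_normalizer] at hmod
  have hidx := (P : Subgroup (stabilizer mathieu a)).card_mul_index
  rw [hP, card_stabilizer] at hidx
  replace hprod : (P : Subgroup (stabilizer mathieu a)).relIndex
      (normalizer (P : Set (stabilizer mathieu a))) *
        (normalizer (P : Set (stabilizer mathieu a))).index =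
          (P : Subgroup (stabilizer mathieu a)).index := hprod
  set d := (P : Subgroup (stabilizer mathieu a)).relIndex
    (normalizer (P : Set (stabilizer mathieu a)))
  set i := (normalizer (P : Set (stabilizer mathieu a))).index
  have hd' : d ∈ Nat.divisors 22 := Nat.mem_divisors.2 ⟨hd, by norm_num⟩
  rw [show Nat.divisors 22 = {1, 2, 11, 22} by decide] at hd'
  simp only [Finset.mem_insert, Finset.mem_singleton] at hd'
  unfold Nat.ModEq at hmod
  rcases hd' with e | e | e | e <;> rw [e] at hprod <;> omega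

theorem isSimpleGroup_stab (a : Fin 24) : IsSimpleGroup (stabilizer mathieu a) := by
  set S := stabilizer mathieu a
  have : Nontrivial S := Finite.one_lt_card_iff_nontrivial.1 (by rw [card_stabilizer]; norm_num)
  refine ⟨fun N hN => or_iff_not_imp_left.2 fun hbot => ?_⟩
  obtain ⟨P₀⟩ : Nonempty (Sylow 23 S) := inferInstance
  obtain ⟨hrel, hcent, hP⟩ := relIndex_normalizer P₀
  have hle : (P₀ : Subgroup S) ≤ N := fun y hy => by
    rcases eq_or_ne y 1 with rfl | hy1
    · exact one_mem N
    refine mem_normal_of_dvd not_sq_dvd_stab (dvd_card_normal_stab hbot) ?_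
    have h := orderOf_dvd_natCard (⟨y, hy⟩ : (P₀ : Subgroup S))
    rw [Subgroup.orderOf_mk, hP] at h
    exact ((Nat.Prime.eq_one_or_self_of_dvd (by norm_num) _ h).resolve_left fun e =>
      hy1 (orderOf_eq_one_iff.1 e))
  set M := normalizer (P₀ : Set S)
  have htop : M ⊔ N = ⊤ := Sylow.normalizer_sup_eq_top' P₀ hle
  have hidx : N.index = N.relIndex M := by
    rw [← relIndex_top_right, ← htop, relIndex_sup_right]
  have hdvd : N.index ∣ 11 := hidx ▸ hrel ▸ relIndex_dvd_of_le_left _ hle
  rcases (Nat.dvd_prime (by norm_num)).1 hdvd with h1 | h11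
  · exact index_eq_one.1 h1
  exfalso
  have hinf : (P₀ : Subgroup S).relIndex (N ⊓ M) = 1 := by
    have h := relIndex_mul_relIndex (H := (P₀ : Subgroup S)) (K := N ⊓ M) (L := M)
      (le_inf hle le_normalizer) inf_le_right
    rw [inf_relIndex_right, ← hidx, h11, hrel] at h
    omega
  rw [relIndex_eq_one] at hinf
  set P' : Sylow 23 N := P₀.subtype hle
  have hP' : ∀ y : N, y ∈ P' ↔ (y : S) ∈ (P₀ : Subgroup S) := fun _ => Iff.rfl
  have hcomm : ∀ y z : S, y ∈ (P₀ : Subgroup S) → z ∈ (P₀ : Subgroup S) → y * z = z * y :=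
    fun y z hy hz => congrArg Subtype.val
      ((isCyclic_of_prime_card (p := 23) hP).commGroup.mul_comm
        (⟨y, hy⟩ : (P₀ : Subgroup S)) ⟨z, hz⟩)
  have hburn : normalizer (P' : Set N) ≤ centralizer (P' : Set N) := fun y hy => by
    have hyP : (y : S) ∈ (P₀ : Subgroup S) := hinf ⟨y.2, mem_normalizer_iff.2 fun z => by
      refine ⟨fun hz => ?_, fun hz => ?_⟩
      · exact (hP' _).1 ((mem_normalizer_iff.1 hy ⟨z, hle hz⟩).1 hz)
      · have hzN : z ∈ N := by
          have := N.mul_mem (N.mul_mem (N.inv_mem y.2) (hle hz)) y.2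
          simpa [mul_assoc] using this
        exact (hP' _).1 ((mem_normalizer_iff.1 hy ⟨z, hzN⟩).2 hz)⟩
    exact mem_centralizer_iff.2 fun z hz => Subtype.ext (hcomm z y hz hyP)
  set f := MonoidHom.transferSylow P' hburn
  have hcomp := MonoidHom.ker_transferSylow_isComplement' P' hburn
  have hP'card : Nat.card (P' : Subgroup N) = 23 :=
    (Nat.card_congr ((subgroupOfEquivOfLe hle).toEquiv)).trans hP
  have hN : Nat.card N = 927360 := by
    have := N.card_mul_index
    rw [h11, card_stabilizer] at this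
    omega
  have hKcard : Nat.card f.ker = 40320 := by
    have := hcomp.card_mul_card
    rw [hP'card, hN] at this
    change Nat.card f.ker * 23 = _ at this
    omega
  have hKn : (f.ker.map N.subtype).Normal := by
    refine ⟨?_⟩
    rintro _ ⟨k, hk, rfl⟩ g
    refine ⟨MulAut.conjNormal g k, ?_, MulAut.conjNormal_apply g k⟩
    have h1 : orderOf (f (MulAut.conjNormal g k)) ∣ Nat.gcd 40320 23 := Nat.dvd_gcd
      ((orderOf_map_dvd f _).trans (by
        rw [MulEquiv.orderOf_eq, ← hKcard]
        have := orderOf_dvd_natCard (⟨k, hk⟩ : f.ker)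
        rwa [Subgroup.orderOf_mk] at this))
      (by have := orderOf_dvd_natCard (f (MulAut.conjNormal g k)); rwa [hP'card] at this)
    rw [show Nat.gcd 40320 23 = 1 by norm_num, Nat.dvd_one, orderOf_eq_one_iff] at h1
    exact h1
  have hne : f.ker.map N.subtype ≠ ⊥ := fun h => by
    rw [map_eq_bot_iff_of_injective _ N.subtype_injective] at h
    rw [h, Subgroup.card_bot] at hKcard
    norm_num at hKcard
  have h := dvd_card_normal_stab hne
  rw [← Nat.card_congr (f.ker.equivMapOfInjective _ N.subtype_injective).toEquiv, hKcard] at h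
  norm_num at h

/-- **`M₂₄` is simple.** -/
theorem isSimpleGroup_mathieu : IsSimpleGroup mathieu := by
  have : Nontrivial mathieu := Finite.one_lt_card_iff_nontrivial.1 (by rw [card_mathieu]; norm_num)
  refine ⟨fun N hN => or_iff_not_imp_left.2 fun hbot => ?_⟩
  obtain ⟨n, hn, hn1⟩ := (Subgroup.bot_or_exists_ne_one N).resolve_left hbot
  obtain ⟨b, hb⟩ := exists_moved hn1
  have htrans : ∀ c d : Fin 24, ∃ m ∈ N, m • c = d := fun c d => by
    rcases eq_or_ne c d with rfl | hcd
    · exact ⟨1, one_mem N, one_smul _ _⟩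
    obtain ⟨g, h1, h2⟩ := exists_mathieu_two (Ne.symm hb) hcd
    exact exists_normal_move hn rfl g h1 h2
  have hsimp := isSimpleGroup_stab (0 : Fin 24)
  set S := stabilizer mathieu (0 : Fin 24)
  rcases hsimp.eq_bot_or_eq_top_of_normal (N.subgroupOf S) (hN.subgroupOf S) with h | h
  · exfalso
    have hfree : ∀ m : mathieu, m ∈ N → m • (0 : Fin 24) = 0 → m = 1 := fun m hm h0 => by
      have h1 : (⟨m, h0⟩ : S) ∈ N.subgroupOf S := hm
      rw [h, Subgroup.mem_bot] at h1
      exact congrArg Subtype.val h1
    have hbij : Function.Bijective fun m : N => (m : mathieu) • (0 : Fin 24) :=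
      ⟨fun m m' e => Subtype.ext (inv_mul_eq_one.1 (hfree _ (N.mul_mem (N.inv_mem m'.2) m.2) (by
        rw [mul_smul, inv_smul_eq_iff]; exact e))).symm,
        fun d => (htrans 0 d).elim fun m hm => ⟨⟨m, hm.1⟩, hm.2⟩⟩
    have hcard : Nat.card N = 24 :=
      (Nat.card_congr (Equiv.ofBijective _ hbij)).trans (Nat.card_fin 24)
    have h3 : Fact (Nat.Prime 3) := ⟨by norm_num⟩
    obtain ⟨u, hu⟩ := exists_prime_orderOf_dvd_card' (G := N) 2 (by rw [hcard]; norm_num)
    obtain ⟨v, hv⟩ := exists_prime_orderOf_dvd_card' (G := N) 3 (by rw [hcard]; norm_num)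
    have hne : ∀ w : N, orderOf w ≠ 1 → (w : mathieu) • (0 : Fin 24) ≠ 0 := fun w hw e =>
      hw (orderOf_eq_one_iff.2 (Subtype.ext (hfree w w.2 e)))
    obtain ⟨g, hg0, hguv⟩ := exists_mathieu_two (hne u (by omega)).symm (hne v (by omega)).symm
    have hw : g * u * g⁻¹ = (v : mathieu) := (inv_mul_eq_one.1 (hfree ((v : mathieu)⁻¹ *
      (g * u * g⁻¹)) (N.mul_mem (N.inv_mem v.2) (hN.conj_mem _ u.2 g)) (by
      rw [mul_smul, inv_smul_eq_iff, mul_smul, mul_smul, inv_smul_eq_iff.2 hg0.symm, hguv]))).symm
    have h5 := congrArg orderOf hw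
    rw [← MulAut.conj_apply, MulEquiv.orderOf_eq, Subgroup.orderOf_coe, Subgroup.orderOf_coe] at h5
    omega
  · refine eq_top_iff.2 fun g _ => ?_
    obtain ⟨m, hm, hmg⟩ := htrans 0 (g • (0 : Fin 24))
    have hs : (⟨m⁻¹ * g, by
        rw [MulAction.mem_stabilizer_iff, mul_smul, inv_smul_eq_iff, hmg]⟩ : S) ∈
        N.subgroupOf S := h ▸ Subgroup.mem_top _
    simpa using N.mul_mem hm (Subgroup.mem_subgroupOf.1 hs)

end FA.LeechUnique

end
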