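import Fermat.Agent.Forms3.Golay

/-!
# The Steiner system of the octads

Two octads share at most four points, so the `759 · 56` sets of five points inside them are all the
`42504` sets of five points.
-/

set_option autoImplicit false

noncomputable section

open scoped Classical

namespace FA.LeechUnique

open FA.Golay (code wt common)

/-- The points of a word. -/
def pointSet (c : Fin 24 → Bool) : Finset (Fin 24) := Finset.univ.filter fun i => c i = true

/-- The words of weight eight. -/
def octads : Finset (Fin 24 → Bool) := code.filter fun c => wt c = 8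

theorem mem_octads {c : Fin 24 → Bool} : c ∈ octads ↔ c ∈ code ∧ wt c = 8 := Finset.mem_filter

theorem card_octads : octads.card = 759 := FA.Golay.card_wt_values.2.1

-- keep membership from being evaluated
attribute [irreducible] octads

/-- Two different octads share at most four points. -/
theorem octads_meet {c d : Fin 24 → Bool} (hc : c ∈ code) (hd : d ∈ code) (hc8 : wt c = 8)
    (hd8 : wt d = 8) (hne : c ≠ d) : common c d ≤ 4 := by
  have h : wt (fun i => xor (c i) (d i)) + 2 * common c d = wt c + wt d := by
    simp only [FA.Golay.wt, FA.Golay.common, Finset.card_filter, Finset.mul_sum,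
      ← Finset.sum_add_distrib]
    refine Finset.sum_congr rfl fun i _ => ?_
    cases c i <;> cases d i <;> rfl
  have h0 : wt (fun i => xor (c i) (d i)) ≠ 0 := by
    obtain ⟨i, hi⟩ := Function.ne_iff.1 hne
    exact Finset.card_ne_zero.2 ⟨i, by
      revert hi; cases hci : c i <;> cases hdi : d i <;> simp [hci, hdi]⟩
  have h1 := FA.Golay.wt_mem (FA.Golay.bxor_mem hc hd)
  simp only [Finset.mem_insert, Finset.mem_singleton] at h1
  omega

theorem octad_unique {c d : Fin 24 → Bool} {S : Finset (Fin 24)} (hS : S.card = 5)
    (hc : c ∈ code ∧ wt c = 8) (hd : d ∈ code ∧ wt d = 8) (hSc : ∀ i ∈ S, c i = true)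
    (hSd : ∀ i ∈ S, d i = true) : c = d := by
  by_contra hne
  have h4 := octads_meet hc.1 hd.1 hc.2 hd.2 hne
  have : S.card ≤ common c d := Finset.card_le_card fun i hi => by simp [hSc i hi, hSd i hi]
  omega

/-- **The Steiner system `S(5, 8, 24)`.** -/
theorem exists_unique_octad (S : Finset (Fin 24)) (hS : S.card = 5) :
    ∃! c, (c ∈ code ∧ wt c = 8) ∧ ∀ i ∈ S, c i = true := by
  have hdisj : (octads : Set (Fin 24 → Bool)).PairwiseDisjoint fun c =>
      (pointSet c).powersetCard 5 := by
    intro c hc d hd hne
    rw [Function.onFun, Finset.disjoint_left]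
    intro T hTc hTd
    rw [Finset.mem_powersetCard] at hTc hTd
    exact hne (octad_unique hTc.2 (mem_octads.1 hc) (mem_octads.1 hd)
      (fun i hi => by simpa [pointSet] using hTc.1 hi)
      fun i hi => by simpa [pointSet] using hTd.1 hi)
  have hall : octads.biUnion (fun c => (pointSet c).powersetCard 5) =
      (Finset.univ : Finset (Fin 24)).powersetCard 5 := by
    refine Finset.eq_of_subset_of_card_le (fun T hT => ?_) (le_of_eq ?_)
    · obtain ⟨c, -, hT⟩ := Finset.mem_biUnion.1 hT
      exact Finset.mem_powersetCard.2 ⟨Finset.subset_univ _, (Finset.mem_powersetCard.1 hT).2⟩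
    · rw [Finset.card_biUnion hdisj, Finset.sum_congr rfl (g := fun _ => 56) fun c hc => ?_,
        Finset.sum_const, card_octads, Finset.card_powersetCard, Finset.card_univ,
        Fintype.card_fin]
      · rw [Nat.choose_eq_descFactorial_div_factorial]; norm_num [Nat.descFactorial, Nat.factorial]
      · rw [Finset.card_powersetCard, show (pointSet c).card = 8 from (mem_octads.1 hc).2]
        rfl
  have hmem : S ∈ (Finset.univ : Finset (Fin 24)).powersetCard 5 :=
    Finset.mem_powersetCard.2 ⟨Finset.subset_univ _, hS⟩
  rw [← hall] at hmem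
  obtain ⟨c, hc, hSc⟩ := Finset.mem_biUnion.1 hmem
  have hcS : ∀ i ∈ S, c i = true := fun i hi => by
    simpa [pointSet] using (Finset.mem_powersetCard.1 hSc).1 hi
  exact ⟨c, ⟨mem_octads.1 hc, hcS⟩, fun d hd =>
    octad_unique hS hd.1 (mem_octads.1 hc) hd.2 hcS⟩

end FA.LeechUnique

end
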