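import Fermat.Agent.LeechUnique.FixedFrame
import Fermat.Agent.LeechUnique.MathieuSimple
import Fermat.Agent.LeechUnique.Steiner

/-!
# The normal subgroups of `Co₀`

An element `P` of order `23` fixes one frame, so its normaliser is monomial. A normal subgroup of
order divisible by `23` holds `P`, hence the monomial group and everything; any other one is a
`2`-group, as `P` normalises its Sylow subgroups, so is monomial and fixes every frame.
-/

set_option autoImplicit false

noncomputable section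

open Subgroup Matrix
open scoped Classical

namespace FA.LeechUnique

open FA.Golay (code wt bits rows words)

local instance : Fact (Nat.Prime 23) := ⟨by norm_num⟩

/-- The signs alone. -/
def signElt (b : FA.Golay.code) : conway := monoElt (⟨1, preservesCode_id⟩, b)

theorem signElt_apply (b : FA.Golay.code) (x : LeechPt) (i : Fin 24) :
    ((signElt b).1 x : Fin 24 → ℤ) i = signs b.1 i * (x : Fin 24 → ℤ) i := rfl

theorem signElt_mul (b c : FA.Golay.code) :
    signElt b * signElt c = signElt ⟨_, FA.Golay.bxor_mem b.2 c.2⟩ :=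
  conway_ext fun x => Subtype.ext (funext fun i => by
    show signs b.1 i * (signs c.1 i * (x : Fin 24 → ℤ) i) =
      signs (fun i => xor (b.1 i) (c.1 i)) i * (x : Fin 24 → ℤ) i
    cases hb : b.1 i <;> cases hc : c.1 i <;> simp [signs, hb, hc])

theorem signElt_zero : signElt ⟨_, FA.Golay.zero_mem⟩ = 1 :=
  conway_ext fun x => Subtype.ext (funext fun i => (signElt_apply _ x i).trans (by simp [signs]))

/-- `-1`. -/
def negElt : conway := signElt ⟨_, FA.Golay.ones_mem⟩

theorem negElt_apply (x : LeechPt) : negElt.1 x = -x :=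
  Subtype.ext (funext fun i => (signElt_apply _ x i).trans (by simp [signs]))

theorem negElt_ne_one : negElt ≠ 1 := fun h => by
  have h2 := congrArg (fun g : conway => (g.1 (axis 0) : Fin 24 → ℤ) 0) h
  simp only [negElt_apply, AddSubgroup.coe_neg, Pi.neg_apply, axis_val, Pi.single_eq_same] at h2
  have h3 : ((1 : conway).1 (axis 0) : Fin 24 → ℤ) 0 = 8 := by
    show (axis 0 : Fin 24 → ℤ) 0 = 8
    simp [axis_val]
  omega

/-- An element carrying `P` into the monomial group is monomial. -/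
theorem mem_of_conj_mem {σ : Equiv.Perm (Fin 24)} (hσ : PreservesCode σ) (ho : orderOf σ = 23)
    {g : conway} (h : g⁻¹ * permElt hσ * g ∈ monomialGroup) : g ∈ monomialGroup := by
  refine mem_monomialGroup.2 (fixed_frame_unique hσ ho _ ((g.2 _ _).trans (by simp [axis_val])) ?_)
  have h2 := (mem_monomialGroup.1 h).map' g
  rwa [conway_mul_apply, conway_mul_apply, conway_inv_apply] at h2

theorem normalizer_zpowers_le {σ : Equiv.Perm (Fin 24)} (hσ : PreservesCode σ)
    (ho : orderOf σ = 23) :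
    normalizer (zpowers (permElt hσ) : Set conway) ≤ monomialGroup := fun g hg => by
  refine mem_of_conj_mem hσ ho ((zpowers_le.2 (monoElt_mem _) : zpowers (permElt hσ) ≤ _) ?_)
  have h := (mem_normalizer_iff.1 (inv_mem hg) (permElt hσ)).1 (mem_zpowers _)
  rwa [inv_inv] at h

theorem exists_order23 : ∃ (σ : Equiv.Perm (Fin 24)) (_ : PreservesCode σ), orderOf σ = 23 := by
  obtain ⟨σ, hσ⟩ := exists_prime_orderOf_dvd_card' (G := mathieu) 23
    (by rw [card_mathieu]; norm_num)
  exact ⟨σ.1, σ.2, (Subgroup.orderOf_coe σ).trans hσ⟩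

theorem rows_facts : rows.all (fun r => FA.Golay.popB 24 r == 8 && (words rows).contains r) ∧
    FA.Golay.popB 24 (8648704 ^^^ 5829632) = 8 ∧ 8648704 ∈ rows ∧ 5829632 ∈ rows := by
  decide +kernel

/-- A normal subgroup meeting the monomial group onto `M₂₄` holds all the signs. -/
theorem signs_mem {N : Subgroup conway} [N.Normal]
    (h : ∀ τ : mathieu, ∃ p, monoElt p ∈ N ∧ p.1.1 = (τ : Equiv.Perm (Fin 24)))
    (b : FA.Golay.code) : signElt b ∈ N := by
  let W : (Fin 24 → Bool) → Prop := fun c => ∀ hc : c ∈ code, signElt ⟨c, hc⟩ ∈ N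
  have hadd : ∀ {c d}, c ∈ code → d ∈ code → W c → W d → W fun i => xor (c i) (d i) :=
    fun {c d} hc hd hWc hWd _ => by
      have := N.mul_mem (hWc hc) (hWd hd)
      rwa [signElt_mul] at this
  have hdiff : ∀ {c : Fin 24 → Bool}, c ∈ code → ∀ τ : mathieu,
      W fun i => xor (c (τ.1 i)) (c i) := fun {c} hc τ hmem => by
    obtain ⟨p, hp, hpτ⟩ := h τ
    have hct : (fun i => c (τ.1 i)) ∈ code := (τ.2 c).2 hc
    have hcomm : monoElt p * signElt ⟨c, hc⟩ = signElt ⟨_, hct⟩ * monoElt p :=
      conway_ext fun x => Subtype.ext (funext fun i => by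
        show signs p.2.1 i * (signs c (p.1.1 i) * (x : Fin 24 → ℤ) (p.1.1 i)) =
          signs (fun i => c (τ.1 i)) i * (signs p.2.1 i * (x : Fin 24 → ℤ) (p.1.1 i))
        rw [hpτ, show signs c (τ.1 i) = signs (fun i => c (τ.1 i)) i from rfl]
        ring)
    have hinv : (signElt ⟨c, hc⟩)⁻¹ = signElt ⟨c, hc⟩ :=
      inv_eq_of_mul_eq_one_right (monoElt_one_sq ⟨c, hc⟩)
    have h2 := N.mul_mem hp (‹N.Normal›.conj_mem _ (N.inv_mem hp) (signElt ⟨c, hc⟩))
    rw [show monoElt p * (signElt ⟨c, hc⟩ * (monoElt p)⁻¹ * (signElt ⟨c, hc⟩)⁻¹) =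
        monoElt p * signElt ⟨c, hc⟩ * (monoElt p)⁻¹ * (signElt ⟨c, hc⟩)⁻¹ by group, hcomm,
      mul_inv_cancel_right, hinv, signElt_mul] at h2
    exact h2
  obtain ⟨hr, h01, hr0, hr1⟩ := rows_facts
  have hrow : ∀ r ∈ rows, bits r ∈ code ∧ wt (bits r) = 8 := fun r hr' => by
    have h' := List.all_eq_true.1 hr r hr'
    rw [Bool.and_eq_true, beq_iff_eq, List.contains_iff_mem] at h'
    exact ⟨Finset.mem_image.2 ⟨r, List.mem_toFinset.2 h'.2, rfl⟩,
      by rw [FA.Golay.wt_bits]; exact h'.1⟩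
  have hpair : ∀ o o', o ∈ code → wt o = 8 → o' ∈ code → wt o' = 8 →
      W fun i => xor (o' i) (o i) := fun o o' ho ho8 ho' ho'8 => by
    have key : ∀ c : Fin 24 → Bool, wt c = 8 →
        ∃ f : Fin 5 → Fin 24, Function.Injective f ∧ ∀ i, c (f i) = true := fun c hc => by
      have e : (pointSet c).card = 8 := hc
      refine ⟨fun i => (((pointSet c).equivFinOfCardEq e).symm (Fin.castLE (by norm_num) i)).1,
        Subtype.val_injective.comp ((Equiv.injective _).comp
          (Fin.castLE_injective (by norm_num : 5 ≤ 8))), fun i => ?_⟩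
      exact (Finset.mem_filter.1 (((pointSet c).equivFinOfCardEq e).symm
        (Fin.castLE (by norm_num) i)).2).2
    obtain ⟨f, hf, hfo⟩ := key o ho8
    obtain ⟨f', hf', hfo'⟩ := key o' ho'8
    obtain ⟨τ, hτ, hτf⟩ := exists_preservesCode_map f' f hf' hf
    have heq : (fun i => o (τ i)) = o' :=
      octad_unique (S := Finset.univ.image f')
        (by rw [Finset.card_image_of_injective _ hf', Finset.card_univ, Fintype.card_fin])
        ⟨(hτ o).2 ho, (Finset.card_equiv τ fun i => by simp).trans ho8⟩ ⟨ho', ho'8⟩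
        (by simpa [hτf] using hfo) (by simpa using hfo')
    have := hdiff ho (⟨τ, hτ⟩ : mathieu)
    simpa [← heq] using this
  have h3 := hadd (hrow _ hr0).1 (hrow _ hr1).1
  set o₃ : Fin 24 → Bool := fun i => xor (bits 8648704 i) (bits 5829632 i) with ho₃
  have ho₃c : o₃ ∈ code := FA.Golay.bxor_mem (hrow _ hr0).1 (hrow _ hr1).1
  have ho₃8 : wt o₃ = 8 := by
    rw [show o₃ = bits (8648704 ^^^ 5829632) from funext fun i => (Nat.testBit_xor _ _ _).symm,
      FA.Golay.wt_bits, h01]
  have hWo₃ : W o₃ := hpair _ _ (hrow _ hr1).1 (hrow _ hr1).2 (hrow _ hr0).1 (hrow _ hr0).2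
  have hoct : ∀ o, o ∈ code → wt o = 8 → W o := fun o ho ho8 => by
    have := hadd (FA.Golay.bxor_mem ho ho₃c) ho₃c (hpair o₃ o ho₃c ho₃8 ho ho8) hWo₃
    simpa using this
  have hwords : ∀ rs : List ℕ, (∀ r ∈ rs, r ∈ rows) →
      ∀ w ∈ words rs, bits w ∈ code ∧ W (bits w) := by
    intro rs
    induction rs with
    | nil =>
      intro _ w hw
      obtain rfl : w = 0 := by simpa [words] using hw
      have e : bits 0 = fun _ => false := funext fun i => Nat.zero_testBit _
      refine ⟨e ▸ FA.Golay.zero_mem, e ▸ fun _ => ?_⟩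
      rw [signElt_zero]
      exact one_mem N
    | cons r rs ih =>
      intro hsub w hw
      have ih' := ih fun x hx => hsub x (List.mem_cons_of_mem _ hx)
      rcases List.mem_append.1 hw with hw | hw
      · exact ih' w hw
      obtain ⟨x, hx, rfl⟩ := List.mem_map.1 hw
      obtain ⟨hrc, hr8⟩ := hrow r (hsub r (List.mem_cons_self ..))
      obtain ⟨hxc, hxW⟩ := ih' x hx
      rw [show bits (r ^^^ x) = fun i => xor (bits r i) (bits x i) from
        funext fun i => Nat.testBit_xor r x i]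
      exact ⟨FA.Golay.bxor_mem hrc hxc, hadd hrc hxc (hoct _ hrc hr8) hxW⟩
  obtain ⟨c, hc⟩ := b
  obtain ⟨w, hw, rfl⟩ := Finset.mem_image.1 hc
  exact (hwords rows (fun _ h => h) w (List.mem_toFinset.1 hw)).2 hc

theorem eq_top_of_dvd {N : Subgroup conway} [N.Normal] (hN : 23 ∣ Nat.card N) : N = ⊤ := by
  obtain ⟨σ, hσ, ho⟩ := exists_order23
  have hsq : ¬23 ^ 2 ∣ Nat.card conway := by rw [card_conway]; norm_num
  have hP := orderOf_permElt hσ ho
  have hPN := mem_normal_of_dvd hsq hN hP
  have hmap : ((N.subgroupOf monomialGroup).map toMathieu) = ⊤ := by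
    have hn : ((N.subgroupOf monomialGroup).map toMathieu).Normal :=
      Subgroup.Normal.map inferInstance _ toMathieu_surjective
    refine (isSimpleGroup_mathieu.eq_bot_or_eq_top_of_normal _ hn).resolve_left fun h => ?_
    have h2 : toMathieu ⟨permElt hσ, monoElt_mem _⟩ = 1 :=
      Subgroup.mem_bot.1 (h ▸ Subgroup.mem_map_of_mem _ (show (⟨permElt hσ, monoElt_mem _⟩ :
        monomialGroup) ∈ N.subgroupOf monomialGroup from hPN))
    have h3 : ((1 : mathieu) : Equiv.Perm (Fin 24)) = σ.symm :=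
      (congrArg Subtype.val h2).symm.trans (toMathieu_monoElt _)
    have h4 : σ = 1 := by rw [← Equiv.symm_symm σ, ← h3]; rfl
    rw [h4, orderOf_one] at ho
    norm_num at ho
  have hlift : ∀ τ : mathieu, ∃ p, monoElt p ∈ N ∧ p.1.1 = (τ : Equiv.Perm (Fin 24)) := fun τ => by
    obtain ⟨g, hg, hgτ⟩ := Subgroup.mem_map.1 (hmap ▸ Subgroup.mem_top τ⁻¹ :
      τ⁻¹ ∈ (N.subgroupOf monomialGroup).map toMathieu)
    obtain ⟨p, hp⟩ := exists_monoElt g.2
    refine ⟨p, hp ▸ hg, ?_⟩
    have h2 := toMathieu_monoElt p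
    rw [show (⟨monoElt p, monoElt_mem p⟩ : monomialGroup) = g from Subtype.ext hp, hgτ] at h2
    exact Equiv.symm_bijective.injective h2.symm
  have hle : monomialGroup ≤ N := fun g hg => by
    obtain ⟨n, hn, hng⟩ := Subgroup.mem_map.1 (hmap ▸ Subgroup.mem_top (toMathieu ⟨g, hg⟩) :
      toMathieu ⟨g, hg⟩ ∈ (N.subgroupOf monomialGroup).map toMathieu)
    obtain ⟨b, hb⟩ := exists_signs (g := n⁻¹ * ⟨g, hg⟩)
      (by rw [map_mul, map_inv, hng, inv_mul_cancel])
    have h2 : monoElt (⟨1, preservesCode_id⟩, b) ∈ N := signs_mem hlift b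
    rw [hb] at h2
    simpa using N.mul_mem (show (n : conway) ∈ N from hn) h2
  let Q : Sylow 23 conway := Sylow.ofCard (zpowers (permElt hσ)) (card_zpowers_sylow hsq hP)
  rw [eq_top_iff, ← Sylow.normalizer_sup_eq_top' Q
    (show (Q : Subgroup conway) ≤ N from zpowers_le.2 hPN)]
  exact sup_le ((normalizer_zpowers_le hσ ho).trans hle) le_rfl

end FA.LeechUnique

end
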