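import Fermat.Agent.LeechUnique.ConwayTwo

/-!
# The centre of `Co₀` and the simplicity of `Co₁`
-/

set_option autoImplicit false

noncomputable section

open Subgroup Matrix
open scoped Classical

namespace FA.LeechUnique

/-- An odd vector of norm eight. -/
def oddEight : Fin 24 → ℤ := fun i => if i.val < 5 then -3 else 1

theorem oddEight_spec : Leech.InL oddEight ∧ oddEight ⬝ᵥ oddEight = 64 := by
  refine ⟨⟨by decide, ?_, by decide⟩, by decide⟩
  convert FA.Golay.zero_mem using 1
  funext i
  revert i
  decide

/-- A normal subgroup of order prime to `23` holds only `1` and `-1`. -/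
theorem eq_one_or_neg {N : Subgroup conway} [N.Normal] (hN : ¬23 ∣ Nat.card N) {n : conway}
    (hn : n ∈ N) : n = 1 ∨ n = negElt := by
  have hle := le_monomialGroup hN
  -- every frame is kept
  have hfix : ∀ x : LeechPt, (x : Fin 24 → ℤ) ⬝ᵥ (x : Fin 24 → ℤ) = 64 → Congr (n.1 x) x :=
    fun x hx => by
    obtain ⟨g, hg⟩ := exists_frame_move x hx
    have h := (mem_monomialGroup.1 (hle (‹N.Normal›.conj_mem n hn g⁻¹))).map' g
    rw [inv_inv, conway_mul_apply, conway_mul_apply, conway_inv_apply] at h
    exact ((hg.map' n).trans h).trans hg.symm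
  obtain ⟨p, hp⟩ := exists_monoElt (hle hn)
  -- only signs
  have hσ : toMathieu ⟨n, hle hn⟩ = 1 := by
    have himg : ((N.subgroupOf monomialGroup).map toMathieu).Normal :=
      Subgroup.Normal.map inferInstance _ toMathieu_surjective
    rcases isSimpleGroup_mathieu.eq_bot_or_eq_top_of_normal _ himg with h | h
    · exact Subgroup.mem_bot.1 (h ▸ Subgroup.mem_map_of_mem _
        (show (⟨n, hle hn⟩ : monomialGroup) ∈ N.subgroupOf monomialGroup from hn))
    · exfalso
      have h2 := Subgroup.card_map_dvd (H := N.subgroupOf monomialGroup) toMathieu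
      rw [h, Subgroup.card_top, card_mathieu,
        Nat.card_congr (subgroupOfEquivOfLe hle).toEquiv] at h2
      exact hN ((show 23 ∣ 244823040 by norm_num).trans h2)
  obtain ⟨b, hb⟩ := exists_signs hσ
  replace hb : signElt b = n := hb
  obtain ⟨hL, h64⟩ := oddEight_spec
  obtain ⟨w, hw⟩ := hfix ⟨oddEight, Summary.mem_leechLattice.2 hL⟩ h64
  have hwi : ∀ i, (w : Fin 24 → ℤ) i = if b.1 i = true then -oddEight i else 0 := fun i => by
    have h := congrFun (congrArg Subtype.val hw) i
    rw [← hb] at h
    simp only [AddSubgroup.coe_sub, AddSubgroup.coe_zsmul, Pi.sub_apply, Pi.smul_apply,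
      smul_eq_mul, signElt_apply] at h
    rw [signs] at h
    split_ifs at h ⊢ <;> linarith
  have hpar : ∀ i, b.1 i = b.1 0 := fun i => by
    have h := (Summary.mem_leechLattice.1 w.2).1 i
    rw [hwi, hwi] at h
    have ho : ∀ j, oddEight j % 2 = 1 := by decide
    have := ho i
    have := ho 0
    cases hbi : b.1 i <;> cases hb0 : b.1 0 <;> simp [hbi, hb0] at h ⊢ <;> omega
  subst hb
  cases h0 : b.1 0
  · left
    rw [← signElt_zero]
    exact congrArg signElt (Subtype.ext (funext fun i => (hpar i).trans h0))
  · right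
    exact congrArg signElt (Subtype.ext (funext fun i => (hpar i).trans h0))

/-- **The normal subgroups of `Co₀`.** -/
theorem conway_normal_cases (N : Subgroup conway) [N.Normal] :
    (∀ n ∈ N, n = 1 ∨ n = negElt) ∨ N = ⊤ := by
  by_cases hN : 23 ∣ Nat.card N
  · exact Or.inr (eq_top_of_dvd hN)
  · exact Or.inl fun n hn => eq_one_or_neg hN hn

theorem negElt_mem_center : negElt ∈ center conway :=
  Subgroup.mem_center_iff.2 fun g => conway_ext fun x => by
    rw [conway_mul_apply, conway_mul_apply, negElt_apply, negElt_apply, map_neg]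

theorem toMathieu_signs (b : FA.Golay.code) :
    toMathieu ⟨signElt b, monoElt_mem _⟩ = 1 :=
  Subtype.ext ((toMathieu_monoElt _).trans rfl)

theorem toMathieu_pm {g : monomialGroup} (h : g.1 = 1 ∨ g.1 = negElt) : toMathieu g = 1 := by
  rcases h with h | h
  · rw [show g = 1 from Subtype.ext h, map_one]
  · rw [show g = ⟨signElt ⟨_, FA.Golay.ones_mem⟩, monoElt_mem _⟩ from Subtype.ext h,
      toMathieu_signs]

theorem exists_noncommuting : ∃ g h : mathieu, g * h ≠ h * g := by
  obtain ⟨g, ga, gb, -⟩ := exists_mathieu_three (a := 0) (b := 1) (c := 3) (a' := 0) (b' := 2)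
    (c' := 3) (by decide) (by decide)
  obtain ⟨h, ha⟩ := exists_mathieu_one 0 1
  refine ⟨g, h, fun e => ?_⟩
  have e2 := congrArg (fun z : mathieu => z • (0 : Fin 24)) e
  simp only [mul_smul, ha, gb, ga] at e2
  exact absurd e2 (by decide)

/-- The commutators do not all lie among `1` and `-1`. -/
theorem commutator_eq_top : commutator conway = ⊤ := by
  refine (conway_normal_cases _).resolve_left fun hpm => ?_
  obtain ⟨g, h, hne⟩ := exists_noncommuting
  obtain ⟨g', rfl⟩ := toMathieu_surjective g
  obtain ⟨h', rfl⟩ := toMathieu_surjective h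
  have hmem : (g'.1 * h'.1 * g'.1⁻¹ * h'.1⁻¹) ∈ commutator conway :=
    Subgroup.commutator_mem_commutator (Subgroup.mem_top g'.1) (Subgroup.mem_top h'.1)
  have h1 := toMathieu_pm (g := g' * h' * g'⁻¹ * h'⁻¹) (hpm _ hmem)
  rw [map_mul, map_mul, map_mul, map_inv, map_inv, ← commutatorElement_def,
    commutatorElement_eq_one_iff_mul_comm] at h1
  exact hne h1

/-- **The centre is `{1, -1}`.** -/
theorem mem_center_conway (g : conway) : g ∈ center conway ↔ g = 1 ∨ g = negElt := by
  refine ⟨fun hg => ?_, ?_⟩
  · rcases conway_normal_cases (center conway) with h | h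
    · exact h g hg
    · exfalso
      obtain ⟨a, b, hne⟩ := exists_noncommuting
      obtain ⟨a', rfl⟩ := toMathieu_surjective a
      obtain ⟨b', rfl⟩ := toMathieu_surjective b
      refine hne ?_
      rw [← map_mul, ← map_mul]
      exact congrArg _ (Subtype.ext (Subgroup.mem_center_iff.1 (h ▸ Subgroup.mem_top b'.1) a'.1))
  · rintro (rfl | rfl)
    · exact one_mem _
    · exact negElt_mem_center

theorem card_center : Nat.card (center conway) = 2 := by
  have h : (center conway : Set conway) = {1, negElt} := Set.ext fun g => by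
    simp [mem_center_conway]
  show Nat.card (center conway : Set conway) = 2
  rw [Nat.card_coe_set_eq, h, Set.ncard_pair negElt_ne_one.symm]

theorem card_quotient : Nat.card (conway ⧸ center conway) = 4157776806543360000 := by
  have h := (center conway).card_mul_index
  rw [card_center, card_conway] at h
  show (center conway).index = _
  omega

/-- **`Co₁` is simple.** -/
theorem isSimpleGroup_quotient : IsSimpleGroup (conway ⧸ center conway) := by
  have : Nontrivial (conway ⧸ center conway) :=
    Finite.one_lt_card_iff_nontrivial.1 (by rw [card_quotient]; norm_num)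
  refine ⟨fun K hK => ?_⟩
  have hs : Function.Surjective (QuotientGroup.mk' (center conway)) :=
    QuotientGroup.mk'_surjective _
  rcases conway_normal_cases (K.comap (QuotientGroup.mk' (center conway))) with h | h
  · refine Or.inl ((Subgroup.eq_bot_iff_forall K).2 fun x hx => ?_)
    obtain ⟨g, rfl⟩ := hs x
    exact (QuotientGroup.eq_one_iff g).2 ((mem_center_conway g).2 (h g hx))
  · refine Or.inr (Subgroup.comap_injective hs ?_)
    rw [h, Subgroup.comap_top]

end FA.LeechUnique

end
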