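import Fermat.Agent.LeechUnique.ConwayNormal

/-!
# Normal subgroups of order prime to `23`

Their Sylow subgroups for odd primes are trivial, so they lie in every Sylow `2`, so in the
monomial group, and keep every frame: they hold only `1` and `-1`.
-/

set_option autoImplicit false

noncomputable section

open Subgroup Matrix
open scoped Classical Pointwise

namespace FA.LeechUnique

local instance : Fact (Nat.Prime 23) := ⟨by norm_num⟩

theorem not_pow_modEq_one : ∀ e : ℕ, 0 < e →
    (e ≤ 9 → 3 ^ e % 23 ≠ 1) ∧ (e ≤ 4 → 5 ^ e % 23 ≠ 1) ∧ (e ≤ 2 → 7 ^ e % 23 ≠ 1) ∧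
      (e ≤ 1 → 11 ^ e % 23 ≠ 1 ∧ 13 ^ e % 23 ≠ 1) := by
  intro e he
  refine ⟨fun h => ?_, fun h => ?_, fun h => ?_, fun h => ⟨?_, ?_⟩⟩ <;>
    interval_cases e <;> norm_num

theorem card_conway_factor :
    Nat.card conway = 2 ^ 22 * 3 ^ 9 * 5 ^ 4 * 7 ^ 2 * 11 * 13 * 23 := by
  rw [card_conway]; norm_num

theorem exponent_le {r e B M : ℕ} (hr : r.Prime) (hM : ¬r ∣ M)
    (h : r ^ e ∣ r ^ B * M) : e ≤ B := by
  have hco : Nat.Coprime (r ^ e) M := Nat.Coprime.pow_left _ ((hr.coprime_iff_not_dvd).2 hM)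
  exact (Nat.pow_dvd_pow_iff_le_right hr.one_lt).1 (hco.dvd_of_dvd_mul_right h)

/-- An odd prime divides no normal subgroup of order prime to `23`. -/
theorem prime_eq_two {N : Subgroup conway} [N.Normal] (hN : ¬23 ∣ Nat.card N) {r : ℕ}
    (hr : r.Prime) (hrN : r ∣ Nat.card N) : r = 2 := by
  by_contra hr2
  have : Fact r.Prime := ⟨hr⟩
  obtain ⟨σ, hσ, ho⟩ := exists_order23
  obtain ⟨R, hRN, hRcard, hR⟩ := exists_normalised_sylow (N := N) (r := r)
    (show permElt hσ ^ 23 = 1 from (orderOf_permElt hσ ho) ▸ pow_orderOf_eq_one _) hN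
  -- a fixed element is monomial, hence an involution
  have hfix : ∀ y ∈ R, permElt hσ * y = y * permElt hσ → y = 1 := fun y hy hcomm => by
    have hyH : y ∈ monomialGroup := mem_of_conj_mem hσ ho (by
      rw [mul_assoc, hcomm, inv_mul_cancel_left]; exact monoElt_mem _)
    have himg : ((N.subgroupOf monomialGroup).map toMathieu) = ⊥ := by
      have hn : ((N.subgroupOf monomialGroup).map toMathieu).Normal :=
        Subgroup.Normal.map inferInstance _ toMathieu_surjective
      refine (isSimpleGroup_mathieu.eq_bot_or_eq_top_of_normal _ hn).resolve_right fun h => hN ?_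
      have h2 := Subgroup.card_map_dvd (H := N.subgroupOf monomialGroup) toMathieu
      rw [h, Subgroup.card_top, card_mathieu] at h2
      exact ((show 23 ∣ 244823040 by norm_num).trans h2).trans
        ((card_dvd_of_injective (((monomialGroup.subtype).comp (N.subgroupOf monomialGroup).subtype
          ).codRestrict N fun z => z.2) fun a b e => Subtype.ext (Subtype.ext
            (congrArg (fun z : N => (z : conway)) e))))
    have hy1 : toMathieu ⟨y, hyH⟩ = 1 := Subgroup.mem_bot.1 (himg ▸ Subgroup.mem_map_of_mem _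
      (show (⟨y, hyH⟩ : monomialGroup) ∈ N.subgroupOf monomialGroup from hRN hy))
    obtain ⟨b, hb⟩ := exists_signs hy1
    have hsq : y * y = 1 := by
      have := monoElt_one_sq b
      rwa [hb] at this
    have ho2 : orderOf (⟨y, hy⟩ : R) ∣ Nat.gcd 2 (Nat.card R) := Nat.dvd_gcd
      (orderOf_dvd_of_pow_eq_one (Subtype.ext (by rw [SubmonoidClass.coe_pow, pow_two]; exact hsq)))
      (orderOf_dvd_natCard _)
    rw [show Nat.gcd 2 (Nat.card R) = 1 by
      rw [hRcard]
      exact Nat.Coprime.pow_right _ ((Nat.coprime_primes Nat.prime_two hr).2 (Ne.symm hr2)),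
      Nat.dvd_one, orderOf_eq_one_iff] at ho2
    exact congrArg Subtype.val ho2
  have hmod := card_modEq_one (p := 23) R
    ((orderOf_permElt hσ ho) ▸ pow_orderOf_eq_one (permElt hσ)) hR hfix
  rw [hRcard] at hmod
  set e := (Nat.card N).factorization r
  have he : 0 < e := hr.factorization_pos_of_dvd Nat.card_pos.ne' hrN
  have hdvd : r ^ e ∣ Nat.card conway :=
    (Nat.ordProj_dvd _ _).trans (Subgroup.card_subgroup_dvd_card N)
  rw [card_conway_factor] at hdvd
  obtain ⟨h3, h5, h7, h11⟩ := not_pow_modEq_one e he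
  unfold Nat.ModEq at hmod
  have hcases : r = 3 ∨ r = 5 ∨ r = 7 ∨ r = 11 ∨ r = 13 := by
    have h := (dvd_pow_self r he.ne').trans hdvd
    have hp : ∀ q k : ℕ, q.Prime → r ∣ q ^ k → r = q := fun q k hq hk =>
      (Nat.prime_dvd_prime_iff_eq hr hq).1 (hr.dvd_of_dvd_pow hk)
    simp only [hr.dvd_mul] at h
    rcases h with ((((((h | h) | h) | h) | h) | h) | h)
    · exact absurd (hp 2 22 Nat.prime_two h) hr2
    · exact Or.inl (hp 3 9 Nat.prime_three h)
    · exact Or.inr (Or.inl (hp 5 4 (by norm_num) h))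
    · exact Or.inr (Or.inr (Or.inl (hp 7 2 (by norm_num) h)))
    · exact Or.inr (Or.inr (Or.inr (Or.inl (hp 11 1 (by norm_num) (by simpa using h)))))
    · exact Or.inr (Or.inr (Or.inr (Or.inr (hp 13 1 (by norm_num) (by simpa using h)))))
    · exact absurd (by rwa [hp 23 1 (by norm_num) (by simpa using h)] at hrN) hN
  rcases hcases with rfl | rfl | rfl | rfl | rfl
  · exact h3 (exponent_le (B := 9) (M := 2 ^ 22 * 5 ^ 4 * 7 ^ 2 * 11 * 13 * 23) hr
      (by norm_num) (hdvd.trans (by norm_num))) (by simpa using hmod)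
  · exact h5 (exponent_le (B := 4) (M := 2 ^ 22 * 3 ^ 9 * 7 ^ 2 * 11 * 13 * 23) hr
      (by norm_num) (hdvd.trans (by norm_num))) (by simpa using hmod)
  · exact h7 (exponent_le (B := 2) (M := 2 ^ 22 * 3 ^ 9 * 5 ^ 4 * 11 * 13 * 23) hr
      (by norm_num) (hdvd.trans (by norm_num))) (by simpa using hmod)
  · exact (h11 (exponent_le (B := 1) (M := 2 ^ 22 * 3 ^ 9 * 5 ^ 4 * 7 ^ 2 * 13 * 23) hr
      (by norm_num) (hdvd.trans (by norm_num)))).1 (by simpa using hmod)
  · exact (h11 (exponent_le (B := 1) (M := 2 ^ 22 * 3 ^ 9 * 5 ^ 4 * 7 ^ 2 * 11 * 23) hr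
      (by norm_num) (hdvd.trans (by norm_num)))).2 (by simpa using hmod)

theorem card_monomialGroup : Nat.card monomialGroup = 244823040 * 4096 := by
  obtain ⟨c, ψ, -, hd, hψ⟩ := exists_axesFrame
  rw [← card_axes_stabiliser leechGram_spec.1 leechGram_spec.2 hd hψ]
  exact (Nat.card_congr (toConway.subtypeEquiv fun g => Iff.rfl)).symm

/-- A normal subgroup of order prime to `23` is monomial. -/
theorem le_monomialGroup {N : Subgroup conway} [N.Normal] (hN : ¬23 ∣ Nat.card N) :
    N ≤ monomialGroup := by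
  have hN2 : IsPGroup 2 N := by
    rw [IsPGroup.iff_card]
    exact ⟨_, Nat.eq_prime_pow_of_unique_prime_dvd Nat.card_pos.ne' fun {r} hr h =>
      prime_eq_two hN hr h⟩
  have hfac : ∀ m, ¬2 ∣ m → (2 ^ 22 * m).factorization 2 = 22 := fun m hm => by
    have hm0 : m ≠ 0 := fun h => hm (h ▸ dvd_zero 2)
    rw [Nat.factorization_mul (by norm_num) hm0, Nat.Prime.factorization_pow Nat.prime_two,
      Finsupp.add_apply, Finsupp.single_eq_same, Nat.factorization_eq_zero_of_not_dvd hm, add_zero]
  obtain ⟨Q⟩ : Nonempty (Sylow 2 monomialGroup) := inferInstance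
  have hQcard : Nat.card ((Q : Subgroup monomialGroup).map monomialGroup.subtype) =
      2 ^ (Nat.card conway).factorization 2 := by
    rw [← Nat.card_congr ((Q : Subgroup monomialGroup).equivMapOfInjective _
      monomialGroup.subtype_injective).toEquiv, Q.card_eq_multiplicity, card_monomialGroup,
      card_conway, show (8315553613086720000 : ℕ) = 2 ^ 22 * 1982582476875 by norm_num,
      show (244823040 * 4096 : ℕ) = 2 ^ 22 * 239085 by norm_num, hfac _ (by norm_num),
      hfac _ (by norm_num)]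
  obtain ⟨Q', hQ'⟩ := hN2.exists_le_sylow
  obtain ⟨g, hg⟩ := MulAction.exists_smul_eq conway Q'
    (Sylow.ofCard ((Q : Subgroup monomialGroup).map monomialGroup.subtype) hQcard)
  have hg' : MulAut.conj g • (Q' : Subgroup conway) =
      (Q : Subgroup monomialGroup).map monomialGroup.subtype := congrArg Sylow.toSubgroup hg
  intro n hn
  have h : MulAut.conj g • (g⁻¹ * n * g) ∈ MulAut.conj g • (Q' : Subgroup conway) :=
    smul_mem_pointwise_smul _ _ _ (hQ' (by
      have := ‹N.Normal›.conj_mem n hn g⁻¹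
      rwa [inv_inv] at this))
  rw [hg', MulAut.smul_def, MulAut.conj_apply,
    show g * (g⁻¹ * n * g) * g⁻¹ = n by group] at h
  exact map_subtype_le _ h

end FA.LeechUnique

end
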