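import Fermat.Agent.LeechUnique.Mathieu

/-!
# Five fold transitivity of `M₂₄`

For each `k < 5` two automorphisms of the code fix the first `k` points and move the point `k` to
every one of the others; the kernel checks them on the twelve rows.
-/

set_option autoImplicit false

noncomputable section

open scoped Classical

namespace FA.LeechUnique

open FA.Golay (code words rows bits)

/-- The permutations used, by levels. -/
def levelLists : List (List (List ℕ)) :=
  [
    [[5, 21, 6, 20, 16, 17, 3, 7, 14, 19, 8, 22, 15, 9, 2, 23, 1, 18, 10, 4, 12, 13, 11, 0],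
     [22, 9, 19, 7, 5, 11, 17, 14, 0, 2, 1, 6, 4, 21, 20, 13, 8, 3, 23, 18, 10, 15, 12, 16]],
    [[0, 23, 22, 2, 11, 14, 20, 13, 3, 17, 21, 12, 15, 19, 1, 8, 4, 7, 18, 5, 16, 9, 6, 10],
     [0, 11, 13, 16, 7, 15, 17, 8, 12, 9, 2, 21, 22, 14, 23, 20, 4, 10, 5, 19, 1, 18, 3, 6]],
    [[0, 1, 12, 8, 7, 21, 11, 13, 10, 9, 14, 16, 19, 5, 2, 18, 22, 15, 6, 3, 4, 23, 17, 20],
     [0, 1, 16, 14, 3, 19, 15, 13, 7, 12, 23, 8, 22, 11, 20, 9, 17, 6, 10, 5, 21, 18, 2, 4]],
    [[0, 1, 2, 10, 12, 4, 7, 18, 13, 19, 6, 9, 23, 5, 17, 22, 8, 15, 21, 14, 3, 20, 11, 16],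
     [0, 1, 2, 22, 15, 23, 13, 14, 17, 16, 6, 18, 3, 11, 8, 12, 20, 21, 10, 19, 5, 7, 4, 9]],
    [[0, 1, 2, 3, 22, 10, 6, 18, 21, 13, 12, 8, 5, 19, 4, 16, 20, 17, 23, 9, 15, 11, 14, 7],
     [0, 1, 2, 3, 23, 4, 7, 19, 9, 20, 17, 11, 21, 15, 14, 22, 10, 16, 12, 6, 8, 18, 13, 5]]]

/-- The map of a list. -/
def listMap (l : List ℕ) : Fin 24 → Fin 24 := fun i =>
  ⟨l.getD i 0 % 24, Nat.mod_lt _ (by norm_num)⟩

/-- The maps of one level. -/
def levelGens (k : ℕ) : List (Fin 24 → Fin 24) := (levelLists.getD k []).map listMap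

/-- The permuted word. -/
def moveWord (s : Fin 24 → Fin 24) (w : ℕ) : ℕ := Nat.ofBits fun i : Fin 24 => w.testBit (s i)

theorem bits_moveWord (s : Fin 24 → Fin 24) (w : ℕ) :
    bits (moveWord s w) = fun i => bits w (s i) :=
  funext fun i => Nat.testBit_ofBits_lt _ _ i.isLt

/-- The test of a map at level `k`. -/
def goodMap (k : ℕ) (s : Fin 24 → Fin 24) : Bool :=
  ((List.finRange 24).map fun q => (s q).val).Nodup &&
    ((List.finRange 24).all fun i => k ≤ i.val || (s i).val == i.val) &&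
      rows.all fun r => (words rows).contains (moveWord s r)

set_option maxRecDepth 100000 in
theorem level_check : (List.range 5).all (fun k => (levelGens k).all (goodMap k) &&
    (List.finRange 24).all fun j => j.val < k ||
      (orbitList (levelGens k) ⟨k % 24, Nat.mod_lt _ (by norm_num)⟩ 6).contains j) = true := by
  decide +kernel

theorem moved_mem {s : Fin 24 → Fin 24} : ∀ {rs : List ℕ}, (∀ r ∈ rs, moveWord s r ∈ words rows) →
    ∀ w ∈ words rs, (fun i => bits w (s i)) ∈ code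
  | [], _, w, hw => by
    obtain rfl : w = 0 := by simpa [words] using hw
    simpa [bits] using FA.Golay.zero_mem
  | r :: rs, h, w, hw => by
    have ih := moved_mem fun x hx => h x (List.mem_cons_of_mem _ hx)
    rcases List.mem_append.1 hw with hw | hw
    · exact ih w hw
    obtain ⟨x, hx, rfl⟩ := List.mem_map.1 hw
    have hr : (fun i => bits r (s i)) ∈ code := bits_moveWord s r ▸
      Finset.mem_image.2 ⟨_, List.mem_toFinset.2 (h r (List.mem_cons_self ..)), rfl⟩
    convert FA.Golay.bxor_mem hr (ih x hx) using 1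
    exact funext fun i => Nat.testBit_xor r x (s i)

theorem exists_level_move {k : ℕ} (hk : k < 5) {x : Fin 24} (hx : k ≤ x.val) :
    ∃ σ : Equiv.Perm (Fin 24), PreservesCode σ ∧ (∀ i : Fin 24, i.val < k → σ i = i) ∧
      σ ⟨k, by omega⟩ = x := by
  have h := List.all_eq_true.1 level_check k (List.mem_range.2 hk)
  rw [Bool.and_eq_true] at h
  have hcov := List.all_eq_true.1 h.2 x (List.mem_finRange x)
  simp only [Bool.or_eq_true, decide_eq_true_eq, List.contains_iff_mem] at hcov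
  obtain ⟨σ, ⟨hσ, hfix⟩, hσk⟩ := orbitList_spec
    (P := fun s => PreservesCode s ∧ ∀ i : Fin 24, i.val < k → s i = i)
    ⟨preservesCode_id, fun _ _ => rfl⟩
    (fun s t hs ht => ⟨hs.1.comp ht.1, fun i hi => (congrArg s (ht.2 i hi)).trans (hs.2 i hi)⟩)
    (fun s hs => by
      have hg := List.all_eq_true.1 h.1 s hs
      simp only [goodMap, Bool.and_eq_true, decide_eq_true_eq, List.all_eq_true] at hg
      have hinj := injective_of_nodup hg.1.1
      refine ⟨hinj, preservesCode_of_forward hinj fun c hc => ?_, fun i hi => ?_⟩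
      · obtain ⟨w, hw, rfl⟩ := Finset.mem_image.1 hc
        exact moved_mem (fun r hr => List.contains_iff_mem.1 (hg.2 r hr)) w
          (List.mem_toFinset.1 hw)
      · simpa [not_le.2 hi, Fin.val_inj] using hg.1.2 i (List.mem_finRange i))
    6 x (hcov.resolve_left (not_lt.2 hx))
  exact ⟨σ, hσ, hfix, (congrArg σ (Fin.ext (Nat.mod_eq_of_lt (by omega)).symm)).trans hσk⟩

theorem exists_to_first (a : Fin 5 → Fin 24) (ha : Function.Injective a) : ∀ k, k ≤ 5 →
    ∃ σ : Equiv.Perm (Fin 24), PreservesCode σ ∧ ∀ i : Fin 5, i.val < k → (σ (a i)).val = i.val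
  | 0, _ => ⟨1, preservesCode_id, fun i hi => absurd hi (Nat.not_lt_zero _)⟩
  | k + 1, hk => by
    obtain ⟨σ, hσ, hσa⟩ := exists_to_first a ha k (by omega)
    have hx : k ≤ (σ (a ⟨k, by omega⟩)).val := by
      by_contra hlt
      have e := hσa ⟨_, lt_trans (not_le.1 hlt) (by omega)⟩ (not_le.1 hlt)
      exact (ne_of_lt (not_le.1 hlt)) (congrArg Fin.val (ha (σ.injective (Fin.ext e))))
    obtain ⟨τ, hτ, hfix, hτk⟩ := exists_level_move (by omega) hx
    refine ⟨σ.trans τ.symm, hτ.symm.comp hσ, fun i hi => ?_⟩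
    rcases Nat.lt_succ_iff_lt_or_eq.1 hi with hi | hi
    · have e := hσa i hi
      rw [Equiv.trans_apply, show τ.symm (σ (a i)) = σ (a i) from
        τ.symm_apply_eq.2 (hfix _ (e.symm ▸ hi)).symm, e]
    · rw [show i = ⟨k, by omega⟩ from Fin.ext hi, Equiv.trans_apply, ← hτk, Equiv.symm_apply_apply]

/-- **`M₂₄` is five fold transitive.** -/
theorem exists_preservesCode_map (a b : Fin 5 → Fin 24) (ha : Function.Injective a)
    (hb : Function.Injective b) :
    ∃ σ : Equiv.Perm (Fin 24), PreservesCode σ ∧ ∀ i, σ (a i) = b i := by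
  obtain ⟨σ, hσ, hσa⟩ := exists_to_first a ha 5 le_rfl
  obtain ⟨τ, hτ, hτb⟩ := exists_to_first b hb 5 le_rfl
  refine ⟨σ.trans τ.symm, hτ.symm.comp hσ, fun i => τ.symm_apply_eq.2 (Fin.ext ?_)⟩
  rw [hσa i i.isLt, hτb i i.isLt]

end FA.LeechUnique

end
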