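import Fermat.Agent.LeechUnique.ConwayGroup

/-!
# An element of order `23` fixes one frame

The vectors it fixes form a lattice of rank two, with four classes modulo two: those of `0`, of a
frame, of a shortest vector and of a vector of norm six.
-/

set_option autoImplicit false

noncomputable section

open Matrix
open scoped Classical

namespace FA.LeechUnique

open FA.Leech (InL)

theorem inL_ones_two : InL fun _ => 2 := by
  have h := Leech.inL_double FA.Golay.ones_mem
  simpa [Leech.bitZ] using h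

/-- The odd fixed vector. -/
def oddPt (a : Fin 24) : LeechPt :=
  ⟨fun i => 1 - 4 * if i = a then 1 else 0, Summary.mem_leechLattice.2 (by
    have h := Leech.inL_add Leech.inL_glue (Leech.inL_pair 0 a (-1) (Or.inr rfl))
    convert h using 1
    funext i
    simp only [Pi.add_apply, Pi.single_apply]
    split_ifs <;> ring)⟩

theorem oddPt_val (a i : Fin 24) :
    (oddPt a : Fin 24 → ℤ) i = 1 - 4 * if i = a then 1 else 0 := rfl

theorem Congr.add {x y x' y' : LeechPt} (h : Congr x y) (h' : Congr x' y') :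
    Congr (x + x') (y + y') := by
  obtain ⟨a, ha⟩ := h
  obtain ⟨b, hb⟩ := h'
  exact ⟨a + b, by rw [smul_add, ← ha, ← hb, add_sub_add_comm]⟩

theorem Congr.zsmul {x y : LeechPt} (h : Congr x y) (n : ℤ) : Congr (n • x) (n • y) := by
  obtain ⟨a, ha⟩ := h
  exact ⟨n • a, by rw [← smul_sub, ha, smul_comm]⟩

theorem congr_two_smul (x : LeechPt) : Congr ((2 : ℤ) • x) 0 := ⟨x, sub_zero _⟩

theorem congr_two_mul (n : ℤ) (x : LeechPt) : Congr ((2 * n) • x) 0 := by
  rw [mul_smul]
  exact congr_two_smul _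

/-- The fixed classes. -/
theorem fixed_classes (a : Fin 24) (y : LeechPt)
    (hy : ∀ i j, i ≠ a → j ≠ a → (y : Fin 24 → ℤ) i = (y : Fin 24 → ℤ) j) :
    Congr y 0 ∨ Congr y (axis a) ∨ Congr y (oddPt a) ∨ Congr y (oddPt a + axis a) := by
  have heven : ∀ z : LeechPt, (∀ i j, i ≠ a → j ≠ a → (z : Fin 24 → ℤ) i = (z : Fin 24 → ℤ) j) →
      (z : Fin 24 → ℤ) 0 % 2 = 0 → Congr z 0 ∨ Congr z (axis a) := fun z hz hz0 => by
    obtain ⟨hp, hc, hs⟩ := Summary.mem_leechLattice.1 z.2
    obtain ⟨b, hb, -⟩ := exists_third a a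
    have he : ∀ i, (z : Fin 24 → ℤ) i % 2 = 0 := fun i => (hp i).trans hz0
    set A := (z : Fin 24 → ℤ) a with hA
    set B := (z : Fin 24 → ℤ) b with hB
    have hval : ∀ i, (z : Fin 24 → ℤ) i = B + (A - B) * if i = a then 1 else 0 := fun i => by
      rcases eq_or_ne i a with rfl | hi
      · simp [← hA]
      · rw [if_neg hi, hz i b hi hb, mul_zero, add_zero]
    have hsum : ∑ i, (z : Fin 24 → ℤ) i = 24 * B + (A - B) := by
      rw [Finset.sum_congr rfl fun i _ => hval i]
      simp [Finset.sum_add_distrib]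
    rw [hsum, hz0] at hs
    obtain ⟨k, hk⟩ : (8 : ℤ) ∣ A - B := by
      have := he a
      have := he b
      omega
    have hz' : z = (B / 2) • (2 : ℤ) • oddPt a + ((B / 2) + k) • axis a :=
      Subtype.ext (funext fun i => by
        have := he b
        simp only [AddSubgroup.coe_add, AddSubgroup.coe_zsmul, Pi.add_apply, Pi.smul_apply,
          smul_eq_mul, oddPt_val, axis_val, Pi.single_apply]
        rw [hval i, hk]
        split_ifs <;> omega)
    rw [hz']
    have h1 : Congr ((B / 2) • (2 : ℤ) • oddPt a) 0 := by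
      have := (congr_two_smul (oddPt a)).zsmul (B / 2)
      rwa [smul_zero] at this
    rcases Int.even_or_odd' (B / 2 + k) with ⟨n, hn | hn⟩ <;> rw [hn]
    · exact Or.inl (by simpa using h1.add (congr_two_mul n (axis a)))
    · rw [add_smul (2 * n), one_smul]
      exact Or.inr (by simpa using h1.add ((congr_two_mul n (axis a)).add (Congr.rfl' (axis a))))
  rcases Int.emod_two_eq_zero_or_one ((y : Fin 24 → ℤ) 0) with h0 | h0
  · exact (heven y hy h0).imp id Or.inl
  · have hg : ∀ i, i ≠ a → (oddPt a : Fin 24 → ℤ) i = 1 := fun i hi => by simp [oddPt_val, hi]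
    have h := heven (y - oddPt a) (fun i j hi hj => by
      simp only [AddSubgroup.coe_sub, Pi.sub_apply, hy i j hi hj, hg i hi, hg j hj]) (by
      simp only [AddSubgroup.coe_sub, Pi.sub_apply, oddPt_val]
      split_ifs <;> omega)
    rcases h with h | h
    · exact Or.inr (Or.inr (Or.inl (by simpa using h.add (Congr.rfl' (oddPt a)))))
    · exact Or.inr (Or.inr (Or.inr (by
        simpa [add_comm] using h.add (Congr.rfl' (oddPt a)))))

/-- The automorphism of a permutation. -/
def permElt {σ : Equiv.Perm (Fin 24)} (hσ : PreservesCode σ) : conway :=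
  monoElt (⟨σ, hσ⟩, ⟨_, FA.Golay.zero_mem⟩)

theorem permElt_apply {σ : Equiv.Perm (Fin 24)} (hσ : PreservesCode σ) (x : LeechPt) (i : Fin 24) :
    ((permElt hσ).1 x : Fin 24 → ℤ) i = (x : Fin 24 → ℤ) (σ i) :=
  (monoElt_val _ x i).trans (by simp [signs])

theorem permElt_pow_apply {σ : Equiv.Perm (Fin 24)} (hσ : PreservesCode σ) (x : LeechPt) :
    ∀ (k : ℕ) (i : Fin 24),
      ((permElt hσ ^ k).1 x : Fin 24 → ℤ) i = (x : Fin 24 → ℤ) ((σ ^ k) i)
  | 0, _ => rfl
  | k + 1, i => by
    rw [pow_succ', conway_mul_apply, permElt_apply, permElt_pow_apply hσ x k, pow_succ,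
      Equiv.Perm.mul_apply]

theorem orderOf_permElt {σ : Equiv.Perm (Fin 24)} (hσ : PreservesCode σ) (ho : orderOf σ = 23) :
    orderOf (permElt hσ) = 23 := by
  have h1 : (⟨permElt hσ, monoElt_mem _⟩ : monomialGroup) ^ 23 = 1 := by
    refine Subtype.ext (conway_ext fun x => Subtype.ext (funext fun i => ?_))
    show (((permElt hσ) ^ 23).1 x : Fin 24 → ℤ) i = _
    rw [permElt_pow_apply, ← ho, pow_orderOf_eq_one]
    rfl
  refine ((Nat.dvd_prime (by norm_num : Nat.Prime 23)).1 (orderOf_dvd_of_pow_eq_one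
    (congrArg Subtype.val h1))).resolve_left fun e => ?_
  rw [orderOf_eq_one_iff] at e
  have h2 := toMathieu_monoElt (⟨σ, hσ⟩, ⟨_, FA.Golay.zero_mem⟩)
  rw [show (⟨monoElt (⟨σ, hσ⟩, ⟨_, FA.Golay.zero_mem⟩), monoElt_mem _⟩ : monomialGroup) = 1 from
    Subtype.ext e, map_one] at h2
  have h3 : σ = 1 := by rw [← Equiv.symm_symm σ, ← h2]; rfl
  rw [h3, orderOf_one] at ho
  norm_num at ho

/-- **An element of order `23` fixes only the frame of the axes.** -/
theorem fixed_frame_unique {σ : Equiv.Perm (Fin 24)} (hσ : PreservesCode σ) (ho : orderOf σ = 23)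
    (x : LeechPt) (hx : (x : Fin 24 → ℤ) ⬝ᵥ (x : Fin 24 → ℤ) = 64)
    (hfix : Congr ((permElt hσ).1 x) x) : Congr x (axis 0) := by
  obtain ⟨a, ha, htr⟩ := orderOf_twentyThree ho
  have hk : ∀ k, Congr ((permElt hσ ^ k).1 x) x := fun k => by
    induction k with
    | zero => exact Congr.rfl' _
    | succ k ih => rw [pow_succ', conway_mul_apply]; exact (ih.map' _).trans hfix
  set y : LeechPt := ∑ k ∈ Finset.range 23, (permElt hσ ^ k).1 x with hydef
  have hyval : ∀ i, (y : Fin 24 → ℤ) i =
      ∑ k ∈ Finset.range 23, (x : Fin 24 → ℤ) ((σ ^ k) i) := fun i => by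
    simp only [hydef, AddSubgroup.val_finsetSum, Finset.sum_apply, permElt_pow_apply]
  have hshift : ∀ i, (y : Fin 24 → ℤ) (σ i) = (y : Fin 24 → ℤ) i := fun i => by
    rw [hyval, hyval]
    have h1 := Finset.sum_range_succ (fun k => (x : Fin 24 → ℤ) ((σ ^ k) i)) 23
    rw [Finset.sum_range_succ' _ 23,
      show (σ ^ 23) i = i by rw [← ho, pow_orderOf_eq_one]; rfl] at h1
    simp only [pow_zero, Equiv.Perm.one_apply, add_left_inj] at h1
    rw [← h1]
    exact Finset.sum_congr rfl fun k _ => by rw [pow_succ, Equiv.Perm.mul_apply]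
  have hyconst : ∀ i j, i ≠ a → j ≠ a → (y : Fin 24 → ℤ) i = (y : Fin 24 → ℤ) j :=
    fun i j hi hj => by
    obtain ⟨k, rfl⟩ := htr i j hi hj
    clear hj
    induction k with
    | zero => simp only [pow_zero, Equiv.Perm.one_apply]
    | succ k ih => rw [pow_succ', Equiv.Perm.mul_apply, hshift, ← ih]
  have hyx : Congr y x := by
    have h : Congr y ((23 : ℤ) • x) := by
      rw [hydef]
      have : ∀ m : ℕ,
          Congr (∑ k ∈ Finset.range m, (permElt hσ ^ k).1 x) ((m : ℤ) • x) := fun m => by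
        induction m with
        | zero => simpa using Congr.rfl' (0 : LeechPt)
        | succ m ih =>
          rw [Finset.sum_range_succ, Nat.cast_succ, add_smul, one_smul]
          exact ih.add (hk m)
      exact this 23
    refine h.trans ⟨(11 : ℤ) • x, ?_⟩
    rw [smul_smul]
    abel
  have hax : (axis a : Fin 24 → ℤ) ⬝ᵥ (axis a : Fin 24 → ℤ) = 64 := by simp [axis_val]
  have hodd : (oddPt a : Fin 24 → ℤ) ⬝ᵥ (oddPt a : Fin 24 → ℤ) = 32 := by
    simp only [dotProduct, oddPt_val]
    rw [Finset.sum_congr rfl fun i _ => show (1 - 4 * if i = a then (1 : ℤ) else 0) *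
      (1 - 4 * if i = a then (1 : ℤ) else 0) = 1 + 8 * if i = a then (1 : ℤ) else 0 by
        split_ifs <;> norm_num]
    simp [Finset.sum_add_distrib]
  rcases fixed_classes a y hyconst with h | h | h | h
  · exact absurd (congr_norm (hyx.symm.trans h) hx (by simp)) (by simp)
  · exact hyx.symm.trans (h.trans (congr_axis a))
  · exact absurd (congr_norm (hyx.symm.trans h) hx (by omega)) (by omega)
  · have h48 : ((oddPt a + axis a : LeechPt) : Fin 24 → ℤ) ⬝ᵥ
        ((oddPt a + axis a : LeechPt) : Fin 24 → ℤ) = 48 := by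
      simp only [AddSubgroup.coe_add, add_dotProduct, dotProduct_add, hodd, hax]
      simp [axis_val, oddPt_val]
    exact absurd (congr_norm (hyx.symm.trans h) hx (by omega)) (by omega)

end FA.LeechUnique

end
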