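import Fermat.Agent.LeechUnique.FrameLattice
import Fermat.Agent.Venkov.Design
import Fermat.Agent.Forms3.ManySquares

/-!
# Conway's theorem: the Leech lattice is unique

In an even unimodular lattice `L` of rank `24` and minimum four the vectors of norm at most eight in
one class modulo `2 L` are one up to sign, or pairwise orthogonal up to sign and of norm eight. As
`1 + N₄ / 2 + N₆ / 2 + N₈ / 48 = 2 ^ 24`, some class holds a frame.
-/

set_option autoImplicit false

noncomputable section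

open Matrix Finset
open scoped Classical

namespace FA.LeechUnique

open FA.UnimodularTheta

variable {Q : Matrix (Fin 24) (Fin 24) ℤ}

/-- The class modulo two. -/
def classTwo (v : Fin 24 → ℤ) : Fin 24 → ZMod 2 := fun i => (v i : ZMod 2)

theorem counts (hQ : IsEvenUnimodular Q) (hmin : ∀ z, z ≠ 0 → 4 ≤ normQ Q z) :
    repCount Q 2 = 196560 ∧ repCount Q 3 = 16773120 ∧ repCount Q 4 = 398034000 := by
  have h1 : repCount Q 1 = 0 := by
    refine Nat.card_eq_zero.2 (Or.inl ⟨fun ⟨v, hv⟩ => ?_⟩)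
    rcases eq_or_ne v 0 with rfl | h
    · simp [normQ] at hv
    · have := hmin v h
      omega
  have h : ∀ (m : ℕ) (σm : ℕ) (τm : ℤ), m ≠ 0 → ArithmeticFunction.sigma 11 m = σm →
      PowerSeries.coeff m FA.Tau.deltaInt = τm →
      (repCount Q m : ℂ) = 65520 / 691 * ((σm : ℂ) - (τm : ℂ)) := fun m σm τm hm hs ht => by
    rw [repCount_twentyFour hQ rfl hm, h1, FA.Tau.qExpansion_discriminant, hs, ht]
    push_cast
    ring
  have hd := FA.ManySquares.nine_deltaInt
  have g2 := h 2 2049 (-24) two_ne_zero (by decide +kernel) (hd 2 (by norm_num))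
  have g3 := h 3 177148 252 three_ne_zero (by decide +kernel) (hd 3 (by norm_num))
  have g4 := h 4 4196353 (-1472) four_ne_zero (by decide +kernel) (hd 4 (by norm_num))
  norm_num at g2 g3 g4
  exact ⟨by exact_mod_cast g2, by exact_mod_cast g3, by exact_mod_cast g4⟩

theorem inner_comm' (hQ : IsEvenUnimodular Q) (v w : Fin 24 → ℤ) :
    v ⬝ᵥ Q *ᵥ w = w ⬝ᵥ Q *ᵥ v := by
  rw [dotProduct_mulVec, ← mulVec_transpose, hQ.symm, dotProduct_comm]

theorem normQ_pm (hQ : IsEvenUnimodular Q) (v w : Fin 24 → ℤ) :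
    normQ Q (v + w) = normQ Q v + normQ Q w + 2 * (v ⬝ᵥ Q *ᵥ w) ∧
      normQ Q (v - w) = normQ Q v + normQ Q w - 2 * (v ⬝ᵥ Q *ᵥ w) := by
  have h := inner_comm' hQ w v
  simp only [normQ, mulVec_add, mulVec_sub, dotProduct_add, dotProduct_sub, add_dotProduct,
    sub_dotProduct, h]
  constructor <;> ring

theorem exists_half {v w : Fin 24 → ℤ} (h : classTwo v = classTwo w) :
    ∃ a, v - w = (2 : ℤ) • a := by
  have : ∀ i, ∃ k, v i - w i = 2 * k := fun i =>
    two_dvd_of_cast (by push_cast; rw [sub_eq_zero]; exact congrFun h i)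
  choose a ha using this
  exact ⟨a, funext fun i => by simpa using ha i⟩

/-- Two short vectors in one class. -/
theorem same_class (hQ : IsEvenUnimodular Q) (hmin : ∀ z, z ≠ 0 → 4 ≤ normQ Q z)
    {v w : Fin 24 → ℤ} (h : classTwo v = classTwo w) (hv : normQ Q v ≤ 8) (hw : normQ Q w ≤ 8) :
    v = w ∨ v = -w ∨ (normQ Q v = 8 ∧ normQ Q w = 8 ∧ v ⬝ᵥ Q *ᵥ w = 0) := by
  rcases eq_or_ne v w with he | he
  · exact Or.inl he
  rcases eq_or_ne v (-w) with he' | he'
  · exact Or.inr (Or.inl he')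
  obtain ⟨a, ha⟩ := exists_half h
  have h2 : ∀ b, normQ Q ((2 : ℤ) • b) = 4 * normQ Q b := fun b => by
    simp only [normQ, mulVec_smul, smul_dotProduct, dotProduct_smul, smul_eq_mul]; ring
  have ha' : v + w = (2 : ℤ) • (a + w) := by
    rw [smul_add, ← ha, two_smul]; abel
  have m1 := hmin a fun e => he (sub_eq_zero.1 (by rw [ha, e, smul_zero]))
  have m2 := hmin (a + w) fun e => he' (eq_neg_of_add_eq_zero_left (by rw [ha', e, smul_zero]))
  obtain ⟨e1, e2⟩ := normQ_pm hQ v w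
  rw [ha', h2] at e1
  rw [ha, h2] at e2
  exact Or.inr (Or.inr (by omega))

/-- **Some class holds forty-eight vectors of norm eight.** -/
theorem exists_big_class (hQ : IsEvenUnimodular Q) (hmin : ∀ z, z ≠ 0 → 4 ≤ normQ Q z) :
    ∃ c, 48 ≤ ((Venkov.shell hQ 4).filter fun v => classTwo v = c).card := by
  by_contra! hno
  obtain ⟨c2, c3, c4⟩ := counts hQ hmin
  let I : ℕ → Finset (Fin 24 → ZMod 2) := fun m => (Venkov.shell hQ m).image classTwo
  have hval : ∀ {m : ℕ} {v}, v ∈ Venkov.shell hQ m → normQ Q v = 2 * (m : ℤ) := fun hv =>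
    (Venkov.mem_shell hQ).1 hv
  have hdisj : ∀ m m' : ℕ, m ≤ 4 → m' ≤ 4 → m ≠ m' → Disjoint (I m) (I m') :=
    fun m m' hm hm' hne => disjoint_left.2 fun c hc hc' => by
    obtain ⟨v, hv, rfl⟩ := mem_image.1 hc
    obtain ⟨w, hw, he⟩ := mem_image.1 hc'
    have hv' := hval hv
    have hw' := hval hw
    rcases same_class hQ hmin he.symm (by omega) (by omega) with rfl | rfl | ⟨h1, h2, -⟩
    · omega
    · simp only [normQ, mulVec_neg, dotProduct_neg, neg_dotProduct, neg_neg] at hv' hw'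
      omega
    · omega
  have hhalf : ∀ m, m ≤ 3 → (Venkov.shell hQ m).card ≤ 2 * (I m).card := fun m hm => by
    refine card_le_mul_card_image _ 2 fun c hc => ?_
    obtain ⟨v, hv, rfl⟩ := mem_image.1 hc
    refine (card_le_card (t := {v, -v}) fun w hw => ?_).trans card_le_two
    obtain ⟨hw, he⟩ := mem_filter.1 hw
    have hv' := hval hv
    have hw' := hval hw
    rcases same_class hQ hmin he (by omega) (by omega) with rfl | rfl | ⟨h1, -, -⟩
    · simp
    · simp
    · omega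
  have h4 : (Venkov.shell hQ 4).card ≤ 47 * (I 4).card :=
    card_le_mul_card_image _ 47 fun c _ => Nat.lt_succ_iff.1 (hno c)
  have hzero : (Venkov.shell hQ 0).Nonempty := ⟨0, (Venkov.mem_shell hQ).2 (by simp [normQ])⟩
  have hall := card_le_univ (I 0 ∪ (I 2 ∪ (I 3 ∪ I 4)))
  simp only [Fintype.card_fun, ZMod.card, Fintype.card_fin] at hall
  rw [card_union_of_disjoint, card_union_of_disjoint, card_union_of_disjoint] at hall
  · have h0 : 0 < (I 0).card := (hzero.image _).card_pos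
    have h2 := hhalf 2 (by norm_num)
    have h3 := hhalf 3 le_rfl
    rw [Venkov.card_shell] at h2 h3 h4
    omega
  all_goals (try simp only [disjoint_union_right])
  all_goals repeat' constructor
  all_goals exact hdisj _ _ (by norm_num) (by norm_num) (by norm_num)

/-- **A class holds at most forty-eight vectors of norm eight, and forty-eight form a frame.** -/
theorem frame_of_class (hQ : IsEvenUnimodular Q) (hmin : ∀ z, z ≠ 0 → 4 ≤ normQ Q z)
    (c : Fin 24 → ZMod 2) :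
    ((Venkov.shell hQ 4).filter fun v => classTwo v = c).card ≤ 48 ∧
      (48 ≤ ((Venkov.shell hQ 4).filter fun v => classTwo v = c).card →
        ∃ e : Fin 24 → Fin 24 → ℤ, (∀ i, classTwo (e i) = c) ∧
          ∀ i j, e i ⬝ᵥ Q *ᵥ e j = if i = j then 8 else 0) := by
  set F := (Venkov.shell hQ 4).filter fun v => classTwo v = c
  have hF : ∀ v ∈ F, normQ Q v = 8 ∧ classTwo v = c := fun v hv => by
    obtain ⟨h1, h2⟩ := mem_filter.1 hv
    exact ⟨(Venkov.mem_shell hQ).1 h1, h2⟩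
  obtain ⟨T, hT, hmax⟩ := exists_max_image (F.powerset.filter fun T : Finset (Fin 24 → ℤ) =>
      (T : Set (Fin 24 → ℤ)).Pairwise fun u w => u ⬝ᵥ Q *ᵥ w = 0) card ⟨∅, by simp⟩
  obtain ⟨hTF, horth⟩ := mem_filter.1 hT
  rw [mem_powerset] at hTF
  have hcover : F ⊆ T ∪ T.image (fun v => -v) := fun u hu => by
    by_contra hnot
    simp only [mem_union, mem_image, not_or, not_exists, not_and] at hnot
    have hperp : ∀ w ∈ T, u ⬝ᵥ Q *ᵥ w = 0 := fun w hw => by
      rcases same_class hQ hmin ((hF u hu).2.trans (hF w (hTF hw)).2.symm)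
        (hF u hu).1.le (hF w (hTF hw)).1.le with rfl | rfl | ⟨-, -, h⟩
      · exact absurd hw hnot.1
      · exact absurd rfl (hnot.2 w hw)
      · exact h
    have hins : insert u T ∈ F.powerset.filter fun T : Finset (Fin 24 → ℤ) =>
        (T : Set (Fin 24 → ℤ)).Pairwise fun u w => u ⬝ᵥ Q *ᵥ w = 0 := by
      refine mem_filter.2 ⟨mem_powerset.2 (insert_subset hu hTF), ?_⟩
      rw [coe_insert, Set.pairwise_insert]
      exact ⟨horth, fun b hb _ => ⟨hperp b hb, (inner_comm' hQ b u).trans (hperp b hb)⟩⟩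
    have := hmax _ hins
    rw [card_insert_of_notMem hnot.1] at this
    omega
  have hhigh : T.card ≤ 24 := by
    have hli : LinearIndependent ℤ fun v : T => (v : Fin 24 → ℤ) := by
      refine Fintype.linearIndependent_iff.2 fun g hg w => ?_
      have h := congrArg (fun z => (w : Fin 24 → ℤ) ⬝ᵥ Q *ᵥ z) hg
      simp only [mulVec_sum, mulVec_smul, dotProduct_sum, dotProduct_smul, mulVec_zero,
        dotProduct_zero, smul_eq_mul] at h
      rw [Fintype.sum_eq_single w fun v hv => by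
        rw [horth w.2 v.2 fun e => hv (Subtype.ext e.symm), mul_zero]] at h
      rcases mul_eq_zero.1 h with h | h
      · exact h
      · rw [show (w : Fin 24 → ℤ) ⬝ᵥ Q *ᵥ w = 8 from (hF _ (hTF w.2)).1] at h
        norm_num at h
    simpa [Module.finrank_fin_fun] using hli.fintype_card_le_finrank
  have hle := (card_le_card hcover).trans ((card_union_le _ _).trans
    (Nat.add_le_add_left card_image_le _))
  refine ⟨by omega, fun hc => ?_⟩
  let e : Fin 24 ≃ T :=
    (Fintype.equivFinOfCardEq (by rw [Fintype.card_coe]; omega)).symm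
  refine ⟨fun i => e i, fun i => (hF _ (hTF (e i).2)).2, fun i j => ?_⟩
  split_ifs with hij
  · subst hij; exact (hF _ (hTF (e i).2)).1
  · exact horth (e i).2 (e j).2 fun h => hij (e.injective (Subtype.ext h))

/-- **A frame.** -/
theorem exists_frame (hQ : IsEvenUnimodular Q) (hmin : ∀ z, z ≠ 0 → 4 ≤ normQ Q z) :
    ∃ e : Fin 24 → Fin 24 → ℤ, (∀ i j, classTwo (e i) = classTwo (e j)) ∧
      ∀ i j, e i ⬝ᵥ Q *ᵥ e j = if i = j then 8 else 0 := by
  obtain ⟨c, hc⟩ := exists_big_class hQ hmin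
  obtain ⟨e, he, hortho⟩ := (frame_of_class hQ hmin c).2 hc
  exact ⟨e, fun i j => (he i).trans (he j).symm, hortho⟩

/-- **The coordinates of a frame** map the lattice onto Conway's, the frame to the axes. -/
theorem leech_of_frame (hQ : IsEvenUnimodular Q) (hmin : ∀ z, z ≠ 0 → 4 ≤ normQ Q z)
    {e : Fin 24 → Fin 24 → ℤ} (hclass : ∀ i j, classTwo (e i) = classTwo (e j))
    (he : ∀ i j, e i ⬝ᵥ Q *ᵥ e j = if i = j then 8 else 0) :
    ∃ φ : (Fin 24 → ℤ) →+ (Fin 24 → ℤ), Function.Injective φ ∧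
      (∀ x, Leech.InL x ↔ ∃ v, φ v = x) ∧ (∀ v w, φ v ⬝ᵥ φ w = 8 * (v ⬝ᵥ Q *ᵥ w)) ∧
      ∃ j, φ (e j) = Pi.single 0 8 ∨ φ (e j) = -Pi.single 0 8 := by
  set E : Matrix (Fin 24) (Fin 24) ℤ := Matrix.of fun p i => e i p
  set G := Eᵀ * Q with hG
  have hGv : ∀ v i, (G *ᵥ v) i = e i ⬝ᵥ Q *ᵥ v := fun v i => by
    rw [hG, ← mulVec_mulVec]; rfl
  have hGE : G * E = (8 : ℤ) • 1 := Matrix.ext fun i j => by
    rw [Matrix.smul_apply, Matrix.one_apply, smul_eq_mul, mul_ite, mul_one, mul_zero, ← he i j,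
      ← hGv (e j) i]
    rfl
  have hEdet : E.det ≠ 0 := fun h0 => by
    have := congrArg Matrix.det hGE
    rw [det_mul, h0, mul_zero, det_smul, det_one] at this
    norm_num at this
  have hEG : E * G = (8 : ℤ) • 1 := by
    have h : (E * G - (8 : ℤ) • 1) * E = 0 := by
      rw [Matrix.sub_mul, Matrix.mul_assoc, hGE, mul_smul_comm, smul_mul_assoc, Matrix.mul_one,
        Matrix.one_mul, sub_self]
    have h2 := congrArg (· * E.adjugate) h
    simp only [Matrix.mul_assoc, mul_adjugate, mul_smul_comm, Matrix.mul_one, Matrix.zero_mul,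
      smul_eq_zero, hEdet, false_or] at h2
    exact sub_eq_zero.1 h2
  have hGt : Gᵀ = Q * E := by rw [hG, transpose_mul, transpose_transpose, hQ.symm]
  have hdot : ∀ v w, (G *ᵥ v) ⬝ᵥ (G *ᵥ w) = 8 * (v ⬝ᵥ Q *ᵥ w) := fun v w => by
    rw [dotProduct_mulVec, ← mulVec_transpose, hGt, mulVec_mulVec, Matrix.mul_assoc, hEG,
      mul_smul_comm, Matrix.mul_one, smul_mulVec, smul_dotProduct, smul_eq_mul, dotProduct_comm,
      inner_comm' hQ]
  have hGinj : ∀ v, G *ᵥ v = 0 → v = 0 := fun v hv => by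
    have h := congrArg (E *ᵥ ·) hv
    simp only [mulVec_mulVec, hEG, smul_mulVec, one_mulVec, mulVec_zero, smul_eq_zero] at h
    exact h.resolve_left (by norm_num)
  let Λ := (G.mulVecLin.toAddMonoidHom).range
  have hΛ : IsFrameLattice Λ := by
    refine ⟨?_, ?_, ?_, ?_, fun y hy => ?_⟩
    · rintro _ ⟨v, rfl⟩ i j
      obtain ⟨a, ha⟩ := exists_half (hclass i j)
      show (G *ᵥ v) i % 2 = (G *ᵥ v) j % 2
      have : (G *ᵥ v) i - (G *ᵥ v) j = 2 * (a ⬝ᵥ Q *ᵥ v) := by
        rw [hGv, hGv, ← sub_dotProduct, ha, smul_dotProduct, smul_eq_mul]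
      omega
    · rintro _ ⟨v, rfl⟩ _ ⟨w, rfl⟩
      exact ⟨_, hdot v w⟩
    · rintro _ ⟨v, rfl⟩
      obtain ⟨k, hk⟩ := normQ_even hQ v
      exact ⟨k, (hdot v v).trans (by rw [show v ⬝ᵥ Q *ᵥ v = k + k from hk]; ring)⟩
    · rintro _ ⟨v, rfl⟩ hne
      have hv : 4 ≤ v ⬝ᵥ Q *ᵥ v := hmin v fun e0 => hne (by rw [e0, map_zero])
      show 32 ≤ (G *ᵥ v) ⬝ᵥ (G *ᵥ v)
      rw [hdot]
      linarith
    · have hcol : ∀ k, ∃ a, (Gᵀ *ᵥ y) k = 8 * a := fun k => by
        obtain ⟨a, ha⟩ := hy _ ⟨Pi.single k 1, rfl⟩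
        refine ⟨a, ha ▸ ?_⟩
        show (Gᵀ *ᵥ y) k = (G *ᵥ Pi.single k 1) ⬝ᵥ y
        rw [mulVec_single_one]
        rfl
      choose w hw using hcol
      refine ⟨Q.adjugate *ᵥ w, ?_⟩
      show G *ᵥ _ = y
      have h1 : E *ᵥ y = (8 : ℤ) • (Q.adjugate *ᵥ w) := by
        have : Q.adjugate *ᵥ (Gᵀ *ᵥ y) = E *ᵥ y := by
          rw [hGt, mulVec_mulVec, ← Matrix.mul_assoc, adjugate_mul, hQ.det_eq, one_smul,
            Matrix.one_mul]
        rw [← this, ← mulVec_smul]
        exact congrArg _ (funext hw)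
      have h2 := congrArg (G *ᵥ ·) h1
      simp only [mulVec_mulVec, hGE, smul_mulVec, one_mulVec, mulVec_smul] at h2
      rw [mulVec_mulVec]
      exact (smul_right_injective _ (by norm_num : (8 : ℤ) ≠ 0) h2).symm
  obtain ⟨σ, s, hs, hmem⟩ := hΛ.equiv_leech
  refine ⟨(monomial σ s).comp G.mulVecLin.toAddMonoidHom, ?_, fun x => ⟨fun hx => ?_, ?_⟩,
    fun v w => (monomial_dot hs _ _).trans (hdot v w), σ 0, ?_⟩
  · intro v w h
    have h' : G *ᵥ v = G *ᵥ w := monomial_injective hs h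
    exact sub_eq_zero.1 (hGinj _ (by rw [mulVec_sub, h', sub_self]))
  · obtain ⟨u, rfl⟩ := monomial_surjective (σ := σ) hs x
    obtain ⟨v, rfl⟩ := (hmem u).2 hx
    exact ⟨v, rfl⟩
  · rintro ⟨v, rfl⟩
    exact (hmem _).1 ⟨v, rfl⟩
  · have h : monomial σ s (G *ᵥ e (σ 0)) = Pi.single 0 (s 0 * 8) := funext fun i => by
      rw [monomial_apply, hGv, he]
      rcases eq_or_ne i 0 with rfl | hi <;> simp [*]
    rcases hs 0 with h0 | h0 <;> rw [h0] at h <;> [left; right] <;> refine h.trans ?_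
    · rw [one_mul]
    · rw [neg_one_mul, Pi.single_neg]

/-- **Conway**: the lattice is Conway's lattice. -/
theorem leech_of_minimum (hQ : IsEvenUnimodular Q) (hmin : ∀ z, z ≠ 0 → 4 ≤ normQ Q z) :
    ∃ φ : (Fin 24 → ℤ) →+ (Fin 24 → ℤ), Function.Injective φ ∧
      (∀ x, Leech.InL x ↔ ∃ v, φ v = x) ∧ ∀ v w, φ v ⬝ᵥ φ w = 8 * (v ⬝ᵥ Q *ᵥ w) := by
  obtain ⟨e, hclass, he⟩ := exists_frame hQ hmin
  obtain ⟨φ, h1, h2, h3, -⟩ := leech_of_frame hQ hmin hclass he
  exact ⟨φ, h1, h2, h3⟩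

end FA.LeechUnique

end
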