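import Fermat.Agent.LeechUnique.Frame
import Fermat.Agent.Ckmrv.LeechBasis

/-!
# The frames of the Leech lattice

The count `1 + N₄ / 2 + N₆ / 2 + N₈ / 48 = 2 ^ 24` leaves no room: every class modulo two has a
short vector, and the `8292375` classes of norm eight hold forty-eight vectors each.
-/

set_option autoImplicit false

noncomputable section

open Matrix Finset
open scoped Classical

namespace FA.LeechUnique

open FA.UnimodularTheta

variable {Q : Matrix (Fin 24) (Fin 24) ℤ}

/-- The classes with a vector of norm eight. -/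
def frameClasses (hQ : IsEvenUnimodular Q) : Finset (Fin 24 → ZMod 2) :=
  (Venkov.shell hQ 4).image classTwo

theorem class_census (hQ : IsEvenUnimodular Q) (hmin : ∀ z, z ≠ 0 → 4 ≤ normQ Q z) :
    (frameClasses hQ).card = 8292375 ∧
      (∀ c ∈ frameClasses hQ,
        ((Venkov.shell hQ 4).filter fun v => classTwo v = c).card = 48) ∧
      ∀ c, ∃ v, classTwo v = c ∧ normQ Q v ≤ 8 := by
  obtain ⟨c2, c3, c4⟩ := counts hQ hmin
  let I : ℕ → Finset (Fin 24 → ZMod 2) := fun m => (Venkov.shell hQ m).image classTwo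
  have hval : ∀ {m : ℕ} {v}, v ∈ Venkov.shell hQ m → normQ Q v = 2 * (m : ℤ) := fun hv =>
    (Venkov.mem_shell hQ).1 hv
  have hdisj : ∀ m m' : ℕ, m ≤ 4 → m' ≤ 4 → m ≠ m' → Disjoint (I m) (I m') :=
    fun m m' hm hm' hne => disjoint_left.2 fun c hc hc' => by
    obtain ⟨v, hv, rfl⟩ := mem_image.1 hc
    obtain ⟨w, hw, he⟩ := mem_image.1 hc'
    have hv' := hval hv
    have hw' := hval hw
    rcases same_class hQ hmin he.symm (by omega) (by omega) with rfl | rfl | ⟨h1, h2, -⟩
    · omega
    · simp only [normQ, mulVec_neg, dotProduct_neg, neg_dotProduct, neg_neg] at hv' hw'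
      omega
    · omega
  have hhalf : ∀ m, m ≤ 3 → (Venkov.shell hQ m).card ≤ 2 * (I m).card := fun m hm => by
    refine card_le_mul_card_image _ 2 fun c hc => ?_
    obtain ⟨v, hv, rfl⟩ := mem_image.1 hc
    refine (card_le_card (t := {v, -v}) fun w hw => ?_).trans card_le_two
    obtain ⟨hw, he⟩ := mem_filter.1 hw
    have hv' := hval hv
    have hw' := hval hw
    rcases same_class hQ hmin he (by omega) (by omega) with rfl | rfl | ⟨h1, -, -⟩
    · simp
    · simp
    · omega
  have hfib : ∀ c, ((Venkov.shell hQ 4).filter fun v => classTwo v = c).card ≤ 48 := fun c =>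
    (frame_of_class hQ hmin c).1
  have h4 : (Venkov.shell hQ 4).card ≤ 48 * (I 4).card :=
    card_le_mul_card_image _ 48 fun c _ => hfib c
  have hzero : (Venkov.shell hQ 0).Nonempty := ⟨0, (Venkov.mem_shell hQ).2 (by simp [normQ])⟩
  have h0 : 0 < (I 0).card := (hzero.image _).card_pos
  have h2 := hhalf 2 (by norm_num)
  have h3 := hhalf 3 le_rfl
  set U := I 0 ∪ (I 2 ∪ (I 3 ∪ I 4)) with hU
  have hUcard : U.card = (I 0).card + ((I 2).card + ((I 3).card + (I 4).card)) := by
    rw [hU, card_union_of_disjoint, card_union_of_disjoint, card_union_of_disjoint]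
    all_goals (try simp only [disjoint_union_right])
    all_goals repeat' constructor
    all_goals exact hdisj _ _ (by norm_num) (by norm_num) (by norm_num)
  have hall := card_le_univ U
  simp only [Fintype.card_fun, ZMod.card, Fintype.card_fin] at hall
  rw [Venkov.card_shell] at h2 h3 h4
  have hI4 : (I 4).card = 8292375 := by omega
  refine ⟨hI4, fun c hc => ?_, fun c => ?_⟩
  · refine le_antisymm (hfib c) ?_
    have hsum := card_eq_sum_card_image classTwo (Venkov.shell hQ 4)
    rw [Venkov.card_shell, c4] at hsum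
    by_contra hlt
    have := sum_lt_sum (fun d (_ : d ∈ I 4) => hfib d) ⟨c, hc, not_le.1 hlt⟩
    rw [sum_const, hI4] at this
    simp only [I] at this
    norm_num at this
    omega
  · have hmem : c ∈ U := by
      rw [eq_univ_of_card U (by simp only [Fintype.card_fun, ZMod.card, Fintype.card_fin]; omega)]
      exact mem_univ c
    simp only [U, mem_union, I, mem_image] at hmem
    rcases hmem with ⟨v, hv, rfl⟩ | ⟨v, hv, rfl⟩ | ⟨v, hv, rfl⟩ | ⟨v, hv, rfl⟩ <;>
      exact ⟨v, rfl, by have := hval hv; omega⟩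

/-- The Gram matrix of a basis of the Leech lattice. -/
def leechGram : Matrix (Fin 24) (Fin 24) ℤ := fun i j =>
  (∑ k, Ckmrv.leechBasis k i * Ckmrv.leechBasis k j) / 8

theorem leechGram_transpose_mul :
    Ckmrv.leechBasisᵀ * Ckmrv.leechBasis = (8 : ℤ) • leechGram := Matrix.ext fun i j => by
  simp only [Matrix.mul_apply, Matrix.transpose_apply, Matrix.smul_apply, smul_eq_mul, leechGram]
  exact (Int.mul_ediv_cancel' (Leech.eight_dvd_inner
    (Summary.mem_leechLattice.1 (Ckmrv.leechBasis_col i))
    (Summary.mem_leechLattice.1 (Ckmrv.leechBasis_col j)))).symm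

theorem eight_normQ_leechGram (v : Fin 24 → ℤ) :
    8 * normQ leechGram v = ∑ i, (Ckmrv.leechBasis *ᵥ v) i ^ 2 := by
  have h : (8 : ℤ) * normQ leechGram v = v ⬝ᵥ ((8 : ℤ) • leechGram) *ᵥ v := by
    rw [smul_mulVec, dotProduct_smul, smul_eq_mul]; rfl
  rw [h, ← leechGram_transpose_mul, ← mulVec_mulVec, dotProduct_mulVec, vecMul_transpose]
  simp [dotProduct, sq]

theorem leechGram_spec : IsEvenUnimodular leechGram ∧
    ∀ z, z ≠ 0 → 4 ≤ normQ leechGram z := by
  have hmin : ∀ z, z ≠ 0 → 4 ≤ normQ leechGram z := fun z hz => by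
    have hne : Ckmrv.leechBasis *ᵥ z ≠ 0 := fun h => hz
      (Matrix.eq_zero_of_mulVec_eq_zero (by rw [Ckmrv.leechBasis_det]; norm_num) h)
    have := Summary.leech_minimal.1 _ (Ckmrv.leechBasis_mulVec z) hne
    rw [← eight_normQ_leechGram] at this
    omega
  refine ⟨⟨Matrix.ext fun i j => ?_, fun i => ?_, fun v hv => ?_, ?_⟩, hmin⟩
  · simp only [Matrix.transpose_apply, leechGram, mul_comm]
  · obtain ⟨k, hk⟩ := Leech.sixteen_dvd_norm
      (Summary.mem_leechLattice.1 (Ckmrv.leechBasis_col i))
    exact ⟨k, by simp only [leechGram, ← sq, hk]; omega⟩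
  · linarith [hmin v hv]
  · have h := congrArg Matrix.det leechGram_transpose_mul
    rw [det_mul, det_transpose, det_smul, Fintype.card_fin, Ckmrv.leechBasis_det, ← pow_add] at h
    exact mul_left_cancel₀ (pow_ne_zero 24 (by norm_num : (8 : ℤ) ≠ 0))
      (h.symm.trans (mul_one _).symm)

end FA.LeechUnique

end
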