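import Fermat.Agent.LeechUnique.FrameCount

/-!
# The frames in the coordinates of the Leech lattice
-/

set_option autoImplicit false

noncomputable section

open Matrix
open scoped Classical

namespace FA.LeechUnique

open FA.UnimodularTheta
open FA.Summary (leechLattice)

/-- The vectors of norm eight congruent to `x` modulo twice the lattice. -/
def frameSet (x : Fin 24 → ℤ) : Set (Fin 24 → ℤ) :=
  {y | y ∈ leechLattice ∧ ∑ i, y i ^ 2 = 64 ∧ ∃ w ∈ leechLattice, x - y = (2 : ℤ) • w}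

theorem leech_frame_census :
    (∀ x ∈ leechLattice, ∃ y ∈ leechLattice,
      (∃ w ∈ leechLattice, x - y = (2 : ℤ) • w) ∧ ∑ i, y i ^ 2 ≤ 64) ∧
    (∀ x ∈ leechLattice, ∑ i, x i ^ 2 = 64 → Nat.card (frameSet x) = 48) ∧
    Nat.card {S : Set (Fin 24 → ℤ) //
      ∃ x ∈ leechLattice, ∑ i, x i ^ 2 = 64 ∧ frameSet x = S} = 8292375 := by
  obtain ⟨hQ, hmin⟩ := leechGram_spec
  obtain ⟨φ, hinj, hrange, hdot⟩ := leech_of_minimum hQ hmin
  obtain ⟨hnum, hfib, hall⟩ := class_census hQ hmin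
  have hmemL : ∀ v, φ v ∈ leechLattice := fun v =>
    Summary.mem_leechLattice.2 ((hrange _).2 ⟨v, rfl⟩)
  have hsq : ∀ v, ∑ i, φ v i ^ 2 = 8 * normQ leechGram v := fun v => by
    rw [show normQ leechGram v = v ⬝ᵥ leechGram *ᵥ v from rfl, ← hdot]
    simp [dotProduct, sq]
  have hcls : ∀ v w, (∃ z ∈ leechLattice, φ v - φ w = (2 : ℤ) • z) ↔
      classTwo v = classTwo w := fun v w => by
    constructor
    · rintro ⟨z, hz, h⟩
      obtain ⟨a, rfl⟩ := (hrange z).1 (Summary.mem_leechLattice.1 hz)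
      rw [← map_sub, ← map_zsmul] at h
      refine funext fun i => sub_eq_zero.1 ?_
      have h2 := congrArg (fun z : ℤ => (z : ZMod 2)) (congrFun (hinj h) i)
      simp only [Pi.sub_apply, Pi.smul_apply, smul_eq_mul, Int.cast_sub, Int.cast_mul] at h2
      rwa [show ((2 : ℤ) : ZMod 2) = 0 from rfl, zero_mul] at h2
    · intro h
      obtain ⟨a, ha⟩ := exists_half h
      exact ⟨φ a, hmemL a, by rw [← map_sub, ha, map_zsmul]⟩
  have hset : ∀ v, frameSet (φ v) =
      φ '' ↑((Venkov.shell hQ 4).filter fun w => classTwo w = classTwo v) := fun v => by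
    ext y
    simp only [Finset.coe_filter, Set.mem_image, Set.mem_ofPred_eq, frameSet, Venkov.mem_shell]
    constructor
    · rintro ⟨hy, hy64, hc⟩
      obtain ⟨w, rfl⟩ := (hrange y).1 (Summary.mem_leechLattice.1 hy)
      rw [hsq] at hy64
      exact ⟨w, ⟨by push_cast; omega, ((hcls v w).1 hc).symm⟩, rfl⟩
    · rintro ⟨w, ⟨hw, hc⟩, rfl⟩
      exact ⟨hmemL w, by rw [hsq, hw]; norm_num, (hcls v w).2 hc.symm⟩
  have hshell : ∀ v, ∑ i, φ v i ^ 2 = 64 → v ∈ Venkov.shell hQ 4 := fun v h => by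
    rw [hsq] at h
    rw [Venkov.mem_shell]
    push_cast
    omega
  refine ⟨fun x hx => ?_, fun x hx h => ?_, ?_⟩
  · obtain ⟨v, rfl⟩ := (hrange x).1 (Summary.mem_leechLattice.1 hx)
    obtain ⟨w, hw, hw8⟩ := hall (classTwo v)
    exact ⟨φ w, hmemL w, (hcls v w).2 hw.symm, by rw [hsq]; omega⟩
  · obtain ⟨v, rfl⟩ := (hrange x).1 (Summary.mem_leechLattice.1 hx)
    rw [hset, Nat.card_image_of_injective hinj, Nat.card_eq_fintype_card]
    simpa using hfib _ (Finset.mem_image_of_mem classTwo (hshell v h))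
  · rw [← hnum, ← Nat.card_eq_finsetCard]
    have hex : ∀ c : frameClasses hQ, ∃ v ∈ Venkov.shell hQ 4, classTwo v = c := fun c =>
      Finset.mem_image.1 c.2
    choose v hv hvc using hex
    let Φ : frameClasses hQ → {S : Set (Fin 24 → ℤ) //
        ∃ x ∈ leechLattice, ∑ i, x i ^ 2 = 64 ∧ frameSet x = S} := fun c =>
      ⟨frameSet (φ (v c)), φ (v c), hmemL _,
        by rw [hsq, (Venkov.mem_shell hQ).1 (hv c)]; norm_num, rfl⟩
    refine (Nat.card_congr (Equiv.ofBijective Φ ⟨fun c d h => ?_, ?_⟩)).symm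
    · have h' := congrArg (fun S => φ (v c) ∈ S.1) h
      simp only [Φ, eq_iff_iff, hset, hinj.mem_set_image, Finset.mem_coe, Finset.mem_filter, hv c,
        true_and, true_iff] at h'
      exact Subtype.ext (by rw [← hvc c, ← hvc d, h'])
    · rintro ⟨S, x, hx, h, rfl⟩
      obtain ⟨u, rfl⟩ := (hrange x).1 (Summary.mem_leechLattice.1 hx)
      refine ⟨⟨classTwo u, Finset.mem_image_of_mem _ (hshell u h)⟩, Subtype.ext ?_⟩
      show frameSet (φ (v _)) = frameSet (φ u)
      rw [hset, hset, hvc]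

end FA.LeechUnique

end
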