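import Fermat.Agent.LeechUnique.Biplane
import Fermat.Agent.Gleason.Golay

/-!
# Uniqueness of the Golay code

A word of weight twelve splits the coordinates into two halves `L`, `R`; every pair in `L` is
completed by six points of `R`, and the completions of the pairs through one point form the biplane
of order three, so all codes have one normal form.
-/

set_option autoImplicit false

noncomputable section

open Finset
open scoped Classical

namespace FA.LeechUnique

open FA.Gleason

variable {C : Submodule (ZMod 2) (Fin 24 → ZMod 2)}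

theorem zmod2_ne_zero : ∀ a : ZMod 2, a ≠ 0 ↔ a = 1 := by decide

theorem zmod2_sub : ∀ a b : ZMod 2, a - b = a + b := by decide

theorem support_eq (v : Fin 24 → ZMod 2) :
    (univ.filter fun i => v i = 1) = univ.filter fun i => v i ≠ 0 :=
  filter_congr fun _ _ => (zmod2_ne_zero _).symm

theorem weight_eq (v : Fin 24 → ZMod 2) : hammingNorm v = (univ.filter fun i => v i = 1).card := by
  rw [support_eq]; rfl

/-- A type II code of length `24` without words of weight four. -/
structure IsGolayLike (C : Submodule (ZMod 2) (Fin 24 → ZMod 2)) : Prop extends IsTypeII C where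
  eight_le : ∀ c ∈ C, c ≠ 0 → 8 ≤ hammingNorm c

theorem IsGolayLike.ones_mem (h : IsGolayLike C) : (fun _ => 1) ∈ C := by
  refine (h.selfDual _).2 fun c hc => ?_
  have e : ∀ a : ZMod 2, 1 * a = if a = 1 then 1 else 0 := by decide
  simp only [e, sum_boole, ← weight_eq]
  rw [CharP.cast_eq_zero_iff (ZMod 2) 2]
  exact (show 2 ∣ 4 by norm_num).trans (h.four_dvd c hc)

theorem IsGolayLike.weight_mem (h : IsGolayLike C) {c : Fin 24 → ZMod 2} (hc : c ∈ C) :
    hammingNorm c = 0 ∨ hammingNorm c = 8 ∨ hammingNorm c = 12 ∨ hammingNorm c = 16 ∨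
      hammingNorm c = 24 := by
  have hone : hammingNorm (c + fun _ => 1) + hammingNorm c = 24 := by
    have e : ∀ a : ZMod 2, a + 1 = 1 ↔ ¬ a = 1 := by decide
    rw [weight_eq, weight_eq, add_comm]
    simp only [Pi.add_apply, e]
    rw [card_filter_add_card_filter_not, card_univ, Fintype.card_fin]
  have h1 := h.four_dvd c hc
  rcases eq_or_ne c 0 with rfl | h0
  · exact Or.inl hammingNorm_zero
  have h2 := h.eight_le c hc h0
  rcases eq_or_ne (c + fun _ => 1) 0 with e | e
  · rw [e, hammingNorm_zero] at hone; omega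
  · have h3 := h.eight_le _ (C.add_mem hc h.ones_mem) e
    omega

/-- There is a word of weight twelve. -/
theorem IsGolayLike.exists_twelve (h : IsGolayLike C) : ∃ c ∈ C, hammingNorm c = 12 := by
  by_contra hno
  push Not at hno
  set y := Complex.exp (Real.pi * Complex.I / 4)
  have hy : y ^ 4 = -1 := by
    rw [← Complex.exp_nat_mul, ← Complex.exp_pi_mul_I]; congr 1; push_cast; ring
  have hall : ∀ c : C, y ^ hammingNorm (c : Fin 24 → ZMod 2) = 1 := fun c => by
    rcases h.weight_mem c.2 with e | e | e | e | e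
    · rw [e, pow_zero]
    · rw [e, show 8 = 4 * 2 from rfl, pow_mul, hy]; norm_num
    · exact absurd e (hno c c.2)
    · rw [e, show 16 = 4 * 4 from rfl, pow_mul, hy]; norm_num
    · rw [e, show 24 = 4 * 6 from rfl, pow_mul, hy]; norm_num
  have h2 := enum_eq_golay h.toIsTypeII h.eight_le 1 y
  have h1 := enum_eq_golay h.toIsTypeII h.eight_le 1 1
  simp only [enum, one_pow, mul_one, hall] at h1 h2
  rw [h1, show y ^ 8 = (y ^ 4) ^ 2 by ring, show y ^ 12 = (y ^ 4) ^ 3 by ring,
    show y ^ 16 = (y ^ 4) ^ 4 by ring, show y ^ 24 = (y ^ 4) ^ 6 by ring, hy] at h2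
  norm_num at h2

/-- The words inside a word of weight twelve. -/
theorem IsGolayLike.eq_zero_or_self (h : IsGolayLike C) {d v : Fin 24 → ZMod 2} (hd : d ∈ C)
    (hdw : hammingNorm d = 12) (hv : v ∈ C) (hsub : ∀ i, d i = 0 → v i = 0) : v = 0 ∨ v = d := by
  have e : ∀ a b : ZMod 2, (a = 0 → b = 0) → (a + b = 1 ↔ (a = 1 ∧ ¬ b = 1)) := by decide
  have e' : ∀ a b : ZMod 2, (a = 0 → b = 0) → (b = 1 ↔ (a = 1 ∧ b = 1)) := by decide
  have hsum : hammingNorm v + hammingNorm (d + v) = 12 := by
    rw [weight_eq] at hdw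
    rw [weight_eq, weight_eq, ← hdw, filter_congr fun i _ => e' _ _ (hsub i),
      filter_congr fun i _ => show (d + v) i = 1 ↔ _ from e _ _ (hsub i), ← filter_filter,
      ← filter_filter, card_filter_add_card_filter_not]
  rcases eq_or_ne v 0 with hv0 | hv0
  · exact Or.inl hv0
  rcases eq_or_ne (d + v) 0 with hdv | hdv
  · exact Or.inr (funext fun i => by
      have := congrFun hdv i
      revert this
      exact (by decide : ∀ a b : ZMod 2, a + b = 0 → b = a) (d i) (v i))
  have := h.eight_le v hv hv0
  have := h.eight_le _ (C.add_mem hd hv) hdv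
  omega

/-- The codes are the double duals. -/
theorem dual_dual (P : Submodule (ZMod 2) (Fin 24 → ZMod 2)) : dual (dual P) = P := by
  refine (SetLike.coe_injective (Set.eq_of_subset_of_ncard_le (fun v hv => ?_) ?_)).symm
  · exact mem_dual.2 fun c hc =>
      (sum_congr rfl fun i _ => mul_comm _ _).trans (mem_dual.1 hc v hv)
  · have h1 := card_mul_card_dual P
    have h2 := card_mul_card_dual (dual P)
    rw [← h1, mul_comm (Nat.card P)] at h2
    have := mul_left_cancel₀ Nat.card_pos.ne' h2
    exact le_of_eq this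

/-- The pairs inside a word of weight twelve are completed. -/
theorem IsGolayLike.exists_completion (h : IsGolayLike C) {d : Fin 24 → ZMod 2} (hd : d ∈ C)
    (hdw : hammingNorm d = 12) {i j : Fin 24} (hi : d i = 1) (hj : d j = 1) :
    ∃ c ∈ C, ∀ k, d k = 1 → c k = (if k = i then 1 else 0) + (if k = j then 1 else 0) := by
  let π : (Fin 24 → ZMod 2) →ₗ[ZMod 2] (Fin 24 → ZMod 2) := LinearMap.mulLeft (ZMod 2) d
  have ht : (Pi.single i 1 + Pi.single j 1 : Fin 24 → ZMod 2) ∈ C.map π := by
    rw [← dual_dual (C.map π), mem_dual]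
    intro x hx
    have hxd : d * x ∈ C := (h.selfDual _).2 fun c hc => by
      rw [← mem_dual.1 hx _ (Submodule.mem_map_of_mem hc)]
      exact sum_congr rfl fun k _ => by simp [π]; ring
    have hxij : x i = x j := by
      rcases h.eq_zero_or_self hd hdw hxd (fun k hk => by simp [hk]) with e | e <;>
        have h1 := congrFun e i <;> have h2 := congrFun e j <;>
        simp_all
    simp [add_mul, sum_add_distrib, Pi.single_apply, hxij, CharTwo.add_self_eq_zero]
  obtain ⟨c, hc, hct⟩ := Submodule.mem_map.1 ht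
  refine ⟨c, hc, fun k hk => ?_⟩
  have := congrFun hct k
  simpa [π, hk, Pi.single_apply] using this

/-- A completion meets the other half in six points. -/
theorem IsGolayLike.completion_card (h : IsGolayLike C) {d : Fin 24 → ZMod 2} (hd : d ∈ C)
    (hdw : hammingNorm d = 12) {c : Fin 24 → ZMod 2} (hc : c ∈ C)
    (htwo : (univ.filter fun k => d k = 1 ∧ c k = 1).card = 2) :
    (univ.filter fun k => d k = 0 ∧ c k = 1).card = 6 := by
  have e : ∀ a : ZMod 2, a = 0 ↔ ¬ a = 1 := by decide
  have hsplit : hammingNorm c = 2 + (univ.filter fun k => d k = 0 ∧ c k = 1).card := by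
    rw [weight_eq, ← card_filter_add_card_filter_not (fun k => d k = 1), filter_filter,
      filter_filter]
    simp only [e, and_comm, htwo]
  have hle : (univ.filter fun k => d k = 0 ∧ c k = 1).card ≤ 12 := by
    have h1 : (univ.filter fun k => d k = 0).card = 12 := by
      have := card_filter_add_card_filter_not (s := univ) fun k => d k = 1
      rw [← weight_eq, hdw, card_univ, Fintype.card_fin] at this
      simp only [e]
      omega
    exact (card_le_card fun k hk => mem_filter.2 ⟨mem_univ k, (mem_filter.1 hk).2.1⟩).trans_eq h1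
  have e2 : ∀ a b : ZMod 2, b + (1 + a) = 1 ↔ (a = 1 ∧ b = 1) ∨ (a = 0 ∧ ¬ b = 1) := by decide
  rcases h.weight_mem hc with h1 | h1 | h1 | h1 | h1 <;> try omega
  exfalso
  -- twelve: the sum with the other half has weight four
  have hflip : hammingNorm (c + ((fun _ => 1) + d)) = 4 := by
    rw [weight_eq]
    simp only [Pi.add_apply, e2, filter_or]
    rw [card_union_of_disjoint, htwo]
    · have h12 : (univ.filter fun k => d k = 0).card = 12 := by
        have := card_filter_add_card_filter_not (s := univ) fun k => d k = 1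
        rw [← weight_eq, hdw, card_univ, Fintype.card_fin] at this
        simp only [e]
        omega
      have := card_filter_add_card_filter_not (s := univ.filter fun k => d k = 0) fun k => c k = 1
      rw [filter_filter, filter_filter, h12] at this
      omega
    · exact disjoint_filter.2 fun k _ hk hk' => by rw [hk.1] at hk'; exact one_ne_zero hk'.1
  have hne : c + ((fun _ => 1) + d) ≠ 0 := fun e0 => by simp [e0] at hflip
  have := h.eight_le _ (C.add_mem hc (C.add_mem h.ones_mem hd)) hne
  omega

theorem mem_golayCode {v : Fin 24 → ZMod 2} : v ∈ golayCode ↔ toBits v ∈ FA.Golay.code := Iff.rfl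

/-- The blocks completing the pairs through the first point. -/
def blockWord (i : Fin 11) (q : Fin 12) : ZMod 2 :=
  if hq : q = 0 then 0 else if (stdBlocks.getD i 0).testBit (q.pred hq) then 1 else 0

/-- The normal form of the code. -/
def NormalWord (w : Fin 12 ⊕ Fin 12 → ZMod 2) : Prop :=
  ∑ k, w (Sum.inl k) = 0 ∧
    ∃ ε : ZMod 2, ∀ q, w (Sum.inr q) = ε + ∑ i : Fin 11, w (Sum.inl i.succ) * blockWord i q

theorem IsGolayLike.exists_frame (h : IsGolayLike C) :
    ∃ d ∈ C, hammingNorm d = 12 ∧ ∃ e₀ : Fin 12 ⊕ Fin 12 ≃ Fin 24,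
      (∀ k, d (e₀ (Sum.inl k)) = 1) ∧ ∀ k, d (e₀ (Sum.inr k)) = 0 := by
  obtain ⟨d, hd, hdw⟩ := h.exists_twelve
  have h1 : Fintype.card {k // d k = 1} = 12 := by
    rw [Fintype.card_subtype, ← weight_eq, hdw]
  have h2 : Fintype.card {k // ¬ d k = 1} = 12 := by
    rw [Fintype.card_subtype_compl, h1, Fintype.card_fin]
  let a := (Fintype.equivFinOfCardEq h1).symm
  let b := (Fintype.equivFinOfCardEq h2).symm
  refine ⟨d, hd, hdw, (Equiv.sumCongr a b).trans (Equiv.sumCompl _), fun k => ?_, fun k => ?_⟩
  · exact (a k).2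
  · exact by_contra fun hne => (b k).2 ((zmod2_ne_zero _).1 hne)

theorem card_filter_sum (e : Fin 12 ⊕ Fin 12 ≃ Fin 24) (P : Fin 24 → Prop) [DecidablePred P] :
    (univ.filter P).card = (univ.filter fun k => P (e (Sum.inl k))).card +
      (univ.filter fun k => P (e (Sum.inr k))).card := by
  rw [card_filter, card_filter, card_filter, ← e.sum_comp, Fintype.sum_sum_type]

theorem card_filter_succ {n : ℕ} (P : Fin (n + 1) → Prop) [DecidablePred P] (h0 : ¬ P 0) :
    (univ.filter P).card = (univ.filter fun i : Fin n => P i.succ).card := by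
  rw [card_filter, card_filter, Fin.sum_univ_succ, if_neg h0, zero_add]

/-- **The normal form**, at a given word of weight twelve with a point inside and one outside. -/
theorem IsGolayLike.exists_normal_at (h : IsGolayLike C) {d : Fin 24 → ZMod 2} (hd : d ∈ C)
    (hdw : hammingNorm d = 12) (e₀ : Fin 12 ⊕ Fin 12 ≃ Fin 24)
    (hL : ∀ k, d (e₀ (Sum.inl k)) = 1) (hR : ∀ k, d (e₀ (Sum.inr k)) = 0) :
    ∃ e : Fin 12 ⊕ Fin 12 ≃ Fin 24, (∀ v, v ∈ C ↔ NormalWord fun s => v (e s)) ∧
      (∀ k, d (e (Sum.inl k)) = 1) ∧ (∀ k, d (e (Sum.inr k)) = 0) ∧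
      e (Sum.inl 0) = e₀ (Sum.inl 0) ∧ e (Sum.inr 0) = e₀ (Sum.inr 0) := by
  -- the completions, not through the first point of the other half
  have hcomp : ∀ i : Fin 11, ∃ c ∈ C, (∀ k, c (e₀ (Sum.inl k)) =
      (if k = 0 then 1 else 0) + (if k = i.succ then 1 else 0)) ∧ c (e₀ (Sum.inr 0)) = 0 :=
    fun i => by
    obtain ⟨c, hc, hck⟩ := h.exists_completion hd hdw (hL 0) (hL i.succ)
    have hk : ∀ k, c (e₀ (Sum.inl k)) =
        (if k = 0 then 1 else 0) + (if k = i.succ then 1 else 0) := fun k => by
      rw [hck _ (hL k)]; simp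
    by_cases hq : c (e₀ (Sum.inr 0)) = 0
    · exact ⟨c, hc, hk, hq⟩
    refine ⟨c + ((fun _ => 1) + d), C.add_mem hc (C.add_mem h.ones_mem hd), fun k => ?_, ?_⟩
    · simp [hL, hk, CharTwo.add_self_eq_zero]
    · simp [hR, (zmod2_ne_zero _).1 hq, CharTwo.add_self_eq_zero]
  choose c hc hcL hc0 using hcomp
  let b : Fin 11 → Fin 11 → Bool := fun i q => decide (c i (e₀ (Sum.inr q.succ)) = 1)
  have hright : ∀ w ∈ C, (univ.filter fun k => w (e₀ (Sum.inl k)) = 1).card = 2 →
      w (e₀ (Sum.inr 0)) = 0 →
        (univ.filter fun q : Fin 11 => w (e₀ (Sum.inr q.succ)) = 1).card = 6 :=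
    fun w hw htwo hw0 => by
    have h6 := h.completion_card hd hdw hw (by
      rw [card_filter_sum e₀]; simp [hL, hR, htwo])
    rw [card_filter_sum e₀, card_filter_succ (fun k => d (e₀ (Sum.inr k)) = 0 ∧ _)
      (by simp [hw0])] at h6
    simpa [hL, hR] using h6
  have hpair : ∀ i : Fin 12, ∀ j, i ≠ j → (univ.filter fun k : Fin 12 =>
      (if k = i then (1 : ZMod 2) else 0) + (if k = j then 1 else 0) = 1).card = 2 :=
    fun i j hij => by
    rw [show (univ.filter fun k : Fin 12 => (if k = i then (1 : ZMod 2) else 0) +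
        (if k = j then 1 else 0) = 1) = {i, j} from Finset.ext fun k => by
      by_cases h1 : k = i <;> by_cases h2 : k = j <;> simp_all, card_pair hij]
  have hsix : ∀ i, (univ.filter fun p => b i p = true).card = 6 := fun i => by
    simpa [b] using hright _ (hc i) (by
      simp only [hcL]; exact hpair 0 i.succ (Fin.succ_ne_zero i).symm) (hc0 i)
  have hmeet : ∀ i j, i ≠ j →
      (univ.filter fun p => (b i p && b j p) = true).card = 3 := fun i j hij => by
    have h6 := hright _ (C.add_mem (hc i) (hc j)) (by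
        refine Eq.trans ?_ (hpair i.succ j.succ fun e => hij (Fin.succ_inj.1 e))
        refine congrArg card (filter_congr fun k _ => ?_)
        rw [Pi.add_apply, hcL, hcL, show ∀ x y z : ZMod 2, x + y + (x + z) = y + z by decide])
      (by simp [hc0])
    have hkey : (univ.filter fun q : Fin 11 => (c i + c j) (e₀ (Sum.inr q.succ)) = 1).card +
        2 * (univ.filter fun p => (b i p && b j p) = true).card =
        (univ.filter fun p => b i p = true).card + (univ.filter fun p => b j p = true).card := by
      simp only [card_filter, mul_sum, ← sum_add_distrib]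
      refine sum_congr rfl fun q _ => ?_
      simp only [b, Pi.add_apply, decide_eq_true_eq, Bool.and_eq_true]
      rcases eq_zero_or_one (c i (e₀ (Sum.inr q.succ))) with h1 | h1 <;>
        rcases eq_zero_or_one (c j (e₀ (Sum.inr q.succ))) with h2 | h2 <;>
        simp [h1, h2, CharTwo.add_self_eq_zero]
    rw [h6, hsix, hsix] at hkey
    omega
  obtain ⟨τ, π, hb⟩ := biplane_unique b hsix hmeet
  -- the relabelling
  let lift : Equiv.Perm (Fin 11) → Equiv.Perm (Fin 12) := fun σ =>
    Equiv.ofBijective (Fin.cases 0 fun i => (σ i).succ) (Finite.injective_iff_bijective.1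
      fun x y => by
        refine Fin.cases ?_ (fun x' => ?_) x <;> refine Fin.cases ?_ (fun y' => ?_) y <;>
          simp [(Fin.succ_ne_zero _).symm])
  have lift_zero : ∀ σ, lift σ 0 = 0 := fun σ => rfl
  have lift_succ : ∀ σ (i : Fin 11), lift σ i.succ = (σ i).succ := fun σ i => by
    simp [lift, Equiv.ofBijective_apply]
  let e : Fin 12 ⊕ Fin 12 ≃ Fin 24 := (Equiv.sumCongr (lift π.symm) (lift τ)).trans e₀
  let g : Fin 11 → Fin 24 → ZMod 2 := fun i => c (π.symm i)
  have hgL : ∀ i k, g i (e (Sum.inl k)) =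
      (if k = 0 then 1 else 0) + (if k = i.succ then 1 else 0) := fun i k => by
    refine (hcL _ _).trans ?_
    refine Fin.cases ?_ (fun k' => ?_) k
    · rw [lift_zero]; simp [(Fin.succ_ne_zero _).symm]
    · rw [lift_succ]; simp [Fin.succ_ne_zero]
  have hgR : ∀ i q, g i (e (Sum.inr q)) = blockWord i q := fun i q => by
    refine Fin.cases ?_ (fun q' => ?_) q
    · show c _ (e₀ (Sum.inr (lift τ 0))) = _
      rw [lift_zero, hc0]; simp [blockWord]
    · show c _ (e₀ (Sum.inr (lift τ q'.succ))) = _
      rw [lift_succ]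
      have hbq := hb (π.symm i) q'
      simp only [Equiv.apply_symm_apply, b] at hbq
      simp only [blockWord, dif_neg (Fin.succ_ne_zero q'), Fin.pred_succ, ← hbq, decide_eq_true_eq]
      split_ifs with h1
      · exact h1
      · exact by_contra fun hne => h1 ((zmod2_ne_zero _).1 hne)
  have hdL : ∀ k, d (e (Sum.inl k)) = 1 := fun k => hL _
  have hdR : ∀ k, d (e (Sum.inr k)) = 0 := fun k => hR _
  refine ⟨e, fun v => ⟨fun hv => ?_, fun hv => ?_⟩, hdL, hdR,
    congrArg (e₀ ∘ Sum.inl) (lift_zero _), congrArg (e₀ ∘ Sum.inr) (lift_zero _)⟩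
  · have heven : ∑ k, v (e (Sum.inl k)) = 0 := by
      have := (h.selfDual v).1 hv d hd
      rw [← e.sum_comp, Fintype.sum_sum_type] at this
      simpa [hdL, hdR] using this
    refine ⟨heven, ?_⟩
    set u := v + ∑ i, v (e (Sum.inl i.succ)) • g i with hu
    have huC : u ∈ C := C.add_mem hv (C.sum_mem fun i _ => C.smul_mem _ (hc _))
    have huL : ∀ k, u (e (Sum.inl k)) = 0 := fun k => by
      simp only [hu, Pi.add_apply, Finset.sum_apply, Pi.smul_apply, smul_eq_mul, hgL, mul_add,
        sum_add_distrib]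
      refine Fin.cases ?_ (fun k' => ?_) k
      · rw [Fin.sum_univ_succ] at heven
        simpa [(Fin.succ_ne_zero _).symm] using heven
      · simp [Fin.succ_ne_zero, Fin.succ_inj, CharTwo.add_self_eq_zero]
    rcases h.eq_zero_or_self (C.add_mem h.ones_mem hd) (by
        have e2 : ∀ a : ZMod 2, 1 + a = 1 ↔ ¬ a = 1 := by decide
        have := card_filter_add_card_filter_not (s := univ) fun k => d k = 1
        rw [← weight_eq, hdw, card_univ, Fintype.card_fin] at this
        rw [weight_eq]
        simp only [Pi.add_apply, e2]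
        omega) huC (fun x hx => by
        obtain ⟨s, rfl⟩ := e.surjective x
        cases s with
        | inl k => exact huL k
        | inr k => simp [hdR] at hx) with h0 | h0
    all_goals
      refine ⟨u (e (Sum.inr 0)), fun q => ?_⟩
      have h1 := congrFun h0 (e (Sum.inr q))
      have h2 := congrFun h0 (e (Sum.inr 0))
      simp only [hu, Pi.add_apply, Finset.sum_apply, Pi.smul_apply, smul_eq_mul, hgR, hdR,
        Pi.zero_apply, add_zero] at h1 h2 ⊢
      rw [h2, show ∀ x y z : ZMod 2, (x = z + y) ↔ x + y = z by decide]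
      exact h1
  · obtain ⟨heven, ε, hε⟩ := hv
    have hvs : v = ε • ((fun _ => 1) + d) + ∑ i, v (e (Sum.inl i.succ)) • g i := by
      funext x
      obtain ⟨s, rfl⟩ := e.surjective x
      cases s with
      | inl k =>
        simp only [Pi.add_apply, Finset.sum_apply, Pi.smul_apply, smul_eq_mul, hgL, hdL, mul_add,
          sum_add_distrib, CharTwo.add_self_eq_zero]
        refine Fin.cases ?_ (fun k' => ?_) k
        · rw [Fin.sum_univ_succ] at heven
          simpa [(Fin.succ_ne_zero _).symm, CharTwo.add_eq_zero] using heven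
        · simp [Fin.succ_ne_zero, Fin.succ_inj]
      | inr q =>
        simpa [hdR, hgR] using hε q
    rw [hvs]
    exact C.add_mem (C.smul_mem _ (C.add_mem h.ones_mem hd))
      (C.sum_mem fun i _ => C.smul_mem _ (hc _))

/-- The normal form. -/
theorem IsGolayLike.exists_normal (h : IsGolayLike C) :
    ∃ e : Fin 12 ⊕ Fin 12 ≃ Fin 24, ∀ v, v ∈ C ↔ NormalWord fun s => v (e s) := by
  obtain ⟨d, hd, hdw, e₀, hL, hR⟩ := h.exists_frame
  obtain ⟨e, he, -⟩ := h.exists_normal_at hd hdw e₀ hL hR
  exact ⟨e, he⟩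

/-- **Uniqueness of the Golay code.** -/
theorem IsGolayLike.equiv_golay (h : IsGolayLike C) :
    ∃ σ : Equiv.Perm (Fin 24), ∀ v, v ∈ C ↔ (fun i => v (σ i)) ∈ golayCode := by
  obtain ⟨e, he⟩ := h.exists_normal
  obtain ⟨e', he'⟩ :=
    (IsGolayLike.mk golayCode_isTypeII.1 golayCode_isTypeII.2).exists_normal
  refine ⟨e'.symm.trans e, fun v => (he v).trans ?_⟩
  rw [he']
  simp

end FA.LeechUnique

end
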