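import Fermat.Agent.LeechUnique.GolayUnique
import Fermat.Agent.LeechUnique.BiplaneAut

/-!
# The order of the Mathieu group `M₂₄`

The automorphisms of the Golay code move a word of weight twelve, a point inside and a point outside
to any others, and those fixing them are the automorphisms of the biplane: `2576 · 144 · 660`.
-/

set_option autoImplicit false

noncomputable section

open scoped Classical

namespace FA.LeechUnique

open FA.Golay (code wt)
open FA.Gleason

/-- A permutation of the coordinates preserves the Golay code. -/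
def PreservesCode (σ : Fin 24 → Fin 24) : Prop :=
  ∀ c : Fin 24 → Bool, (fun i => c (σ i)) ∈ code ↔ c ∈ code

theorem preservesCode_id : PreservesCode fun i => i := fun _ => Iff.rfl

theorem PreservesCode.comp {σ ρ : Fin 24 → Fin 24} (hσ : PreservesCode σ) (hρ : PreservesCode ρ) :
    PreservesCode fun i => σ (ρ i) := fun c => (hρ fun i => c (σ i)).trans (hσ c)

theorem PreservesCode.symm {σ : Equiv.Perm (Fin 24)} (hσ : PreservesCode σ) :
    PreservesCode σ.symm := fun c => by
  simpa using (hσ fun i => c (σ.symm i)).symm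

theorem preservesCode_of_forward {s : Fin 24 → Fin 24} (hs : Function.Injective s)
    (h : ∀ c ∈ code, (fun i => c (s i)) ∈ code) : PreservesCode s := fun c => by
  refine ⟨fun hc => ?_, h c⟩
  have hsur : Function.Surjective s := Finite.injective_iff_surjective.1 hs
  obtain ⟨d, hd, he⟩ := Finset.surjOn_of_injOn_of_card_le (fun c i => c (s i))
    (fun d hd => Finset.mem_coe.2 (h d (Finset.mem_coe.1 hd)))
    (fun a _ b _ hab => hsur.injective_comp_right hab) le_rfl (Finset.mem_coe.2 hc)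
  rwa [← hsur.injective_comp_right he]

theorem toBits_surjective (c : Fin 24 → Bool) : ∃ v : Fin 24 → ZMod 2, toBits v = c :=
  ⟨fun i => if c i then 1 else 0, funext fun i => by cases h : c i <;> simp [toBits, h]⟩

theorem preservesCode_iff {σ : Fin 24 → Fin 24} :
    PreservesCode σ ↔ ∀ v, (fun i => v (σ i)) ∈ golayCode ↔ v ∈ golayCode := by
  refine ⟨fun h v => mem_golayCode.trans ((h (toBits v)).trans mem_golayCode.symm), fun h c => ?_⟩
  obtain ⟨v, rfl⟩ := toBits_surjective c
  exact mem_golayCode.symm.trans ((h v).trans mem_golayCode)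

theorem isGolayLike_golay : IsGolayLike golayCode :=
  ⟨golayCode_isTypeII.1, golayCode_isTypeII.2⟩

/-- A word of weight twelve, a point inside and a point outside. -/
def dodecadFlags : Finset ((Fin 24 → Bool) × Fin 24 × Fin 24) :=
  ((code.filter fun c => wt c = 12) ×ˢ (Finset.univ : Finset (Fin 24 × Fin 24))).filter
    fun x => x.1 x.2.1 = true ∧ x.1 x.2.2 = false

theorem mem_dodecadFlags {x : (Fin 24 → Bool) × Fin 24 × Fin 24} : x ∈ dodecadFlags ↔
    (x.1 ∈ code ∧ wt x.1 = 12) ∧ x.1 x.2.1 = true ∧ x.1 x.2.2 = false := by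
  simp only [dodecadFlags, Finset.mem_filter, Finset.mem_product, Finset.mem_univ, and_true]

theorem card_dodecadFlags : dodecadFlags.card = 370944 := by
  rw [dodecadFlags, Finset.card_filter, Finset.sum_product,
    Finset.sum_congr rfl (g := fun _ => 144) fun c hc => ?_, Finset.sum_const,
    FA.Golay.card_wt_values.2.2.1]
  · norm_num
  obtain ⟨-, hw⟩ := Finset.mem_filter.1 hc
  have h1 : (Finset.univ.filter fun i => c i = true).card = 12 := hw
  have h2 : (Finset.univ.filter fun i => c i = false).card = 12 := by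
    have := Finset.card_filter_add_card_filter_not (s := Finset.univ) fun i => c i = true
    simp only [Bool.not_eq_true, Finset.card_univ, Fintype.card_fin] at this
    omega
  rw [← Finset.card_filter, show (Finset.univ.filter fun p : Fin 24 × Fin 24 =>
      c p.1 = true ∧ c p.2 = false) = (Finset.univ.filter fun i => c i = true) ×ˢ
        (Finset.univ.filter fun i => c i = false) from Finset.ext fun p => by simp,
    Finset.card_product, h1, h2]

-- keep membership from being evaluated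
attribute [irreducible] dodecadFlags

theorem flag_map {σ : Equiv.Perm (Fin 24)} (hσ : PreservesCode σ)
    {x : (Fin 24 → Bool) × Fin 24 × Fin 24} (hx : x ∈ dodecadFlags) :
    ((fun i => x.1 (σ.symm i)), σ x.2.1, σ x.2.2) ∈ dodecadFlags := by
  obtain ⟨⟨hc, hw⟩, h1, h2⟩ := mem_dodecadFlags.1 hx
  refine mem_dodecadFlags.2 ⟨⟨(hσ.symm _).2 hc, ?_⟩, by simpa using h1, by simpa using h2⟩
  rw [← hw]
  exact Finset.card_equiv σ.symm fun i => by simp

/-- A normal form at a flag. -/
structure IsFlagFrame (x : (Fin 24 → Bool) × Fin 24 × Fin 24)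
    (e : Fin 12 ⊕ Fin 12 ≃ Fin 24) : Prop where
  normal : ∀ v, v ∈ golayCode ↔ NormalWord fun s => v (e s)
  sides : ∀ s, x.1 (e s) = s.isLeft
  inside : e (Sum.inl 0) = x.2.1
  outside : e (Sum.inr 0) = x.2.2

theorem exists_flagFrame {x : (Fin 24 → Bool) × Fin 24 × Fin 24} (hx : x ∈ dodecadFlags) :
    ∃ e, IsFlagFrame x e := by
  obtain ⟨⟨hc, hw⟩, h1, h2⟩ := mem_dodecadFlags.1 hx
  obtain ⟨v, hv⟩ := toBits_surjective x.1
  have hvb : ∀ i, x.1 i = decide (v i = 1) := fun i => (congrFun hv i).symm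
  have hd : v ∈ golayCode := mem_golayCode.2 (hv ▸ hc)
  have hdw : hammingNorm v = 12 := by rw [hammingNorm_eq_wt, hv, hw]
  have hcardL : Fintype.card {k // v k = 1} = 12 := by
    rw [Fintype.card_subtype, ← weight_eq, hdw]
  have hcardR : Fintype.card {k // ¬ v k = 1} = 12 := by
    rw [Fintype.card_subtype_compl, hcardL, Fintype.card_fin]
  let a := (Fintype.equivFinOfCardEq hcardL).symm
  let b := (Fintype.equivFinOfCardEq hcardR).symm
  have hp : v x.2.1 = 1 := by simpa [hvb] using h1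
  have hq : ¬ v x.2.2 = 1 := by simpa [hvb] using h2
  let e₀ : Fin 12 ⊕ Fin 12 ≃ Fin 24 := (Equiv.sumCongr (a.trans (Equiv.swap (a 0) ⟨_, hp⟩))
    (b.trans (Equiv.swap (b 0) ⟨_, hq⟩))).trans (Equiv.sumCompl _)
  obtain ⟨e, he, hL, hR, hi, ho⟩ := isGolayLike_golay.exists_normal_at hd hdw e₀
    (fun k => ((a.trans (Equiv.swap (a 0) ⟨_, hp⟩)) k).2)
    (fun k => by_contra fun hne =>
      ((b.trans (Equiv.swap (b 0) ⟨_, hq⟩)) k).2 ((zmod2_ne_zero _).1 hne))
  refine ⟨e, he, fun s => ?_, hi.trans ?_, ho.trans ?_⟩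
  · cases s with
    | inl k => simp [hvb, hL]
    | inr k => simp [hvb, hR]
  · simp [e₀]
  · simp [e₀]

/-- The normal form with the two sides relabelled. -/
theorem normalWord_relabel {π τ : Equiv.Perm (Fin 11)}
    (hb : ∀ i q, (stdBlocks.getD (π i) 0).testBit (τ q) = (stdBlocks.getD i 0).testBit q)
    {g : Fin 12 ⊕ Fin 12 → Fin 12 ⊕ Fin 12} (hl0 : g (Sum.inl 0) = Sum.inl 0)
    (hr0 : g (Sum.inr 0) = Sum.inr 0) (hl : ∀ i : Fin 11, g (Sum.inl i.succ) = Sum.inl (π i).succ)
    (hr : ∀ q : Fin 11, g (Sum.inr q.succ) = Sum.inr (τ q).succ)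
    {w : Fin 12 ⊕ Fin 12 → ZMod 2} (hw : NormalWord w) : NormalWord fun s => w (g s) := by
  obtain ⟨h1, ε, h2⟩ := hw
  refine ⟨?_, ε, fun q => ?_⟩
  · rw [← h1, Fin.sum_univ_succ, Fin.sum_univ_succ fun k => w (Sum.inl k)]
    simp only [hl0, hl]
    rw [Equiv.sum_comp π fun i => w (Sum.inl i.succ)]
  · simp only [hl]
    refine Fin.cases ?_ (fun q' => ?_) q
    · rw [hr0, h2]; simp [blockWord]
    · rw [hr, h2, ← Equiv.sum_comp π]
      simp only [blockWord, dif_neg (Fin.succ_ne_zero _), Fin.pred_succ, hb]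

theorem blockMap_spec {τ : Equiv.Perm (Fin 11)} (hτ : PreservesBlocks τ) :
    ∃ π : Equiv.Perm (Fin 11),
      ∀ i q, (stdBlocks.getD (π i) 0).testBit (τ q) = (stdBlocks.getD i 0).testBit q := by
  have hget : ∀ i : Fin 11, stdBlocks.getD i 0 ∈ stdBlocks := by decide +kernel
  have hidx : ∀ i : Fin 11, stdBlocks.idxOf (stdBlocks.getD i 0) = i := by decide +kernel
  have h : ∀ i : Fin 11, ∃ k : Fin 11, mapMask τ (stdBlocks.getD k 0) = stdBlocks.getD i 0 :=
    fun i => by
    obtain ⟨m, hm, he⟩ := hτ.surjOn (hget i)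
    have hlt := List.idxOf_lt_length_iff.2 hm
    refine ⟨⟨stdBlocks.idxOf m, stdBlocks_facts.2 ▸ hlt⟩, ?_⟩
    rw [show stdBlocks.getD _ 0 = m from
      (List.getD_eq_getElem _ _ hlt).trans (List.getElem_idxOf _), he]
  choose k hk using h
  have hinj : Function.Injective k := fun i j e => by
    have : stdBlocks.getD i 0 = stdBlocks.getD j 0 := by rw [← hk i, ← hk j, e]
    exact Fin.ext (by rw [← hidx i, ← hidx j, this])
  refine ⟨Equiv.ofBijective k (Finite.injective_iff_bijective.1 hinj), fun i q => ?_⟩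
  rw [← hk i, mapMask_testBit]
  rfl

theorem succPart {g : Equiv.Perm (Fin 12)} (h0 : g 0 = 0) :
    ∃ p : Equiv.Perm (Fin 11), ∀ i : Fin 11, g i.succ = (p i).succ := by
  have h : ∀ i : Fin 11, g i.succ ≠ 0 := fun i e =>
    Fin.succ_ne_zero i (g.injective (e.trans h0.symm))
  refine ⟨Equiv.ofBijective (fun i => (g i.succ).pred (h i)) (Finite.injective_iff_bijective.1
    fun i j e => Fin.succ_injective _ (g.injective (Fin.pred_inj.1 e))), fun i => ?_⟩
  simp [Equiv.ofBijective_apply]

theorem sidePart {g : Equiv.Perm (Fin 12 ⊕ Fin 12)} (hg : ∀ s, (g s).isLeft = s.isLeft) :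
    ∃ a b : Equiv.Perm (Fin 12), g = Equiv.sumCongr a b := by
  have hl : ∀ k, ∃ k', g (Sum.inl k) = Sum.inl k' := fun k => by
    rcases h : g (Sum.inl k) with k' | k'
    · exact ⟨k', rfl⟩
    · simpa [h] using hg (Sum.inl k)
  have hr : ∀ k, ∃ k', g (Sum.inr k) = Sum.inr k' := fun k => by
    rcases h : g (Sum.inr k) with k' | k'
    · simpa [h] using hg (Sum.inr k)
    · exact ⟨k', rfl⟩
  choose a ha using hl
  choose b hb using hr
  have hai : Function.Injective a := fun i j e =>
    Sum.inl_injective (g.injective (by rw [ha, ha, e]))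
  have hbi : Function.Injective b := fun i j e =>
    Sum.inr_injective (g.injective (by rw [hb, hb, e]))
  refine ⟨Equiv.ofBijective a (Finite.injective_iff_bijective.1 hai),
    Equiv.ofBijective b (Finite.injective_iff_bijective.1 hbi), Equiv.ext fun s => ?_⟩
  cases s with
  | inl k => simp [ha]
  | inr k => simp [hb]

/-- A relabelling keeping the normal form is an automorphism of the biplane. -/
theorem biplaneAut_of_normal {a b : Equiv.Perm (Fin 12)} (ha : a 0 = 0) (hb : b 0 = 0)
    (h : ∀ w, NormalWord w → NormalWord fun s => w (Equiv.sumCongr a b s)) :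
    ∃ π τ : Equiv.Perm (Fin 11), (∀ i : Fin 11, a i.succ = (π i).succ) ∧
      (∀ q : Fin 11, b q.succ = (τ q).succ) ∧ PreservesBlocks τ ∧
      ∀ i q, (stdBlocks.getD (π i) 0).testBit (τ q) = (stdBlocks.getD i 0).testBit q := by
  obtain ⟨π, hπ⟩ := succPart ha
  obtain ⟨τ, hτ⟩ := succPart hb
  have hbit : ∀ i q, (stdBlocks.getD (π i) 0).testBit (τ q) =
      (stdBlocks.getD i 0).testBit q := by
    intro i q
    let w : Fin 12 ⊕ Fin 12 → ZMod 2 := Sum.elim
      (fun k => (if k = 0 then 1 else 0) + if k = (π i).succ then 1 else 0) (blockWord (π i))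
    have hw : NormalWord w := by
      refine ⟨by simp [w, Finset.sum_add_distrib, CharTwo.add_self_eq_zero], 0, fun p => ?_⟩
      simp [w, Fin.succ_ne_zero, Fin.succ_inj]
    obtain ⟨-, ε, hε⟩ := h w hw
    have h0 := hε 0
    have h1 := hε q.succ
    simp [w, hπ, hτ, hb, Fin.succ_ne_zero, Fin.succ_inj, blockWord] at h0 h1
    subst h0
    simp only [zero_add] at h1
    rw [Finset.sum_eq_single i (fun j _ hj => by simp [hj])
      (fun hi => absurd (Finset.mem_univ i) hi), if_pos rfl] at h1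
    simp only [← List.getD_eq_getElem?_getD] at h1
    generalize (stdBlocks.getD (π i) 0).testBit (τ q) = x at h1 ⊢
    generalize (stdBlocks.getD i 0).testBit q = y at h1 ⊢
    cases x <;> cases y <;> simp_all
  refine ⟨π, τ, hπ, hτ, fun m hm => ?_, hbit⟩
  have hget : ∀ j : Fin 11, stdBlocks.getD j 0 ∈ stdBlocks := by decide +kernel
  have hlt := List.idxOf_lt_length_iff.2 hm
  set j : Fin 11 := ⟨stdBlocks.idxOf m, stdBlocks_facts.2 ▸ hlt⟩
  have hj : stdBlocks.getD j 0 = m :=
    (List.getD_eq_getElem _ _ hlt).trans (List.getElem_idxOf _)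
  convert hget (π.symm j) using 1
  have hsmall : ∀ i : Fin 11, stdBlocks.getD i 0 < 2 ^ 11 := by decide +kernel
  refine Nat.eq_of_testBit_eq fun k => ?_
  rcases lt_or_ge k 11 with hk | hk
  · rw [mapMask_testBit τ m ⟨k, hk⟩, ← hj, ← hbit (π.symm j) ⟨k, hk⟩, Equiv.apply_symm_apply]
  · rw [mapMask, maskOf, Nat.testBit_ofBits_ge _ _ hk, Nat.testBit_lt_two_pow
      ((hsmall _).trans_le (Nat.pow_le_pow_right two_pos hk))]

/-- The relabelling of the two sides by an automorphism of the biplane. -/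
theorem exists_relabel {τ : Equiv.Perm (Fin 11)} (hτ : PreservesBlocks τ) :
    ∃ g : Equiv.Perm (Fin 12 ⊕ Fin 12), (∀ w, NormalWord (fun s => w (g s)) ↔ NormalWord w) ∧
      (∀ s, (g s).isLeft = s.isLeft) ∧ g (Sum.inl 0) = Sum.inl 0 ∧ g (Sum.inr 0) = Sum.inr 0 ∧
      ∀ q : Fin 11, g (Sum.inr q.succ) = Sum.inr (τ q).succ := by
  obtain ⟨π, hπ⟩ := blockMap_spec hτ
  let up : Equiv.Perm (Fin 11) → Equiv.Perm (Fin 12) := fun p =>
    ⟨Fin.cases 0 fun i => (p i).succ, Fin.cases 0 fun i => (p.symm i).succ,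
      fun k => by refine Fin.cases ?_ (fun i => ?_) k <;> simp,
      fun k => by refine Fin.cases ?_ (fun i => ?_) k <;> simp⟩
  have h0 : ∀ p, up p 0 = 0 := fun p => rfl
  have hs : ∀ p (i : Fin 11), up p i.succ = (p i).succ := fun p i => by simp [up]
  refine ⟨Equiv.sumCongr (up π) (up τ), fun w => ⟨fun h => ?_,
    fun h => normalWord_relabel hπ (by simp [h0]) (by simp [h0]) (fun i => by simp [hs])
      (fun q => by simp [hs]) h⟩, fun s => by cases s <;> rfl, by simp [h0], by simp [h0],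
    fun q => by simp [hs]⟩
  have h' := normalWord_relabel (π := π.symm) (τ := τ.symm)
    (g := fun s => (Equiv.sumCongr (up π.symm) (up τ.symm)) s)
    (fun i q => by rw [← hπ (π.symm i) (τ.symm q), Equiv.apply_symm_apply, Equiv.apply_symm_apply])
    (by simp [h0]) (by simp [h0]) (fun i => by simp [hs]) (fun q => by simp [hs]) h
  convert h' using 1
  funext s
  rcases s with k | k <;> refine Fin.cases ?_ (fun i => ?_) k <;> simp [h0, hs]

/-- **The order of `M₂₄`.** -/
theorem card_preservesCode :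
    Nat.card {σ : Equiv.Perm (Fin 24) // PreservesCode σ} = 244823040 := by
  obtain ⟨x₀, hx₀⟩ := Finset.card_pos.1 (card_dodecadFlags.symm ▸ by norm_num :
    0 < dodecadFlags.card)
  choose e he using fun x : dodecadFlags => exists_flagFrame x.2
  have e₀ := he ⟨x₀, hx₀⟩
  set E := e ⟨x₀, hx₀⟩
  have ei : E (Sum.inl 0) = x₀.2.1 := e₀.inside
  have eo : E (Sum.inr 0) = x₀.2.2 := e₀.outside
  let f : {σ : Equiv.Perm (Fin 24) // PreservesCode σ} → dodecadFlags := fun σ =>
    ⟨((fun i => x₀.1 (σ.1.symm i)), σ.1 x₀.2.1, σ.1 x₀.2.2), flag_map σ.2 hx₀⟩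
  -- moving the flag
  let s : dodecadFlags → Equiv.Perm (Fin 24) := fun x => E.symm.trans (e x)
  have hs : ∀ x, PreservesCode (s x) := fun x => preservesCode_iff.2 fun v => by
    rw [e₀.normal, (he x).normal]
    simp [s]
  have hs1 : ∀ (x : dodecadFlags) i, x.1.1 (s x i) = x₀.1 i := fun x i => by
    obtain ⟨u, rfl⟩ := E.surjective i
    rw [e₀.sides]
    simpa [s] using (he x).sides u
  have hs2 : ∀ x, s x x₀.2.1 = x.1.2.1 ∧ s x x₀.2.2 = x.1.2.2 := fun x => by
    simp only [s, Equiv.trans_apply]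
    rw [← ei, ← eo, Equiv.symm_apply_apply, Equiv.symm_apply_apply]
    exact ⟨(he x).inside, (he x).outside⟩
  let T : dodecadFlags → Equiv.Perm {σ : Equiv.Perm (Fin 24) // PreservesCode σ} := fun x =>
    ⟨fun σ => ⟨σ.1.trans (s x), (hs x).comp σ.2⟩,
      fun σ => ⟨σ.1.trans (s x).symm, (hs x).symm.comp σ.2⟩,
      fun σ => Subtype.ext (Equiv.ext fun i => (s x).symm_apply_apply _),
      fun σ => Subtype.ext (Equiv.ext fun i => (s x).apply_symm_apply _)⟩
  rw [card_eq_of_translate f ⟨x₀, hx₀⟩ T fun x σ => ?_, Nat.card_eq_finsetCard, card_dodecadFlags]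
  swap
  · simp only [f, T, Subtype.ext_iff, Prod.ext_iff, Equiv.coe_fn_mk, Equiv.trans_apply,
      funext_iff, Equiv.symm_trans_apply]
    rw [← (hs2 x).1, ← (hs2 x).2, (s x).injective.eq_iff, (s x).injective.eq_iff]
    refine and_congr_left' ⟨fun h i => ?_, fun h i => ?_⟩
    · have := h (s x i)
      rwa [Equiv.symm_apply_apply, hs1] at this
    · rw [h, ← hs1 x, Equiv.apply_symm_apply]
  -- the stabiliser
  suffices hst : Nat.card {σ // f σ = ⟨x₀, hx₀⟩} =
      Nat.card {τ : Equiv.Perm (Fin 11) // PreservesBlocks τ} by rw [hst, card_biplaneAut]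
  choose g hg hgside hgl hgr hgτ using fun τ : {τ : Equiv.Perm (Fin 11) // PreservesBlocks τ} =>
    exists_relabel τ.2
  have hfix : ∀ (σ : {σ : Equiv.Perm (Fin 24) // PreservesCode σ}),
      f σ = ⟨x₀, hx₀⟩ → ∀ i, x₀.1 (σ.1 i) = x₀.1 i := fun σ h i => by
    have := congrFun (congrArg (fun x : dodecadFlags => x.1.1) h) (σ.1 i)
    simpa [f] using this.symm
  symm
  refine Nat.card_congr (Equiv.ofBijective (fun τ => ⟨⟨E.symm.trans ((g τ).trans E), ?_⟩, ?_⟩)
    ⟨fun τ τ' h => ?_, fun σ => ?_⟩)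
  · refine preservesCode_iff.2 fun v => ?_
    rw [e₀.normal, e₀.normal, ← hg τ fun u => v (E u)]
    simp
  · simp only [f, Subtype.ext_iff, Prod.ext_iff, funext_iff, Equiv.symm_trans_apply,
      Equiv.symm_symm, Equiv.trans_apply]
    refine ⟨fun i => ?_, ?_, ?_⟩
    · obtain ⟨u, rfl⟩ := E.surjective i
      rw [Equiv.symm_apply_apply, e₀.sides, e₀.sides]
      simpa using (hgside τ ((g τ).symm u)).symm
    · rw [← ei, Equiv.symm_apply_apply, hgl]
    · rw [← eo, Equiv.symm_apply_apply, hgr]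
  · refine Subtype.ext (Equiv.ext fun q => ?_)
    have := congrArg (fun σ => σ.1.1 (E (Sum.inr q.succ))) h
    simpa [hgτ] using this
  · obtain ⟨σ, hσ⟩ := σ
    set g' : Equiv.Perm (Fin 12 ⊕ Fin 12) := E.trans (σ.1.trans E.symm)
    have hside : ∀ u, (g' u).isLeft = u.isLeft := fun u => by
      rw [← e₀.sides, ← e₀.sides]
      simpa [g'] using hfix σ hσ (E u)
    obtain ⟨a, b, hab⟩ := sidePart hside
    have hp : σ.1 x₀.2.1 = x₀.2.1 ∧ σ.1 x₀.2.2 = x₀.2.2 :=
      ⟨congrArg (fun x : dodecadFlags => x.1.2.1) hσ, congrArg (fun x : dodecadFlags => x.1.2.2) hσ⟩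
    have ha : a 0 = 0 := Sum.inl_injective (show Equiv.sumCongr a b (Sum.inl 0) = Sum.inl 0 by
      rw [← hab]; simp [g', ei, hp.1]; exact E.eq_symm_apply.2 ei |>.symm)
    have hb : b 0 = 0 := Sum.inr_injective (show Equiv.sumCongr a b (Sum.inr 0) = Sum.inr 0 by
      rw [← hab]; simp [g', eo, hp.2]; exact E.eq_symm_apply.2 eo |>.symm)
    have hnorm : ∀ w, NormalWord w → NormalWord fun u => w (Equiv.sumCongr a b u) := fun w hw => by
      have h1 := (e₀.normal _).1 (((preservesCode_iff.1 σ.2) fun i => w (E.symm i)).2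
        ((e₀.normal _).2 (by simpa using hw)))
      simpa [← hab, g'] using h1
    obtain ⟨π, τ, hπ, hτ, hτA, hbit⟩ := biplaneAut_of_normal ha hb hnorm
    refine ⟨⟨τ, hτA⟩, Subtype.ext (Subtype.ext (Equiv.ext fun i => ?_))⟩
    obtain ⟨u, rfl⟩ := E.surjective i
    simp only [Equiv.trans_apply, Equiv.symm_apply_apply]
    rw [show σ.1 (E u) = E (g' u) by simp [g'], hab]
    congr 1
    obtain ⟨a', b', hab'⟩ := sidePart (hgside ⟨τ, hτA⟩)
    have ha' : a' 0 = 0 := Sum.inl_injective (β := Fin 12) (by simpa [hab'] using hgl ⟨τ, hτA⟩)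
    have hb' : b' 0 = 0 := Sum.inr_injective (α := Fin 12) (by simpa [hab'] using hgr ⟨τ, hτA⟩)
    obtain ⟨π', τ', hπ', hτ', -, hbit'⟩ := biplaneAut_of_normal ha' hb'
      fun w hw => by simpa [hab'] using (hg ⟨τ, hτA⟩ w).2 hw
    have hττ : τ' = τ := Equiv.ext fun q => Fin.succ_injective _ (Sum.inr_injective (α := Fin 12)
      (by simpa [hab', hτ'] using hgτ ⟨τ, hτA⟩ q))
    have hππ : π' = π := Equiv.ext fun j => by
      have hsep : ∀ i k : Fin 11, (∀ q : Fin 11, (stdBlocks.getD i 0).testBit q =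
          (stdBlocks.getD k 0).testBit q) → i = k := by decide +kernel
      refine hsep _ _ fun q => ?_
      obtain ⟨p, rfl⟩ := τ.surjective q
      rw [hbit j p, ← hbit' j p, hττ]
    rw [hab']
    rcases u with k | k <;> refine Fin.cases ?_ (fun i => ?_) k <;>
      simp [ha, ha', hb, hb', hπ, hπ', hτ, hτ', hππ, hττ]

end FA.LeechUnique

end
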